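import Fermat.Agent.GAL.KLC.Val

/-!
# GAL / KLC / V2 : the Gauss valuation is of rank one; `v(n) = 1` for `ℓ ∤ n`
-/

set_option autoImplicit false

open ModularCurve AlgebraicCurve Polynomial

noncomputable section

namespace Fermat.Agent.GAL.KLC

open Fermat.Agent.GR Fermat.Agent.GAL.KL

/-! ## general valuations on fields algebraic over `ℚ` -/

section General

variable {K Γ₀ : Type*} [Field K] [LinearOrderedCommGroupWithZero Γ₀] (v : Valuation K Γ₀)

theorem ValArch.natCast_le_one (n : ℕ) : v (n : K) ≤ 1 := by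
  induction n with
  | zero => simp
  | succ k ih =>
    rw [Nat.cast_succ]
    exact le_trans (v.map_add _ _) (max_le ih (by rw [map_one]))

theorem ValArch.intCast_le_one (n : ℤ) : v (n : K) ≤ 1 := by
  obtain ⟨k, rfl | rfl⟩ := n.eq_nat_or_neg
  · rw [Int.cast_natCast]; exact ValArch.natCast_le_one v k
  · rw [Int.cast_neg, Valuation.map_neg, Int.cast_natCast]; exact ValArch.natCast_le_one v k

variable {v}

/-- integers prime to `ℓ` are units. -/
theorem ValArch.intCast_eq_one {ℓ : ℕ} (hℓ : ℓ.Prime) (hv : v (ℓ : K) < 1) {n : ℤ}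
    (hn : ¬ (ℓ : ℤ) ∣ n) : v (n : K) = 1 := by
  refine le_antisymm (ValArch.intCast_le_one v n) (not_lt.mp fun hlt => ?_)
  have hcop : IsCoprime (ℓ : ℤ) n :=
    (Prime.coprime_iff_not_dvd (Nat.prime_iff_prime_int.mp hℓ)).mpr hn
  obtain ⟨a, b, hab⟩ := hcop
  have h1 : (a : K) * (ℓ : K) + (b : K) * (n : K) = 1 := by exact_mod_cast congrArg (Int.cast : ℤ → K) hab
  have h2 : v ((a : K) * (ℓ : K) + (b : K) * (n : K)) < 1 := by
    refine lt_of_le_of_lt (v.map_add _ _) (max_lt ?_ ?_)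
    · rw [map_mul]
      exact lt_of_le_of_lt (mul_le_of_le_one_left' (ValArch.intCast_le_one v a)) hv
    · rw [map_mul]
      exact lt_of_le_of_lt (mul_le_of_le_one_left' (ValArch.intCast_le_one v b)) hlt
  rw [h1, map_one] at h2
  exact lt_irrefl _ h2

/-- integers divisible by `ℓ` have value `≤ v ℓ`. -/
theorem ValArch.intCast_le_of_dvd {ℓ : ℕ} {n : ℤ} (hn : (ℓ : ℤ) ∣ n) : v (n : K) ≤ v (ℓ : K) := by
  obtain ⟨m, rfl⟩ := hn
  rw [Int.cast_mul, map_mul, Int.cast_natCast]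
  exact mul_le_of_le_one_right' (ValArch.intCast_le_one v m)

/-- a nonzero integer has value `≥ v(ℓ)^e` for some `e`. -/
theorem ValArch.exists_pow_le_intCast {ℓ : ℕ} (hℓ : ℓ.Prime) (hv : v (ℓ : K) < 1) {n : ℤ}
    (hn : n ≠ 0) : ∃ e : ℕ, v (ℓ : K) ^ e ≤ v (n : K) := by
  have hfin : FiniteMultiplicity (ℓ : ℤ) n :=
    Int.finiteMultiplicity_iff.mpr ⟨by
      rw [Int.natAbs_natCast]; exact hℓ.ne_one, hn⟩
  obtain ⟨c, hc1, hc2⟩ := hfin.exists_eq_pow_mul_and_not_dvd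
  refine ⟨multiplicity (ℓ : ℤ) n, ?_⟩
  conv_rhs => rw [hc1]
  rw [Int.cast_mul, Int.cast_pow, Int.cast_natCast, map_mul, map_pow,
    ValArch.intCast_eq_one hℓ hv hc2, mul_one]

variable [CharZero K] [Algebra.IsAlgebraic ℚ K]

theorem ValArch.isAlgebraic_int (a : K) : IsAlgebraic ℤ a :=
  (IsFractionRing.isAlgebraic_iff ℤ ℚ K).mpr (Algebra.IsAlgebraic.isAlgebraic a)

/-- (i) every nonzero `b` has value `≥ v(ℓ)^e` for some `e`. -/
theorem ValArch.exists_pow_le {ℓ : ℕ} (hℓ : ℓ.Prime) (hv : v (ℓ : K) < 1) {b : K} (hb : b ≠ 0) :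
    ∃ e : ℕ, v (ℓ : K) ^ e ≤ v b := by
  by_cases hb1 : v b ≤ 1
  swap
  · exact ⟨0, by rw [pow_zero]; exact (not_le.mp hb1).le⟩
  obtain ⟨P, hP0, hP⟩ := (ValArch.isAlgebraic_int b).exists_nonzero_coeff_and_aeval_eq_zero
    (mem_nonZeroDivisors_of_ne_zero hb)
  obtain ⟨e, he⟩ := ValArch.exists_pow_le_intCast hℓ hv hP0
  refine ⟨e, le_trans he ?_⟩
  rw [aeval_eq_sum_range, Finset.sum_range_succ'] at hP
  simp only [pow_zero, zsmul_eq_mul, mul_one] at hP
  have h1 : ((P.coeff 0 : ℤ) : K) = -∑ i ∈ Finset.range P.natDegree, (P.coeff (i + 1) : K) * b ^ (i + 1) := by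
    rw [eq_neg_iff_add_eq_zero, add_comm]; exact hP
  rw [h1, Valuation.map_neg]
  refine v.map_sum_le fun i _ => ?_
  rw [map_mul, map_pow, pow_succ]
  calc v (P.coeff (i + 1) : K) * (v b ^ i * v b) ≤ 1 * (1 * v b) := by
        gcongr
        · exact ValArch.intCast_le_one v _
        · exact pow_le_one' hb1 i
    _ = v b := by rw [one_mul, one_mul]

/-- (ii) if `v a < 1` then `v(a)^k ≤ v(ℓ)` for some `k`. -/
theorem ValArch.exists_pow_le_prime {ℓ : ℕ} (hℓ : ℓ.Prime) (hv : v (ℓ : K) < 1) {a : K}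
    (ha : v a < 1) : ∃ k : ℕ, v a ^ k ≤ v (ℓ : K) := by
  classical
  by_cases ha0 : a = 0
  · exact ⟨1, by rw [ha0, map_zero, pow_one]; exact zero_le⟩
  obtain ⟨P₀, hP₀, hP₀a⟩ := ValArch.isAlgebraic_int a
  set P := P₀.primPart with hPdef
  have hPa : aeval a P = 0 := by
    have h1 : aeval a P₀ = aeval a (C P₀.content * P) := by rw [← P₀.eq_C_content_mul_primPart]
    rw [hP₀a, map_mul, aeval_C] at h1
    rcases mul_eq_zero.mp h1.symm with h | h
    · exfalso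
      have : P₀.content = 0 := by
        have h' : ((P₀.content : ℤ) : K) = 0 := by simpa using h
        exact_mod_cast h'
      exact hP₀ (content_eq_zero_iff.mp this)
    · exact h
  have hprim : P.IsPrimitive := P₀.isPrimitive_primPart
  have hex : ∃ i, ¬ (ℓ : ℤ) ∣ P.coeff i := by
    by_contra hcon
    simp only [not_exists, not_not] at hcon
    have h1 : C (ℓ : ℤ) ∣ P := (C_dvd_iff_dvd_coeff _ _).mpr hcon
    have h2 := hprim _ h1
    rw [Int.isUnit_iff] at h2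
    have := hℓ.one_lt
    omega
  set i₀ := Nat.find hex with hi₀
  have hi₀1 : ¬ (ℓ : ℤ) ∣ P.coeff i₀ := Nat.find_spec hex
  have hi₀2 : ∀ i < i₀, (ℓ : ℤ) ∣ P.coeff i := fun i hi => not_not.mp (Nat.find_min hex hi)
  refine ⟨i₀, ?_⟩
  have hmem : i₀ ∈ Finset.range (P.natDegree + 1) := by
    rw [Finset.mem_range, Nat.lt_succ_iff]
    refine le_natDegree_of_ne_zero fun h => hi₀1 ?_
    rw [h]; exact dvd_zero _
  rw [aeval_eq_sum_range, ← Finset.add_sum_erase _ _ hmem] at hPa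
  simp only [zsmul_eq_mul] at hPa
  have h1 : (P.coeff i₀ : K) * a ^ i₀
      = -∑ i ∈ (Finset.range (P.natDegree + 1)).erase i₀, (P.coeff i : K) * a ^ i :=
    eq_neg_of_add_eq_zero_left hPa
  have h2 : v a ^ i₀ = v ((P.coeff i₀ : K) * a ^ i₀) := by
    rw [map_mul, ValArch.intCast_eq_one hℓ hv hi₀1, one_mul, map_pow]
  have h3 : v a ^ i₀ ≤ max (v (ℓ : K)) (v a ^ (i₀ + 1)) := by
    rw [h2, h1, Valuation.map_neg]
    refine v.map_sum_le fun i hi => ?_
    rw [map_mul, map_pow]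
    rcases lt_or_gt_of_ne (Finset.ne_of_mem_erase hi) with hlt | hgt
    · refine le_trans ?_ (le_max_left _ _)
      calc v (P.coeff i : K) * v a ^ i ≤ v (ℓ : K) * 1 := by
            gcongr
            · exact ValArch.intCast_le_of_dvd (hi₀2 i hlt)
            · exact pow_le_one' ha.le i
        _ = v (ℓ : K) := mul_one _
    · refine le_trans ?_ (le_max_right _ _)
      calc v (P.coeff i : K) * v a ^ i ≤ 1 * v a ^ (i₀ + 1) :=
            mul_le_mul' (ValArch.intCast_le_one v _) (pow_le_pow_right_of_le_one' ha.le hgt)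
        _ = v a ^ (i₀ + 1) := one_mul _
  rcases le_max_iff.mp h3 with h | h
  · exact h
  · exfalso
    have hpos : 0 < v a ^ i₀ := pow_pos (v.pos_iff.mpr ha0) _
    rw [pow_succ] at h
    have : v a ^ i₀ * v a < v a ^ i₀ * 1 := mul_lt_mul_of_pos_left ha hpos
    rw [mul_one] at this
    exact absurd h (not_le.mpr this)

/-- a valuation on an algebraic extension of `ℚ` with `v ℓ < 1` is of rank one. -/
theorem ValArch.exists_pow_lt {ℓ : ℕ} (hℓ : ℓ.Prime) (hv : v (ℓ : K) < 1) {a b : K}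
    (ha : v a < 1) (hb : b ≠ 0) : ∃ m : ℕ, v a ^ m < v b := by
  obtain ⟨k, hk⟩ := ValArch.exists_pow_le_prime hℓ hv ha
  obtain ⟨e, he⟩ := ValArch.exists_pow_le hℓ hv hb
  refine ⟨k * e + 1, ?_⟩
  have h1 : v a ^ (k * e) ≤ v b := by
    rw [pow_mul]
    exact le_trans (pow_le_pow_left' hk e) he
  have hpos : 0 < v b := v.pos_iff.mpr hb
  rw [pow_succ]
  calc v a ^ (k * e) * v a ≤ v b * v a := by gcongr
    _ < v b * 1 := mul_lt_mul_of_pos_left ha hpos
    _ = v b := mul_one _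

end General

/-! ## the Gauss valuation -/

section V
variable (A : ValuationSubring Qb) (M : ℕ)

theorem ValArch.coe_algebraMap (c : Qb) :
    ((algebraMap Qb (FL Qb M) c : FL Qb M) : LaurentSeries Qb) = HahnSeries.C c :=
  algebraMap_eq_C c

/-- `v(ℓ) < 1`. -/
theorem ValArch.vG_prime_lt_one {ℓ : ℕ} (hℓ : ℓ.Prime) (hA : A.LiesOverPrime ℓ) :
    vG A M (ℓ : FL Qb M) < 1 := by
  have hℓ0 : (ℓ : FL Qb M) ≠ 0 := Nat.cast_ne_zero.mpr hℓ.ne_zero
  rw [← not_le, (vG A M).one_le_val_iff hℓ0]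
  intro hle
  have hmem : ((ℓ : FL Qb M)⁻¹) ∈ Ov A M := ((Ov A M).valuation_le_one_iff _).mp hle
  obtain ⟨zb, hzb⟩ := hmem
  have h1 := hasRed_C A (ℓ : A)
  have h2 : IsLocalRing.residue A (ℓ : A) = 0 := by
    rw [map_natCast]; exact residue_natCast_eq_zero hA
  rw [h2, map_zero] at h1
  have h3 := h1.mul hzb
  have h4 : (HahnSeries.C (((ℓ : A) : Qb)) : LaurentSeries Qb) * (((ℓ : FL Qb M)⁻¹ : FL Qb M) : LaurentSeries Qb)
      = 1 := by
    have e1 : (HahnSeries.C (((ℓ : A) : Qb)) : LaurentSeries Qb) = ((ℓ : FL Qb M) : LaurentSeries Qb) := by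
      simp
    rw [e1]
    have : ((ℓ : FL Qb M) * (ℓ : FL Qb M)⁻¹ : FL Qb M) = 1 := mul_inv_cancel₀ hℓ0
    exact congrArg (Subtype.val) this
  rw [h4, zero_mul] at h3
  exact zero_ne_one (h3.unique HasRed.one)

/-- the value group of `v` is that of the constants. -/
theorem ValArch.exists_const {z : FL Qb M} (hz : z ≠ 0) :
    ∃ a : Qb, a ≠ 0 ∧ vG A M z = vG A M (algebraMap Qb (FL Qb M) a) := by
  have hz' : (z : LaurentSeries Qb) ≠ 0 := fun h => hz (Subtype.ext h)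
  obtain ⟨c, hc, zb, hzb, h⟩ := exists_hasRed_C_mul_of_mem_FL A M z.2 hz'
  have hc' : algebraMap Qb (FL Qb M) c ≠ 0 := by
    rw [Ne, map_eq_zero]; exact hc
  have e1 : ((algebraMap Qb (FL Qb M) c * z : FL Qb M) : LaurentSeries Qb)
      = HahnSeries.C c * (z : LaurentSeries Qb) := by
    rw [← ValArch.coe_algebraMap M c]; rfl
  have e2 : (((algebraMap Qb (FL Qb M) c * z)⁻¹ : FL Qb M) : LaurentSeries Qb)
      = (HahnSeries.C c * (z : LaurentSeries Qb))⁻¹ := by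
    rw [← e1]; rfl
  have h1 : vG A M (algebraMap Qb (FL Qb M) c * z) ≤ 1 :=
    ((Ov A M).valuation_le_one_iff _).mpr ⟨zb, by rw [e1]; exact h⟩
  have h2 : vG A M (algebraMap Qb (FL Qb M) c * z)⁻¹ ≤ 1 :=
    ((Ov A M).valuation_le_one_iff _).mpr ⟨zb⁻¹, by rw [e2]; exact h.inv hzb⟩
  have h3 : vG A M (algebraMap Qb (FL Qb M) c * z) = 1 :=
    le_antisymm h1 (((vG A M).one_le_val_iff (mul_ne_zero hc' hz)).mpr h2)
  refine ⟨c⁻¹, inv_ne_zero hc, ?_⟩
  rw [map_mul] at h3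
  rw [map_inv₀, map_inv₀]
  exact eq_inv_of_mul_eq_one_right h3

theorem arch {ℓ : ℕ} (hℓ : ℓ.Prime) (hA : A.LiesOverPrime ℓ) : Arch (vG A M) := by
  intro x hx γ hγ
  obtain ⟨z, rfl⟩ := (Ov A M).valuation_surjective γ
  have hz : z ≠ 0 := by
    rintro rfl
    exact hγ (map_zero _)
  by_cases hx0 : x = 0
  · refine ⟨1, ?_⟩
    rw [hx0, map_zero, pow_one]
    exact zero_lt_iff.mpr hγ
  obtain ⟨a, -, ha⟩ := ValArch.exists_const A M hx0
  obtain ⟨b, hb0, hb⟩ := ValArch.exists_const A M hz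
  set w : Valuation Qb (Ov A M).ValueGroup := (vG A M).comap (algebraMap Qb (FL Qb M)) with hw
  have hwℓ : w (ℓ : Qb) < 1 := by
    rw [hw, Valuation.comap_apply, map_natCast]
    exact ValArch.vG_prime_lt_one A M hℓ hA
  have hwa : w a < 1 := by
    rw [hw, Valuation.comap_apply, ← ha]; exact hx
  have : Algebra.IsAlgebraic ℚ Qb := AlgebraicClosure.isAlgebraic ℚ
  obtain ⟨m, hm⟩ := ValArch.exists_pow_lt hℓ hwℓ hwa hb0
  refine ⟨m, ?_⟩
  rw [ha]
  change _ < vG A M z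
  rw [hb]
  exact hm

theorem vG_natCast {ℓ n : ℕ} (hℓ : ℓ.Prime) (hA : A.LiesOverPrime ℓ) (hn : ¬ ℓ ∣ n) :
    vG A M (n : FL Qb M) = 1 := by
  have h := ValArch.intCast_eq_one hℓ (ValArch.vG_prime_lt_one A M hℓ hA) (n := (n : ℤ))
    (by rwa [Int.natCast_dvd_natCast])
  rwa [Int.cast_natCast] at h

end V

end Fermat.Agent.GAL.KLC
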