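import Fermat.Agent.GAL.KLC.Val

/-!
# GAL / KLC : block V.  The reduction map `rho` of the Gauss valuation is an `IsRed`.
-/

set_option autoImplicit false

open ModularCurve AlgebraicCurve Polynomial

noncomputable section

namespace Fermat.Agent.GAL.KLC

open Fermat.Agent.GR Fermat.Agent.GAL.KL

section V
variable (A : ValuationSubring Qb) (M : ℕ)

theorem ValThm_not_hasRed_one_zero : ¬ HasRed A (1 : LaurentSeries Qb) 0 := fun h =>
  zero_ne_one (h.unique HasRed.one)

theorem ValThm_le_one_iff {z : FL Qb M} :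
    vG A M z ≤ 1 ↔ ∃ zb, HasRed A (z : LaurentSeries Qb) zb :=
  (Valuation.mem_integer_iff _ _).symm.trans (mem_integer_iff A M)

theorem vG_lt_one_iff {z : FL Qb M} : vG A M z < 1 ↔ HasRed A (z : LaurentSeries Qb) 0 := by
  constructor
  · intro h
    obtain ⟨zb, hzb⟩ := (ValThm_le_one_iff A M).1 h.le
    by_cases h0 : zb = 0
    · rwa [h0] at hzb
    · exfalso
      have hinv : vG A M z⁻¹ ≤ 1 := (ValThm_le_one_iff A M).2 ⟨zb⁻¹, hzb.inv h0⟩
      have hz0 : z ≠ 0 := fun e => hzb.ne_zero h0 (by rw [e]; rfl)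
      have hv0 : vG A M z ≠ 0 := (Valuation.ne_zero_iff _).2 hz0
      rw [map_inv₀, inv_le_one₀ (zero_lt_iff.2 hv0)] at hinv
      exact absurd h (not_lt.2 hinv)
  · intro h
    have hle : vG A M z ≤ 1 := (ValThm_le_one_iff A M).2 ⟨0, h⟩
    refine lt_of_le_of_ne hle fun h1 => ?_
    have hz0 : z ≠ 0 := fun e => by rw [e, map_zero] at h1; exact zero_ne_one h1
    have hinv : vG A M z⁻¹ ≤ 1 := by rw [map_inv₀, h1, inv_one]
    obtain ⟨y, hy⟩ := (ValThm_le_one_iff A M).1 hinv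
    have hmul := h.mul hy
    have e : (z : LaurentSeries Qb) * ((z⁻¹ : FL Qb M) : LaurentSeries Qb) = 1 := by
      have := congrArg (Subtype.val) (mul_inv_cancel₀ hz0)
      exact this
    rw [e, zero_mul] at hmul
    exact ValThm_not_hasRed_one_zero A hmul

theorem ValThm_coe_algebraMap (a : Qb) :
    ((algebraMap Qb (FL Qb M) a : FL Qb M) : LaurentSeries Qb) = HahnSeries.C a := by
  have h1 : ((algebraMap Qb (FL Qb M) a : FL Qb M) : LaurentSeries Qb)
      = algebraMap Qb (LaurentSeries Qb) a := rfl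
  rw [h1, algebraMap_laurentSeries_eq_single]
  rfl

/-- a constant which is integral for the Gauss valuation lies in `A`. -/
theorem ValThm_mem_of_hasRed_C {a : Qb} {zb : LaurentSeries (kA A)}
    (h : HasRed A (HahnSeries.C a) zb) : a ∈ A := by
  by_contra ha
  have ha' : a⁻¹ ∈ A := (A.mem_or_inv_mem a).resolve_left ha
  have ha0 : a ≠ 0 := fun e => ha (by rw [e]; exact A.zero_mem)
  have hres : IsLocalRing.residue A ⟨a⁻¹, ha'⟩ = 0 := by
    rw [IsLocalRing.residue_eq_zero_iff, IsLocalRing.mem_maximalIdeal, mem_nonunits_iff]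
    intro hu
    obtain ⟨u, hu⟩ := hu
    apply ha
    have h1 : ((u⁻¹ : Aˣ) : A) * ⟨a⁻¹, ha'⟩ = 1 := by rw [← hu]; simp
    have h2 := congrArg (Subtype.val) h1
    have h3 : (((u⁻¹ : Aˣ) : A) : Qb) * a⁻¹ = 1 := h2
    have h4 : (((u⁻¹ : Aˣ) : A) : Qb) = a := by
      field_simp at h3
      exact h3
    rw [← h4]
    exact ((u⁻¹ : Aˣ) : A).2
  have h1 := (hasRed_C A ⟨a⁻¹, ha'⟩).mul h
  rw [hres, map_zero, zero_mul, ← map_mul] at h1
  have e : ((⟨a⁻¹, ha'⟩ : A) : Qb) * a = 1 := inv_mul_cancel₀ ha0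
  rw [e, map_one] at h1
  exact ValThm_not_hasRed_one_zero A h1

theorem isRed : IsRed Qb (vG A M) (rho A M) where
  ker z := by
    constructor
    · intro h
      have := hasRed_rho A M z
      rw [h] at this
      exact (vG_lt_one_iff A M).2 this
    · intro h
      exact rho_eq_of_hasRed A M ((vG_lt_one_iff A M).1 h)
  const a ha := by
    obtain ⟨zb, hzb⟩ := (mem_integer_iff A M).1 ha
    rw [ValThm_coe_algebraMap] at hzb
    have haA : a ∈ A := ValThm_mem_of_hasRed_C A hzb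
    refine ⟨IsLocalRing.residue A ⟨a, haA⟩, rho_eq_of_hasRed A M ?_⟩
    show HasRed A ((algebraMap Qb (FL Qb M) a : FL Qb M) : LaurentSeries Qb) _
    rw [ValThm_coe_algebraMap]
    exact hasRed_C A ⟨a, haA⟩
  const_surj c := by
    obtain ⟨a, rfl⟩ := IsLocalRing.residue_surjective c
    have hr : HasRed A ((algebraMap Qb (FL Qb M) (a : Qb) : FL Qb M) : LaurentSeries Qb)
        (HahnSeries.C (IsLocalRing.residue A a)) := by
      rw [ValThm_coe_algebraMap]
      exact hasRed_C A a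
    have ha : algebraMap Qb (FL Qb M) (a : Qb) ∈ (vG A M).integer :=
      (mem_integer_iff A M).2 ⟨_, hr⟩
    exact ⟨a, ha, rho_eq_of_hasRed A M hr⟩
  val z hz := by
    have hz' : (z : LaurentSeries Qb) ≠ 0 := fun h => hz (Subtype.ext h)
    obtain ⟨c, hc, zb, hzb, h⟩ := exists_hasRed_C_mul_of_mem_FL A M z.2 hz'
    refine ⟨c⁻¹, ?_⟩
    have hc' : algebraMap Qb (FL Qb M) c ≠ 0 := by
      rw [Ne, map_eq_zero_iff _ (algebraMap Qb (FL Qb M)).injective]; exact hc
    have h' : HasRed A ((algebraMap Qb (FL Qb M) c * z : FL Qb M) : LaurentSeries Qb) zb := by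
      have e : ((algebraMap Qb (FL Qb M) c * z : FL Qb M) : LaurentSeries Qb) =
          ((algebraMap Qb (FL Qb M) c : FL Qb M) : LaurentSeries Qb) * (z : LaurentSeries Qb) := rfl
      rw [e, ValThm_coe_algebraMap]
      exact h
    have h1 : vG A M (algebraMap Qb (FL Qb M) c * z) ≤ 1 := (ValThm_le_one_iff A M).2 ⟨zb, h'⟩
    have h2 : vG A M (algebraMap Qb (FL Qb M) c * z)⁻¹ ≤ 1 :=
      (ValThm_le_one_iff A M).2 ⟨zb⁻¹, h'.inv hzb⟩
    have hv0 : vG A M (algebraMap Qb (FL Qb M) c * z) ≠ 0 :=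
      (Valuation.ne_zero_iff _).2 (mul_ne_zero hc' hz)
    rw [map_inv₀, inv_le_one₀ (zero_lt_iff.2 hv0)] at h2
    have h3 : vG A M (algebraMap Qb (FL Qb M) c * z) = 1 := le_antisymm h1 h2
    rw [map_mul] at h3
    rw [map_inv₀, map_inv₀]
    exact eq_inv_of_mul_eq_one_right h3

theorem vG_sub_one_lt {W : FL Qb M} (h : HasRed A (W : LaurentSeries Qb) 1) :
    vG A M (W - 1) < 1 := by
  rw [vG_lt_one_iff]
  have := h.add (hasRed_neg (HasRed.one (A := A)))
  rw [add_neg_cancel] at this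
  have e : ((W - 1 : FL Qb M) : LaurentSeries Qb) = (W : LaurentSeries Qb) + -1 := by
    rw [← sub_eq_add_neg]; rfl
  rw [e]
  exact this

/-- series with integer coefficients are integral and reduce coefficientwise. -/
theorem rho_int (y : LaurentSeries ℤ) (hy : coeffMap (Int.castRingHom Qb) y ∈ FL Qb M) :
    ∃ h : (⟨_, hy⟩ : FL Qb M) ∈ (vG A M).integer,
      rho A M ⟨⟨_, hy⟩, h⟩ = coeffMap (Int.castRingHom (kA A)) y := by
  have h1 := HasRed.of_int (A := A) (coeffMap (Int.castRingHom A) y)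
  rw [coeffMap_coeffMap, coeffMap_coeffMap] at h1
  have e1 : A.subtype.comp (Int.castRingHom A) = Int.castRingHom Qb := Subsingleton.elim _ _
  have e2 : (IsLocalRing.residue A).comp (Int.castRingHom A) = Int.castRingHom (kA A) :=
    Subsingleton.elim _ _
  rw [e1, e2] at h1
  exact ⟨(mem_integer_iff A M).2 ⟨_, h1⟩, rho_eq_of_hasRed A M h1⟩

end V

end Fermat.Agent.GAL.KLC
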