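import Fermat.Agent.GAL.KLC.MainCT
import Fermat.Agent.GAL.CTV.Z.Final

/-!
# GAL / KLC : **THE KEY LEMMA** (official contract `GAL.KeyLemmaStatement` of block KL), unconditional.

An element `W` of the function field of `X₀(M)` over `ℚ̄` (`4 ∣ M` or `9 ∣ M`) whose divisor is divisible by
`n` and whose reduction at `A ∣ ℓ`, `ℓ ∤ n M`, is `1`, is an `n`-th power.
-/

set_option autoImplicit false

open ModularCurve AlgebraicCurve Polynomial

noncomputable section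

namespace Fermat.Agent.GAL.KLC

open Fermat.Agent.GR Fermat.Agent.GAL.KL

theorem zStatement (M : ℕ) [NeZero M] : ZStatement M :=
  fun fZ hf => ⟨CTV.z0_mem M fZ hf, CTV.z3Facts M fZ hf⟩

/-- **(b2)**: the constant term of `φ f̄` vanishes. -/
theorem ctStatement (M ℓ : ℕ) [NeZero M] (hM : AdmLevel M) (hℓ : ℓ.Prime) (hℓM : ¬ ℓ ∣ M)
    (A : ValuationSubring Qb) (hA : A.LiesOverPrime ℓ) : CTStatement M A :=
  ctStatement_of M ℓ hM hℓ hℓM A hA (zStatement M)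

/-- **(b2)**, in the form of the master skeleton. -/
theorem ct_zero (M ℓ : ℕ) [NeZero M] [Fact ℓ.Prime] (hM : AdmLevel M) (hℓM : ¬ ℓ ∣ M)
    (A : ValuationSubring Qb) (hA : A.LiesOverPrime ℓ) (z : LaurentSeries Qb) (hz : z ∈ FL Qb M)
    (φ : LaurentSeries (kA A)) (hred : HasRed A z φ) (hint : IsInt (kA A) (xR (kA A) M) φ)
    (fZ : PowerSeries ℤ) (hf : IsCuspExp M fZ) : (φ * psR (kA A) fZ).coeff 0 = 0 :=
  ctStatement M ℓ hM Fact.out hℓM A hA z hz φ hred hint fZ hf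

/-- both reduced charts are `n`-root closed (for every `n > 0`). -/
theorem rootClosed (M ℓ : ℕ) [NeZero M] (hM : AdmLevel M) (hℓ : ℓ.Prime) (hℓM : ¬ ℓ ∣ M)
    (A : ValuationSubring Qb) (hA : A.LiesOverPrime ℓ) (n : ℕ) (hn : 0 < n) :
    RootClosed Qb (vG A M) (xF M) n ∧ RootClosed Qb (vG A M) (xF M)⁻¹ n :=
  rootClosed_of M ℓ hℓ A hA (spansStatement M) (riStatement M) (ctStatement M ℓ hM hℓ hℓM A hA) n hn

/-- **KEY LEMMA, Gauss form.** -/
theorem key_lemma' (M n ℓ : ℕ) [NeZero M] (hM : AdmLevel M) [Fact ℓ.Prime] (hℓM : ¬ ℓ ∣ M)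
    (hℓn : ¬ ℓ ∣ n) (A : ValuationSubring Qb) (hA : A.LiesOverPrime ℓ)
    (W : LaurentSeries Qb) (hW : W ∈ FL Qb M) (hred : HasRed A W 1)
    (hdiv : ∀ P : Place Qb (FL Qb M), (n : ℤ) ∣ P.ord ⟨W, hW⟩) :
    ∃ y ∈ FL Qb M, y ^ n = W :=
  key_lemma_of M n ℓ Fact.out hℓn A hA (spansStatement M) (riStatement M)
    (ctStatement M ℓ hM Fact.out hℓM A hA) W hW hred hdiv

/-- **THE KEY LEMMA** (official contract of block KL). -/
theorem keyLemma : KeyLemmaStatement :=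
  keyLemma_of_Z fun M _ => zStatement M

end Fermat.Agent.GAL.KLC
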