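import Fermat.Agent.GAL.KLC.Defs

/-!
# GAL / KLC / G : `Gauss` and `ON` from the `q`-orders of the reductions (abstract)
-/

set_option autoImplicit false

open ModularCurve AlgebraicCurve Polynomial

noncomputable section

namespace Fermat.Agent.GAL.KLC

open Fermat.Agent.GAL.KL

/-! ## sums of Laurent series with pairwise distinct orders -/

/-- A finite sum of Laurent series whose nonzero terms have pairwise distinct orders: the term of
smallest order survives. -/
theorem GaussON_sum_ne_zero {k ι : Type*} [Field k] (s : Finset ι) (f : ι → LaurentSeries k)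
    (hd : ∀ i ∈ s, ∀ j ∈ s, f i ≠ 0 → f j ≠ 0 → (f i).order = (f j).order → i = j)
    (hne : ∃ i ∈ s, f i ≠ 0) :
    ∃ i₀ ∈ s, f i₀ ≠ 0 ∧ (∀ j ∈ s, f j ≠ 0 → (f i₀).order ≤ (f j).order) ∧
      ∑ i ∈ s, f i ≠ 0 ∧ (∑ i ∈ s, f i).order = (f i₀).order := by
  classical
  obtain ⟨i₁, hi₁, hi₁0⟩ := hne
  obtain ⟨i₀, hi₀, hmin⟩ := Finset.exists_min_image (s.filter fun i => f i ≠ 0)
    (fun i => (f i).order) ⟨i₁, Finset.mem_filter.mpr ⟨hi₁, hi₁0⟩⟩
  rw [Finset.mem_filter] at hi₀
  have hmin' : ∀ j ∈ s, f j ≠ 0 → (f i₀).order ≤ (f j).order := fun j hj hj0 =>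
    hmin j (Finset.mem_filter.mpr ⟨hj, hj0⟩)
  have hcoef : ∀ n : ℤ, (∑ i ∈ s, f i).coeff n = ∑ i ∈ s, (f i).coeff n := by
    intro n
    exact map_sum (HahnSeries.coeff.addMonoidHom n) f s
  have hlead : (∑ i ∈ s, f i).coeff (f i₀).order = (f i₀).coeff (f i₀).order := by
    rw [hcoef]
    apply Finset.sum_eq_single_of_mem i₀ hi₀.1
    intro j hj hji
    by_cases hj0 : f j = 0
    · rw [hj0, HahnSeries.coeff_zero]
    · apply HahnSeries.coeff_eq_zero_of_lt_order
      exact lt_of_le_of_ne (hmin' j hj hj0) fun h => hji (hd i₀ hi₀.1 j hj hi₀.2 hj0 h).symm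
  have hlead0 : (∑ i ∈ s, f i).coeff (f i₀).order ≠ 0 := by
    rw [hlead]
    exact HahnSeries.coeff_order_eq_zero.not.mpr hi₀.2
  have hsum0 : ∑ i ∈ s, f i ≠ 0 := by
    intro h
    rw [h, HahnSeries.coeff_zero] at hlead0
    exact hlead0 rfl
  refine ⟨i₀, hi₀.1, hi₀.2, hmin', hsum0, le_antisymm (HahnSeries.order_le_of_coeff_ne_zero hlead0) ?_⟩
  by_contra hlt
  rw [not_le] at hlt
  apply HahnSeries.coeff_order_eq_zero.not.mpr hsum0
  rw [hcoef]
  apply Finset.sum_eq_zero
  intro j hj
  by_cases hj0 : f j = 0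
  · rw [hj0, HahnSeries.coeff_zero]
  · exact HahnSeries.coeff_eq_zero_of_lt_order (lt_of_lt_of_le hlt (hmin' j hj hj0))

theorem GaussON_algebraMap {k : Type*} [Field k] (c : k) :
    algebraMap k (LaurentSeries k) c = HahnSeries.C c := by
  have h1 : algebraMap k (PowerSeries k) c = PowerSeries.C c := by simp
  rw [HahnSeries.algebraMap_apply', h1, HahnSeries.ofPowerSeries_C]

theorem GaussON_aeval_eq {k : Type*} [Field k] (xb : LaurentSeries k) (p : k[X]) {n : ℕ}
    (hn : p.natDegree < n) :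
    aeval xb p = ∑ i ∈ Finset.range n, HahnSeries.C (p.coeff i) * xb ^ i := by
  rw [aeval_eq_sum_range' hn]
  apply Finset.sum_congr rfl
  intro i _
  rw [Algebra.smul_def, GaussON_algebraMap]

theorem GaussON_order_term {k : Type*} [Field k] (xb : LaurentSeries k) (hxb : xb ≠ 0) {c : k}
    (hc : c ≠ 0) (i : ℕ) :
    HahnSeries.C c * xb ^ i ≠ 0 ∧ (HahnSeries.C c * xb ^ i).order = i * xb.order := by
  have hC : (HahnSeries.C c : LaurentSeries k) ≠ 0 := by
    simpa using hc
  have hp : xb ^ i ≠ 0 := pow_ne_zero i hxb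
  refine ⟨mul_ne_zero hC hp, ?_⟩
  rw [HahnSeries.order_mul hC hp, HahnSeries.order_C, HahnSeries.order_pow, zero_add,
    nsmul_eq_mul]

/-- the top term dominates. -/
theorem order_aeval {k : Type*} [Field k] {xb : LaurentSeries k} (hxo : xb.order < 0) (p : k[X])
    (hp : p ≠ 0) : aeval xb p ≠ 0 ∧ (aeval xb p).order = p.natDegree * xb.order := by
  have hxb : xb ≠ 0 := by
    rintro rfl
    simp at hxo
  rw [GaussON_aeval_eq xb p (Nat.lt_succ_self _)]
  have hterm : ∀ i, HahnSeries.C (p.coeff i) * xb ^ i ≠ 0 → p.coeff i ≠ 0 := by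
    intro i h h0
    rw [h0, map_zero, zero_mul] at h
    exact h rfl
  have hlc : p.coeff p.natDegree ≠ 0 := by
    rw [coeff_natDegree]
    exact leadingCoeff_ne_zero.mpr hp
  obtain ⟨i₀, hi₀, hi₀0, hmin, hs0, hso⟩ := GaussON_sum_ne_zero (Finset.range (p.natDegree + 1))
    (fun i => HahnSeries.C (p.coeff i) * xb ^ i)
    (by
      intro i _ j _ hi hj hij
      rw [(GaussON_order_term xb hxb (hterm i hi) i).2,
        (GaussON_order_term xb hxb (hterm j hj) j).2] at hij
      have := mul_right_cancel₀ hxo.ne hij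
      exact_mod_cast this)
    ⟨p.natDegree, Finset.mem_range.mpr (Nat.lt_succ_self _),
      (GaussON_order_term xb hxb hlc _).1⟩
  refine ⟨hs0, ?_⟩
  rw [hso]
  have h1 := hmin p.natDegree (Finset.mem_range.mpr (Nat.lt_succ_self _))
    (GaussON_order_term xb hxb hlc _).1
  rw [(GaussON_order_term xb hxb (hterm i₀ hi₀0) i₀).2, (GaussON_order_term xb hxb hlc _).2] at h1
  rw [(GaussON_order_term xb hxb (hterm i₀ hi₀0) i₀).2]
  have h2 : (i₀ : ℤ) ≤ p.natDegree := by
    exact_mod_cast Nat.lt_succ_iff.mp (Finset.mem_range.mp hi₀)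
  have h3 : (p.natDegree : ℤ) ≤ i₀ := by
    by_contra h4
    rw [not_le] at h4
    nlinarith
  rw [le_antisymm h2 h3]

/-! ## reduction of polynomials -/

section Abstract

variable {K F k Γ₀ : Type*} [Field K] [Field F] [Algebra K F] [Field k]
  [LinearOrderedCommGroupWithZero Γ₀] {v : Valuation F Γ₀} {ρ : v.integer →+* LaurentSeries k}

/-- the common computation: if `pb` is a coefficientwise reduction of `p` then `ρ (p(t)) = pb(ρ t)`. -/
theorem GaussON_red_aeval {t : F} (ht : t ∈ v.integer) (p : K[X]) (pb : k[X])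
    (hp : ∀ i, algebraMap K F (p.coeff i) ∈ v.integer)
    (hc : ∀ i, ρ ⟨algebraMap K F (p.coeff i), hp i⟩ = HahnSeries.C (pb.coeff i)) :
    ∃ h : aeval t p ∈ v.integer, ρ ⟨aeval t p, h⟩ = aeval (ρ ⟨t, ht⟩) pb := by
  set N := max p.natDegree pb.natDegree + 1 with hN
  have h1 : p.natDegree < N := by omega
  have h2 : pb.natDegree < N := by omega
  set z : v.integer := ∑ i ∈ Finset.range N, ⟨algebraMap K F (p.coeff i), hp i⟩ * ⟨t, ht⟩ ^ i with hz
  have hzc : (z : F) = aeval t p := by
    rw [aeval_eq_sum_range' h1, hz]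
    push_cast
    apply Finset.sum_congr rfl
    intro i _
    rw [Algebra.smul_def]
  have hmem : aeval t p ∈ v.integer := hzc ▸ z.2
  refine ⟨hmem, ?_⟩
  have hzz : (⟨aeval t p, hmem⟩ : v.integer) = z := Subtype.ext hzc.symm
  rw [hzz, hz, map_sum, GaussON_aeval_eq _ pb h2]
  apply Finset.sum_congr rfl
  intro i _
  rw [map_mul, map_pow, hc]

theorem exists_red_poly (hρ : IsRed K v ρ) {t : F} (ht : t ∈ v.integer) (p : K[X])
    (hp : ∀ i, v (algebraMap K F (p.coeff i)) ≤ 1) :
    ∃ (pb : k[X]) (h : aeval t p ∈ v.integer), ρ ⟨aeval t p, h⟩ = aeval (ρ ⟨t, ht⟩) pb ∧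
      pb.natDegree ≤ p.natDegree ∧ ∀ i, pb.coeff i = 0 ↔ v (algebraMap K F (p.coeff i)) < 1 := by
  classical
  have hp' : ∀ i, algebraMap K F (p.coeff i) ∈ v.integer := hp
  choose c hc using fun i => hρ.const (p.coeff i) (hp' i)
  have hc0 : ∀ i, c i = 0 ↔ v (algebraMap K F (p.coeff i)) < 1 := by
    intro i
    rw [← hρ.ker ⟨algebraMap K F (p.coeff i), hp' i⟩, hc i]
    simp
  set pb : k[X] := ∑ i ∈ Finset.range (p.natDegree + 1), monomial i (c i) with hpb
  have hcoeff : ∀ i, pb.coeff i = c i := by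
    intro i
    rw [hpb, finsetSum_coeff]
    simp only [coeff_monomial]
    rw [Finset.sum_ite_eq']
    split_ifs with hi
    · rfl
    · rw [Finset.mem_range, not_lt] at hi
      symm
      rw [hc0, coeff_eq_zero_of_natDegree_lt hi, map_zero, map_zero]
      exact zero_lt_one
  obtain ⟨h, hh⟩ := GaussON_red_aeval (ρ := ρ) ht p pb hp' (fun i => by rw [hc i, hcoeff i])
  refine ⟨pb, h, hh, ?_, fun i => by rw [hcoeff i, hc0 i]⟩
  rw [natDegree_le_iff_coeff_eq_zero]
  intro n hn
  rw [hcoeff, hc0, coeff_eq_zero_of_natDegree_lt hn, map_zero, map_zero]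
  exact zero_lt_one

theorem exists_lift_poly (hρ : IsRed K v ρ) {t : F} (ht : t ∈ v.integer) (pb : k[X]) :
    ∃ (p : K[X]) (h : aeval t p ∈ v.integer), (∀ i, v (algebraMap K F (p.coeff i)) ≤ 1) ∧
      p.natDegree = pb.natDegree ∧ ρ ⟨aeval t p, h⟩ = aeval (ρ ⟨t, ht⟩) pb := by
  classical
  choose a ha hac using hρ.const_surj
  set p : K[X] := ∑ i ∈ Finset.range (pb.natDegree + 1),
    monomial i (if pb.coeff i = 0 then 0 else a (pb.coeff i)) with hp
  have hcoeff : ∀ i, p.coeff i = if pb.coeff i = 0 then 0 else a (pb.coeff i) := by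
    intro i
    rw [hp, finsetSum_coeff]
    simp only [coeff_monomial]
    rw [Finset.sum_ite_eq']
    split_ifs with hi h0 h0
    · rfl
    · rfl
    · rfl
    · rw [Finset.mem_range, not_lt] at hi
      exact absurd (coeff_eq_zero_of_natDegree_lt hi) h0
  have hmem : ∀ i, algebraMap K F (p.coeff i) ∈ v.integer := by
    intro i
    rw [hcoeff]
    split_ifs with h0
    · rw [map_zero]; exact zero_mem _
    · exact ha _
  have hred : ∀ i, ρ ⟨algebraMap K F (p.coeff i), hmem i⟩ = HahnSeries.C (pb.coeff i) := by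
    intro i
    by_cases h0 : pb.coeff i = 0
    · have h1 : (⟨algebraMap K F (p.coeff i), hmem i⟩ : v.integer) = 0 := by
        apply Subtype.ext
        change algebraMap K F (p.coeff i) = _
        rw [hcoeff, if_pos h0, map_zero]
        rfl
      rw [h1, map_zero, h0, map_zero]
    · have h1 : (⟨algebraMap K F (p.coeff i), hmem i⟩ : v.integer) =
          ⟨algebraMap K F (a (pb.coeff i)), ha _⟩ := by
        apply Subtype.ext
        change algebraMap K F (p.coeff i) = _
        rw [hcoeff, if_neg h0]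
      rw [h1, hac]
  obtain ⟨h, hh⟩ := GaussON_red_aeval (ρ := ρ) ht p pb hmem hred
  refine ⟨p, h, hmem, le_antisymm ?_ ?_, hh⟩
  · rw [natDegree_le_iff_coeff_eq_zero]
    intro n hn
    rw [hcoeff, if_pos (coeff_eq_zero_of_natDegree_lt hn)]
  · by_cases hpb0 : pb = 0
    · rw [hpb0, natDegree_zero]; exact Nat.zero_le _
    · apply le_natDegree_of_ne_zero
      have hlc : pb.coeff pb.natDegree ≠ 0 := by
        rw [coeff_natDegree]
        exact leadingCoeff_ne_zero.mpr hpb0
      intro h0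
      have h1 := hred pb.natDegree
      have h2 : (⟨algebraMap K F (p.coeff pb.natDegree), hmem _⟩ : v.integer) = 0 := by
        apply Subtype.ext
        change algebraMap K F (p.coeff pb.natDegree) = _
        rw [h0, map_zero]
        rfl
      rw [h2, map_zero] at h1
      apply hlc
      have := h1.symm
      simpa using this

/-! ## Gauss -/

theorem gauss_of_isRed (hρ : IsRed K v ρ) {x : F} (hx : x ∈ v.integer)
    (hxo : (ρ ⟨x, hx⟩).order < 0) : Gauss K v x := by
  intro p γ
  have hx1 : v x ≤ 1 := hx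
  constructor
  · intro h
    by_cases hp0 : p = 0
    · intro i
      rw [hp0, coeff_zero, map_zero, map_zero]
      exact zero_le
    -- the coefficient of maximal valuation
    obtain ⟨i₀, -, hmax⟩ := Finset.exists_max_image (Finset.range (p.natDegree + 1))
      (fun i => v (algebraMap K F (p.coeff i))) ⟨0, Finset.mem_range.mpr (Nat.succ_pos _)⟩
    have hmax' : ∀ i, v (algebraMap K F (p.coeff i)) ≤ v (algebraMap K F (p.coeff i₀)) := by
      intro i
      by_cases hi : i ∈ Finset.range (p.natDegree + 1)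
      · exact hmax i hi
      · rw [Finset.mem_range, not_lt] at hi
        rw [coeff_eq_zero_of_natDegree_lt hi, map_zero, map_zero]
        exact zero_le
    set a := p.coeff i₀ with ha
    have ha0 : a ≠ 0 := by
      intro h0
      apply hp0
      ext i
      have := hmax' i
      rw [h0, map_zero, map_zero, le_zero_iff, map_eq_zero, map_eq_zero] at this
      rw [this, coeff_zero]
    have haF : algebraMap K F a ≠ 0 := by simpa using ha0
    have hva : v (algebraMap K F a) ≠ 0 := by rwa [Ne, map_eq_zero]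
    set p' : K[X] := C a⁻¹ * p with hp'
    have hp'c : ∀ i, v (algebraMap K F (p'.coeff i)) ≤ 1 := by
      intro i
      rw [hp', coeff_C_mul, map_mul, map_mul, map_inv₀, map_inv₀]
      rw [inv_mul_le_iff₀ (zero_lt_iff.mpr hva), mul_one]
      exact hmax' i
    obtain ⟨pb, hmem, hred, -, hz⟩ := exists_red_poly hρ hx p' hp'c
    have hpb0 : pb ≠ 0 := by
      intro h0
      have h1 := (hz i₀).mp (by rw [h0, coeff_zero])
      rw [hp', coeff_C_mul, ← ha, inv_mul_cancel₀ ha0, map_one, map_one] at h1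
      exact lt_irrefl _ h1
    have h1 : ¬ v (aeval x p') < 1 := by
      intro h2
      have h3 := (hρ.ker ⟨aeval x p', hmem⟩).mpr h2
      rw [hred] at h3
      exact (order_aeval hxo pb hpb0).1 h3
    rw [not_lt, hp', map_mul, aeval_C, map_mul, map_inv₀, map_inv₀,
      le_inv_mul_iff₀ (zero_lt_iff.mpr hva), mul_one] at h1
    intro i
    exact ((hmax' i).trans h1).trans h
  · intro h
    rw [aeval_eq_sum_range]
    apply Valuation.map_sum_le
    intro i _
    rw [Algebra.smul_def, map_mul, map_pow]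
    calc v (algebraMap K F (p.coeff i)) * v x ^ i ≤ γ * 1 :=
          mul_le_mul' (h i) (pow_le_one₀ zero_le hx1)
      _ = γ := mul_one γ

/-! ## ON -/

theorem on_of_isRed (hρ : IsRed K v ρ) {x x' : F} (hx : x ∈ v.integer) (hx' : x' ∈ v.integer)
    {m : ℕ} (hm : 0 < m) (hxo : (ρ ⟨x, hx⟩).order = -(m : ℤ))
    (hxo' : (ρ ⟨x', hx'⟩).order = -(m : ℤ) + 1) :
    ON K v x (fun i : Fin m => x' ^ (i : ℕ)) := by
  have hxo0 : (ρ ⟨x, hx⟩).order < 0 := by rw [hxo]; omega
  have hG : Gauss K v x := gauss_of_isRed hρ hx hxo0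
  have hx'1 : v x' ≤ 1 := hx'
  intro p γ
  constructor
  · intro h
    obtain ⟨i₀, -, hmax⟩ := Finset.exists_max_image (Finset.univ : Finset (Fin m))
      (fun i => v (aeval x (p i))) ⟨⟨0, hm⟩, Finset.mem_univ _⟩
    have hmax' : ∀ i, v (aeval x (p i)) ≤ v (aeval x (p i₀)) := fun i => hmax i (Finset.mem_univ _)
    obtain ⟨a, ha⟩ := hG.exists_const (p i₀)
    by_cases hva : v (algebraMap K F a) = 0
    · intro i
      have := hmax' i
      rw [ha, hva] at this
      exact this.trans zero_le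
    have ha0 : a ≠ 0 := by
      rintro rfl
      apply hva
      rw [map_zero, map_zero]
    set p' : Fin m → K[X] := fun i => C a⁻¹ * p i with hp'
    have hp'v : ∀ i, v (aeval x (p' i)) = (v (algebraMap K F a))⁻¹ * v (aeval x (p i)) := by
      intro i
      rw [hp']
      simp only
      rw [map_mul, aeval_C, map_mul, map_inv₀, map_inv₀]
    have hp'1 : ∀ i, v (aeval x (p' i)) ≤ 1 := by
      intro i
      rw [hp'v, inv_mul_le_iff₀ (zero_lt_iff.mpr hva), mul_one, ← ha]
      exact hmax' i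
    have hp'c : ∀ i j, v (algebraMap K F ((p' i).coeff j)) ≤ 1 := fun i => (hG (p' i) 1).mp (hp'1 i)
    choose pb hmem hred _ _ using fun i => exists_red_poly hρ hx (p' i) (hp'c i)
    have hpb0 : pb i₀ ≠ 0 := by
      intro h0
      have h1 := hred i₀
      rw [h0, map_zero, hρ.ker] at h1
      change v (aeval x (p' i₀)) < 1 at h1
      rw [hp'v, ha, inv_mul_cancel₀ hva] at h1
      exact lt_irrefl _ h1
    set xb := ρ ⟨x, hx⟩ with hxb
    set xb' := ρ ⟨x', hx'⟩ with hxb'
    -- the terms of the reduction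
    have hxb'0 : ∀ i : Fin m, xb' ^ (i : ℕ) ≠ 0 := by
      intro i
      by_cases hi : (i : ℕ) = 0
      · rw [hi, pow_zero]; exact one_ne_zero
      · apply pow_ne_zero
        intro h0
        rw [h0, HahnSeries.order_zero] at hxo'
        have := i.2
        omega
    have hterm : ∀ i : Fin m, aeval xb (pb i) * xb' ^ (i : ℕ) ≠ 0 → pb i ≠ 0 := by
      intro i h h0
      rw [h0, map_zero, zero_mul] at h
      exact h rfl
    have hord : ∀ i : Fin m, pb i ≠ 0 → (aeval xb (pb i) * xb' ^ (i : ℕ)).order =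
        -(m : ℤ) * ((pb i).natDegree + i) + i := by
      intro i hi
      rw [HahnSeries.order_mul (order_aeval hxo0 _ hi).1 (hxb'0 i), (order_aeval hxo0 _ hi).2,
        HahnSeries.order_pow, hxo, hxo', nsmul_eq_mul]
      ring
    obtain ⟨-, -, -, -, hs0, -⟩ := GaussON_sum_ne_zero (Finset.univ : Finset (Fin m))
      (fun i => aeval xb (pb i) * xb' ^ (i : ℕ))
      (by
        intro i _ j _ hi hj hij
        rw [hord i (hterm i hi), hord j (hterm j hj)] at hij
        have h1 : ((i : ℕ) : ℤ) - j = (m : ℤ) * (((pb i).natDegree + i : ℤ) - ((pb j).natDegree + j)) := by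
          linarith
        have h2 : (m : ℤ) ∣ ((i : ℕ) : ℤ) - j := ⟨_, h1⟩
        have hi' := i.2
        have hj' := j.2
        have h3 : ((i : ℕ) : ℤ) - j = 0 := by
          apply Int.eq_zero_of_abs_lt_dvd h2
          rw [abs_lt]
          constructor <;> omega
        apply Fin.ext
        omega)
      ⟨i₀, Finset.mem_univ _, mul_ne_zero (order_aeval hxo0 _ hpb0).1 (hxb'0 i₀)⟩
    -- the scaled combination
    set z : v.integer := ∑ i : Fin m, ⟨aeval x (p' i), hmem i⟩ * ⟨x', hx'⟩ ^ (i : ℕ) with hz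
    have hzc : (z : F) = (algebraMap K F a)⁻¹ * comb K x p (fun i : Fin m => x' ^ (i : ℕ)) := by
      rw [hz, comb, Finset.mul_sum]
      push_cast
      apply Finset.sum_congr rfl
      intro i _
      rw [hp']
      simp only
      rw [map_mul, aeval_C, map_inv₀, mul_assoc]
    have hρz : ρ z ≠ 0 := by
      rw [hz, map_sum]
      simp only [map_mul, map_pow, hred]
      exact hs0
    have h1 : ¬ v (z : F) < 1 := fun h2 => hρz ((hρ.ker z).mpr h2)
    rw [not_lt, hzc, map_mul, map_inv₀, le_inv_mul_iff₀ (zero_lt_iff.mpr hva), mul_one] at h1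
    intro i
    exact (((hmax' i).trans ha.le).trans h1).trans h
  · intro h
    rw [comb]
    apply Valuation.map_sum_le
    intro i _
    rw [map_mul, map_pow]
    calc v (aeval x (p i)) * v x' ^ (i : ℕ) ≤ γ * 1 :=
          mul_le_mul' (h i) (pow_le_one₀ zero_le hx'1)
      _ = γ := mul_one γ

end Abstract

end Fermat.Agent.GAL.KLC
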