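import Fermat.Agent.GAL.KLC.IsIntOrd
import Fermat.Agent.GAL.FF.DegPrincipal

/-!
# GAL / KLC : `LL K t a = L(a·(t)_∞)` and `[F : K(t)] = d` from `Spans` + independence (package KLC-RI1)
-/

set_option autoImplicit false

open ModularCurve AlgebraicCurve Polynomial

noncomputable section

namespace Fermat.Agent.GAL.KLC

open Fermat.Agent.GR Fermat.Agent.GAL.KL

theorem LL_eq_L_of {K F : Type*} [Field K] [Field F] [Algebra K F] [S24.FF.IsFF1 K F] {t : F}
    (ht0 : t ≠ 0)
    (H : ∀ z : F, IsInt K t z ↔ ∀ P : Place K F, 0 ≤ P.ord t → 0 ≤ P.ord z)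
    (H' : ∀ z : F, IsInt K t⁻¹ z ↔ ∀ P : Place K F, 0 ≤ P.ord t⁻¹ → 0 ≤ P.ord z) (a : ℕ) :
    LL K t a = riemannRochSpace (a • FF.poleDiv K t) := by
  ext z
  rw [mem_LL, mem_riemannRochSpace_iff, H, H']
  rcases eq_or_ne z 0 with rfl | hz
  · simp
  have hta : t⁻¹ ^ a ≠ 0 := pow_ne_zero _ (inv_ne_zero ht0)
  have hord : ∀ P : Place K F, P.ord (t⁻¹ ^ a * z) = -(a : ℤ) * P.ord t + P.ord z := by
    intro P
    rw [P.ord_mul hta hz, ← zpow_natCast, P.ord_zpow, P.ord_inv]
    ring
  have hD : ∀ P : Place K F, (a • FF.poleDiv K t) P = (a : ℤ) * max 0 (-P.ord t) := by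
    intro P
    rw [Finsupp.smul_apply, FF.poleDiv_apply, nsmul_eq_mul]
  constructor
  · rintro ⟨h1, h2⟩ P
    right
    rw [hD]
    rcases le_or_gt 0 (P.ord t) with h | h
    · rw [max_eq_left (by omega)]
      have := h1 P h
      omega
    · rw [max_eq_right (by omega)]
      have := h2 P (by rw [P.ord_inv]; omega)
      rw [hord] at this
      linarith
  · intro h
    refine ⟨fun P hP => ?_, fun P hP => ?_⟩
    · rcases h P with h0 | h0
      · exact absurd h0 hz
      · rw [hD, max_eq_left (by omega)] at h0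
        omega
    · rw [P.ord_inv] at hP
      rcases h P with h0 | h0
      · exact absurd h0 hz
      · rw [hD, max_eq_right (by omega)] at h0
        rw [hord]
        linarith

theorem LL_eq_L {K F : Type*} [Field K] [Field F] [Algebra K F] [IsAlgClosed K] [CharZero K]
    [S24.FF.IsFF1 K F] {t : F} (ht : Transcendental K t) (a : ℕ) :
    LL K t a = riemannRochSpace (a • FF.poleDiv K t) :=
  LL_eq_L_of (fun h : t = 0 => ht (h ▸ isAlgebraic_zero)) (isInt_iff_forall_ord ht)
    (isInt_iff_forall_ord (S24.FF.transcendental_inv ht)) a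

theorem LLeqL_exists_frac {K F : Type*} [Field K] [Field F] [Algebra K F] {t : F}
    (c : IntermediateField.adjoin K {t}) :
    ∃ r s : K[X], s ≠ 0 ∧ (c : F) * aeval t s = aeval t r := by
  obtain ⟨r, s, h⟩ := (IntermediateField.mem_adjoin_simple_iff K (c : F)).1 c.2
  by_cases hs : aeval t s = 0
  · refine ⟨0, 1, one_ne_zero, ?_⟩
    rw [h, hs, div_zero, zero_mul, map_zero]
  · refine ⟨r, s, fun h0 => hs (by rw [h0, map_zero]), ?_⟩
    rw [h, div_mul_cancel₀ _ hs]

theorem finrank_adjoin_of_spans_of_transcendental {K F : Type*} [Field K] [Field F] [Algebra K F]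
    {t : F} {d : ℕ} (β : Fin d → F) (ht : Transcendental K t) (hs : Spans K t β)
    (hi : ∀ p : Fin d → K[X], comb K t p β = 0 → p = 0) :
    Module.finrank (IntermediateField.adjoin K {t}) F = d := by
  classical
  have hne : ∀ q : K[X], q ≠ 0 → aeval t q ≠ 0 := fun q hq h0 =>
    hq ((transcendental_iff.1 ht) q h0)
  have hmem : ∀ q : K[X], aeval t q ∈ IntermediateField.adjoin K {t} := fun q =>
    (IntermediateField.mem_adjoin_simple_iff K _).2 ⟨q, 1, by simp⟩
  have hli : LinearIndependent (IntermediateField.adjoin K {t}) β := by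
    rw [Fintype.linearIndependent_iff]
    intro g hg
    choose r s hs0 hrs using fun i => LLeqL_exists_frac (g i)
    set p : Fin d → K[X] := fun i => r i * ∏ j ∈ Finset.univ.erase i, s j with hp
    have hpi : ∀ i, aeval t (p i) = (g i : F) * aeval t (∏ j, s j) := by
      intro i
      rw [hp, ← Finset.mul_prod_erase Finset.univ s (Finset.mem_univ i)]
      simp only [map_mul]
      rw [← hrs i]
      ring
    have hc : comb K t p β = 0 := by
      rw [comb]
      have h1 : ∑ i, aeval t (p i) * β i = aeval t (∏ j, s j) * ∑ i, g i • β i := by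
        rw [Finset.mul_sum]
        refine Finset.sum_congr rfl fun i _ => ?_
        rw [hpi i, IntermediateField.smul_def, smul_eq_mul]
        ring
      rw [h1, hg, mul_zero]
    have hp0 := hi p hc
    intro i
    have h2 : r i * ∏ j ∈ Finset.univ.erase i, s j = 0 := congrFun hp0 i
    have h3 : r i = 0 := by
      rcases mul_eq_zero.1 h2 with h | h
      · exact h
      · exact absurd h (Finset.prod_ne_zero_iff.2 fun j _ => hs0 j)
    have h4 := hrs i
    rw [h3, map_zero] at h4
    rcases mul_eq_zero.1 h4 with h | h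
    · exact Subtype.ext h
    · exact absurd h (hne _ (hs0 i))
  have hsp : ⊤ ≤ Submodule.span (IntermediateField.adjoin K {t}) (Set.range β) := by
    intro x _
    obtain ⟨q, p, hq, hx⟩ := hs x
    have hq' := hne q hq
    have hx' : x = ∑ i, (⟨aeval t (p i) / aeval t q, div_mem (hmem _) (hmem _)⟩ :
        IntermediateField.adjoin K {t}) • β i := by
      have h1 : ∀ i, (⟨aeval t (p i) / aeval t q, div_mem (hmem _) (hmem _)⟩ :
        IntermediateField.adjoin K {t}) • β i = (aeval t q)⁻¹ * (aeval t (p i) * β i) := by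
        intro i
        rw [IntermediateField.smul_def, smul_eq_mul]
        show aeval t (p i) / aeval t q * β i = _
        field_simp
      simp only [h1]
      rw [← Finset.mul_sum]
      have h2 : ∑ i, aeval t (p i) * β i = aeval t q * x := hx.symm
      rw [h2, inv_mul_cancel_left₀ hq']
    rw [hx']
    exact Submodule.sum_mem _ fun i _ => Submodule.smul_mem _ _ (Submodule.subset_span ⟨i, rfl⟩)
  rw [Module.finrank_eq_card_basis (Module.Basis.mk hli hsp), Fintype.card_fin]

theorem finrank_adjoin_of_spans {K F : Type*} [Field K] [Field F] [Algebra K F] {t : F} {d : ℕ}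
    (β : Fin d → F) (hd : 0 < d) (hs : Spans K t β)
    (hi : ∀ p : Fin d → K[X], comb K t p β = 0 → p = 0) :
    Module.finrank (IntermediateField.adjoin K {t}) F = d := by
  refine finrank_adjoin_of_spans_of_transcendental β ?_ hs hi
  rw [transcendental_iff]
  intro q hq
  have h1 : comb K t (fun _ => q) β = 0 := by
    rw [comb]
    simp [hq]
  exact congrFun (hi _ h1) ⟨0, hd⟩

end Fermat.Agent.GAL.KLC
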