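import Fermat.Agent.GAL.KLC.LLeqL

/-!
# GAL / KLC : `Spans` from independence + the dimension bound (package KLC-X3a1)
-/

set_option autoImplicit false

open Polynomial IntermediateField

noncomputable section

namespace Fermat.Agent.GAL.KLC

open Fermat.Agent.GAL.KL

theorem spans_of_finrank_le {K F : Type*} [Field K] [Field F] [Algebra K F] {t : F} {d : ℕ}
    (β : Fin d → F) (ht : Transcendental K t)
    (hi : ∀ p : Fin d → K[X], comb K t p β = 0 → p = 0)
    (hfin : FiniteDimensional K⟮t⟯ F) (hle : Module.finrank K⟮t⟯ F ≤ d) : Spans K t β := by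
  classical
  have hne : ∀ q : K[X], q ≠ 0 → aeval t q ≠ 0 := fun q hq h0 =>
    hq ((transcendental_iff.1 ht) q h0)
  have hli : LinearIndependent (IntermediateField.adjoin K {t}) β := by
    rw [Fintype.linearIndependent_iff]
    intro g hg
    choose r s hs0 hrs using fun i => LLeqL_exists_frac (g i)
    set p : Fin d → K[X] := fun i => r i * ∏ j ∈ Finset.univ.erase i, s j with hp
    have hpi : ∀ i, aeval t (p i) = (g i : F) * aeval t (∏ j, s j) := by
      intro i
      rw [hp, ← Finset.mul_prod_erase Finset.univ s (Finset.mem_univ i)]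
      simp only [map_mul]
      rw [← hrs i]
      ring
    have hc : comb K t p β = 0 := by
      rw [comb]
      have h1 : ∑ i, aeval t (p i) * β i = aeval t (∏ j, s j) * ∑ i, g i • β i := by
        rw [Finset.mul_sum]
        refine Finset.sum_congr rfl fun i _ => ?_
        rw [hpi i, IntermediateField.smul_def, smul_eq_mul]
        ring
      rw [h1, hg, mul_zero]
    have hp0 := hi p hc
    intro i
    have h2 : r i * ∏ j ∈ Finset.univ.erase i, s j = 0 := congrFun hp0 i
    have h3 : r i = 0 := by
      rcases mul_eq_zero.1 h2 with h | h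
      · exact h
      · exact absurd h (Finset.prod_ne_zero_iff.2 fun j _ => hs0 j)
    have h4 := hrs i
    rw [h3, map_zero] at h4
    rcases mul_eq_zero.1 h4 with h | h
    · exact Subtype.ext h
    · exact absurd h (hne _ (hs0 i))
  have hcard : Fintype.card (Fin d) = Module.finrank (IntermediateField.adjoin K {t}) F := by
    have h1 := hli.fintype_card_le_finrank
    rw [Fintype.card_fin] at h1 ⊢
    omega
  have hsp : Submodule.span (IntermediateField.adjoin K {t}) (Set.range β) = ⊤ :=
    hli.span_eq_top_of_card_eq_finrank' hcard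
  intro x
  have hx : x ∈ Submodule.span (IntermediateField.adjoin K {t}) (Set.range β) := by
    rw [hsp]; trivial
  obtain ⟨g, hg⟩ := (Submodule.mem_span_range_iff_exists_fun _).1 hx
  choose r s hs0 hrs using fun i => LLeqL_exists_frac (g i)
  set p : Fin d → K[X] := fun i => r i * ∏ j ∈ Finset.univ.erase i, s j with hp
  have hpi : ∀ i, aeval t (p i) = (g i : F) * aeval t (∏ j, s j) := by
    intro i
    rw [hp, ← Finset.mul_prod_erase Finset.univ s (Finset.mem_univ i)]
    simp only [map_mul]
    rw [← hrs i]
    ring
  refine ⟨∏ j, s j, p, Finset.prod_ne_zero_iff.2 fun j _ => hs0 j, ?_⟩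
  rw [comb, ← hg, Finset.mul_sum]
  refine Finset.sum_congr rfl fun i _ => ?_
  rw [hpi i, IntermediateField.smul_def, smul_eq_mul]
  ring

end Fermat.Agent.GAL.KLC
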