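import Fermat.Agent.GAL.KLC.Defs
import Fermat.Agent.S28.EmbE

/-!
# GAL / KLC-X2 : the eta quotients `u_d = Δ(q^d)/Δ(q)`, `d ∣ N`, lie in the function field

Algebraic proof via the S28 classification of the embeddings of `F' = ℚ(j_d, u_d)`:
the only embedding of `F'` into `Ω̄` extending `σ₀` on `F = ℚ(j_d)` is `σ₀`, so `[F' : F] = 1`.
-/

set_option autoImplicit false

open ModularCurve AlgebraicCurve Polynomial

noncomputable section

namespace Fermat.Agent.GAL.KLC

theorem xMem_jd_mem_full (N d : ℕ) [NeZero N] (hd : d ∣ N) :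
    S28.jd d ∈ modularFunctionFieldFull N := by
  have hd0 : d ≠ 0 := by rintro rfl; exact NeZero.ne N (Nat.eq_zero_of_zero_dvd hd)
  have : NeZero d := ⟨hd0⟩
  unfold S28.jd
  rw [S28.qE_eq]
  exact jqd_mem_full N hd

theorem xMem_jq_mem_full (N : ℕ) [NeZero N] : jq ∈ modularFunctionFieldFull N := by
  have := xMem_jd_mem_full N 1 (one_dvd N)
  rwa [S28.jd_one] at this

/-- transport of integrality along a commutative square. -/
theorem xMem_isIntegralElem_of_square {R A B C : Type*} [CommRing R] [CommRing A] [CommRing B]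
    [CommRing C] (f : R →+* A) (g : A →+* C) (ψ : R →+* B) (k : B →+* C)
    (hcomp : k.comp ψ = g.comp f) {x : A} (hx : f.IsIntegralElem x) : k.IsIntegralElem (g x) := by
  obtain ⟨P, hP, hev⟩ := hx
  refine ⟨P.map ψ, hP.map _, ?_⟩
  rw [Polynomial.eval₂_map, hcomp, ← Polynomial.hom_eval₂, hev, map_zero]

/-- `u_d` is integral over `F`. -/
theorem xMem_isIntegral_ud (N ℓ : ℕ) [NeZero N] [Fact ℓ.Prime] (hℓN : ¬ ℓ ∣ N) (d : ℕ)
    (hd : d ∣ N) : IsIntegral (modularFunctionFieldFull N) (S28.ud d) := by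
  have h0 := (S28.gens_integral N ℓ (NeZero.ne N) hℓN d hd).2.1
  let ψ : Polynomial (S28.Zl ℓ) →+* modularFunctionFieldFull N :=
    Polynomial.eval₂RingHom ((algebraMap ℚ (modularFunctionFieldFull N)).comp
      (GaloisRep.ratLocalizedAt ℓ).subtype) ⟨jq, xMem_jq_mem_full N⟩
  have hcomp : (algebraMap (modularFunctionFieldFull N) S28.LQ).comp ψ =
      (algebraMap (S28.Fp N) S28.LQ).comp (S28.iT N ℓ (S28.jF N)) := by
    apply Polynomial.ringHom_ext
    · intro a
      simp only [ψ, S28.iT, RingHom.comp_apply, Polynomial.coe_eval₂RingHom, Polynomial.eval₂_C,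
        eq_ratCast, map_ratCast]
    · simp only [ψ, S28.iT, RingHom.comp_apply, Polynomial.coe_eval₂RingHom, Polynomial.eval₂_X,
        IntermediateField.algebraMap_apply, S28.jF]
  have h1 := xMem_isIntegralElem_of_square _ (algebraMap (S28.Fp N) S28.LQ) ψ
    (algebraMap (modularFunctionFieldFull N) S28.LQ) hcomp h0
  rw [IntermediateField.algebraMap_apply, S28.D_coe_udF N hd] at h1
  exact h1

/-- abstract Galois theory: if all `F`-embeddings of `F(S)` into an algebraically closed field agree on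
`S`, then `S ⊆ F` (characteristic zero). -/
theorem xMem_mem_range_of_unique {F L Ω : Type*} [Field F] [Field L] [Field Ω] [CharZero F]
    [Algebra F L] [Algebra F Ω] [IsAlgClosed Ω] (S : Set L) (hfin : S.Finite)
    (hint : ∀ x ∈ S, IsIntegral F x)
    (huniq : ∀ φ₁ φ₂ : IntermediateField.adjoin F S →ₐ[F] Ω, ∀ (x : L) (hx : x ∈ S),
      φ₁ ⟨x, IntermediateField.subset_adjoin F S hx⟩ =
        φ₂ ⟨x, IntermediateField.subset_adjoin F S hx⟩) :
    ∀ x ∈ S, ∃ z : F, algebraMap F L z = x := by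
  classical
  have : Finite S := hfin
  have : FiniteDimensional F (IntermediateField.adjoin F S) :=
    IntermediateField.finiteDimensional_adjoin hint
  have hsub : Subsingleton (IntermediateField.adjoin F S →ₐ[F] Ω) := by
    constructor
    intro φ₁ φ₂
    apply IntermediateField.adjoin_algHom_ext
    intro x hx
    exact huniq φ₁ φ₂ x hx
  have hcard := AlgHom.card F (IntermediateField.adjoin F S) Ω
  have hle1 : Fintype.card (IntermediateField.adjoin F S →ₐ[F] Ω) ≤ 1 :=
    Fintype.card_le_one_iff_subsingleton.mpr hsub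
  have hpos : 0 < Module.finrank F (IntermediateField.adjoin F S) := Module.finrank_pos
  have hbot : IntermediateField.adjoin F S = ⊥ :=
    IntermediateField.finrank_eq_one_iff.mp (by omega)
  intro x hx
  have hmem : x ∈ IntermediateField.adjoin F S := IntermediateField.subset_adjoin F S hx
  rw [hbot, IntermediateField.mem_bot] at hmem
  exact hmem

theorem ud_mem_full (N d : ℕ) [NeZero N] (hd : d ∣ N) : S28.ud d ∈ modularFunctionFieldFull N := by
  classical
  have hN : N ≠ 0 := NeZero.ne N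
  obtain ⟨ℓ, hℓ1, hℓ2⟩ := Nat.exists_infinite_primes (N + 1)
  have : Fact ℓ.Prime := ⟨hℓ2⟩
  have hℓN : ¬ ℓ ∣ N := fun h => by
    have := Nat.le_of_dvd (Nat.pos_of_ne_zero hN) h
    omega
  let _ : Algebra (modularFunctionFieldFull N) (S28.Omb ℓ) :=
    ((S28.iotaB ℓ).comp (algebraMap (modularFunctionFieldFull N) S28.LQ)).toAlgebra
  have halgO : ∀ z : modularFunctionFieldFull N,
      algebraMap (modularFunctionFieldFull N) (S28.Omb ℓ) z = S28.iotaB ℓ (z : S28.LQ) :=
    fun z => rfl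
  let S : Set S28.LQ := (fun e => S28.ud e) '' (N.divisors : Set ℕ)
  have hSfin : S.Finite := (Finset.finite_toSet _).image _
  have hSint : ∀ x ∈ S, IsIntegral (modularFunctionFieldFull N) x := by
    rintro x ⟨e, he, rfl⟩
    exact xMem_isIntegral_ud N ℓ hℓN e (Nat.dvd_of_mem_divisors he)
  have hudS : ∀ e, e ∣ N → S28.ud e ∈ S := fun e he => ⟨e, Nat.mem_divisors.mpr ⟨he, hN⟩, rfl⟩
  suffices huniq : ∀ φ₁ φ₂ : IntermediateField.adjoin (modularFunctionFieldFull N) S
      →ₐ[modularFunctionFieldFull N] S28.Omb ℓ, ∀ (x : S28.LQ) (hx : x ∈ S),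
      φ₁ ⟨x, IntermediateField.subset_adjoin _ S hx⟩ =
        φ₂ ⟨x, IntermediateField.subset_adjoin _ S hx⟩ by
    obtain ⟨z, hz⟩ := xMem_mem_range_of_unique (F := modularFunctionFieldFull N)
      (Ω := S28.Omb ℓ) S hSfin hSint huniq (S28.ud d) (hudS d hd)
    rw [← hz]
    exact z.2
  set E := IntermediateField.adjoin (modularFunctionFieldFull N) S with hE
  have hudE : ∀ e, e ∣ N → S28.ud e ∈ E := fun e he =>
    IntermediateField.subset_adjoin _ S (hudS e he)
  have hFE : ∀ x : S28.LQ, x ∈ modularFunctionFieldFull N → x ∈ E :=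
    fun x hx => E.algebraMap_mem ⟨x, hx⟩
  have hle : ∀ x : S28.LQ, x ∈ S28.Fp N → x ∈ E := by
    intro x hx
    unfold S28.Fp at hx
    induction hx using IntermediateField.adjoin_induction with
    | mem x hx =>
      rcases hx with ⟨e, he, rfl⟩ | ⟨e, he, rfl⟩
      · exact hFE _ (xMem_jd_mem_full N e he)
      · exact hudE e he
    | algebraMap r => exact hFE _ ((modularFunctionFieldFull N).algebraMap_mem r)
    | add x y _ _ hx hy => exact add_mem hx hy
    | inv x _ hx => exact inv_mem hx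
    | mul x y _ _ hx hy => exact mul_mem hx hy
  let ι : S28.Fp N →+* E :=
    { toFun := fun x => ⟨x.1, hle x.1 x.2⟩
      map_one' := rfl
      map_mul' := fun _ _ => rfl
      map_zero' := rfl
      map_add' := fun _ _ => rfl }
  -- every `F`-embedding of `E` restricts to `σ₀`
  have hkey : ∀ φ : E →ₐ[modularFunctionFieldFull N] S28.Omb ℓ,
      (φ : E →+* S28.Omb ℓ).comp ι = S28.sigma0 N ℓ := by
    intro φ
    set σ : S28.Fp N →+* S28.Omb ℓ := (φ : E →+* S28.Omb ℓ).comp ι with hσ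
    have hσF : ∀ (x : S28.Fp N) (hx : (x : S28.LQ) ∈ modularFunctionFieldFull N),
        σ x = S28.iotaB ℓ (x : S28.LQ) := by
      intro x hx
      have h1 : ι x = algebraMap (modularFunctionFieldFull N) E ⟨x, hx⟩ := rfl
      rw [hσ, RingHom.comp_apply, h1]
      exact (φ.commutes _).trans (halgO _)
    have hj : σ (S28.jF N) = S28.iotaB ℓ jq := hσF _ (xMem_jq_mem_full N)
    obtain ⟨a, r, s, hpar⟩ := S28.exists_param N ℓ hN hℓN σ hj
    have hpar : S28.E4.IsParam N ℓ σ a r s := hpar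
    apply hpar.eq_sigma0 hN
    intro e he
    have he0 : e ≠ 0 := by rintro rfl; exact hN (Nat.eq_zero_of_zero_dvd he)
    have h1 := (hpar.2.2.1 e he).2.2.1
    have h2 : σ (S28.jdF N e) = S28.sigma0 N ℓ (S28.jdF N e) := by
      rw [hσF _ (by rw [S28.D_coe_jdF N he]; exact xMem_jd_mem_full N e he)]
      rfl
    rw [h2, S28.E4.sigma0_jdF N ℓ he he0, ← S28.tauU_one] at h1
    have he0' : (0 : ℚ) < e := by exact_mod_cast Nat.pos_of_ne_zero he0
    exact (S28.D_ev_jq_unique ℓ he0' (hpar.pos hN e he) h1).2.symm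
  rintro φ₁ φ₂ x ⟨e, he, rfl⟩
  have he' := Nat.dvd_of_mem_divisors he
  have h1 := congrArg (fun f : S28.Fp N →+* S28.Omb ℓ => f ⟨S28.ud e, S28.ud_mem N e he'⟩)
    ((hkey φ₁).trans (hkey φ₂).symm)
  exact h1

/-- `u_d` over `ℤ` maps to `u_d` over `ℚ`. -/
theorem xMem_coeffMap_uU (d : ℕ) :
    coeffMap (Int.castRingHom ℚ) ((uU d : (LaurentSeries ℤ)ˣ) : LaurentSeries ℤ) = S28.ud d := by
  have h1 : ((uU d : (LaurentSeries ℤ)ˣ) : LaurentSeries ℤ)
      = S28.qE ℤ d (S28.DqC ℤ) * S28.DqInvC ℤ := rfl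
  rw [h1, map_mul, S28.coeffMap_qE, S28.coeffMap_DqC, S28.coeffMap_DqInvC]
  unfold S28.ud
  rw [div_eq_mul_inv]
  congr 1
  exact eq_inv_of_mul_eq_one_right (S28.DqC_mul_DqInvC ℚ)

theorem xMem_coeffMap_hU_mem (M : ℕ) [NeZero M] :
    coeffMap (Int.castRingHom ℚ) ((hU M : (LaurentSeries ℤ)ˣ) : LaurentSeries ℤ)
      ∈ modularFunctionFieldFull M := by
  have h1 : coeffMap (Int.castRingHom ℚ) ((hU M : (LaurentSeries ℤ)ˣ) : LaurentSeries ℤ)
      = ((Units.map (coeffMap (Int.castRingHom ℚ) : LaurentSeries ℤ →* LaurentSeries ℚ) (hU M)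
          : (LaurentSeries ℚ)ˣ) : LaurentSeries ℚ) := rfl
  rw [h1]
  unfold hU
  rw [map_prod, Units.coe_prod]
  apply prod_mem
  intro T hT
  rw [map_zpow, Units.val_zpow_eq_zpow_val]
  apply zpow_mem
  have h2 : ((Units.map (coeffMap (Int.castRingHom ℚ) : LaurentSeries ℤ →* LaurentSeries ℚ)
      (uU (S28.E4.dT M T)) : (LaurentSeries ℚ)ˣ) : LaurentSeries ℚ)
      = coeffMap (Int.castRingHom ℚ) ((uU (S28.E4.dT M T) : (LaurentSeries ℤ)ˣ) : LaurentSeries ℤ) :=
    rfl
  rw [h2, xMem_coeffMap_uU]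
  exact ud_mem_full M _ (S28.E4.dT_dvd M hT)

theorem xMem_coeffMap_int (L : Type*) [Field L] [Algebra ℚ L] (y : LaurentSeries ℤ) :
    coeffMap (Int.castRingHom L) y = coeffEmb L (coeffMap (Int.castRingHom ℚ) y) := by
  unfold coeffEmb
  rw [coeffMap_coeffMap, RingHom.ext_int ((algebraMap ℚ L).comp (Int.castRingHom ℚ))
    (Int.castRingHom L)]

variable (M : ℕ) [NeZero M]

theorem xR_mem : xR Qb M ∈ FL Qb M := by
  unfold xR
  rw [xMem_coeffMap_int]
  apply coeffEmb_mem_laurentBaseChange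
  unfold XZ
  rw [map_mul, map_pow, coeffMap_jqModC]
  exact mul_mem (xMem_coeffMap_hU_mem M) (pow_mem (xMem_jq_mem_full M) _)

theorem xR'_mem : xR' Qb M ∈ FL Qb M := by
  unfold xR'
  rw [xMem_coeffMap_int]
  apply coeffEmb_mem_laurentBaseChange
  unfold XZ'
  rw [map_mul, map_pow, coeffMap_jqModC]
  exact mul_mem (xMem_coeffMap_hU_mem M) (pow_mem (xMem_jq_mem_full M) _)

end Fermat.Agent.GAL.KLC
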