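import Fermat.Agent.GAL.KLC.Defs

/-!
# GAL / KLC, package KLC-X1 : `x = q^{-m}(1+…)`, `x' = q^{-(m-1)}(1+…)` in `ℤ((q))`
-/

set_option autoImplicit false

open ModularCurve AlgebraicCurve Polynomial

noncomputable section

namespace Fermat.Agent.GAL.KLC

open Fermat.Agent.GR Fermat.Agent.GAL.KL

/-- `y = q^e (1 + …)`. -/
def XSeries_Monic (e : ℤ) (y : LaurentSeries ℤ) : Prop :=
  ∃ u : PowerSeries ℤ, PowerSeries.constantCoeff u = 1 ∧
    y = HahnSeries.single e 1 * HahnSeries.ofPowerSeries ℤ ℤ u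

theorem XSeries_Monic.one : XSeries_Monic 0 1 :=
  ⟨1, by simp, by simp⟩

theorem XSeries_Monic.mul {e e' : ℤ} {y y' : LaurentSeries ℤ} (h : XSeries_Monic e y)
    (h' : XSeries_Monic e' y') : XSeries_Monic (e + e') (y * y') := by
  obtain ⟨u, hu, rfl⟩ := h
  obtain ⟨u', hu', rfl⟩ := h'
  refine ⟨u * u', by rw [map_mul, hu, hu', one_mul], ?_⟩
  rw [map_mul, mul_mul_mul_comm, HahnSeries.single_mul_single, one_mul]

theorem XSeries_Monic.pow {e : ℤ} {y : LaurentSeries ℤ} (h : XSeries_Monic e y) (n : ℕ) :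
    XSeries_Monic (n * e) (y ^ n) := by
  induction n with
  | zero => simpa using XSeries_Monic.one
  | succ n ih =>
    rw [pow_succ, show ((n + 1 : ℕ) : ℤ) * e = n * e + e by push_cast; ring]
    exact ih.mul h

theorem XSeries_Monic.inv {e : ℤ} {y : (LaurentSeries ℤ)ˣ} (h : XSeries_Monic e y) :
    XSeries_Monic (-e) ((y⁻¹ : (LaurentSeries ℤ)ˣ) : LaurentSeries ℤ) := by
  obtain ⟨u, hu, hy⟩ := h
  have h1 : u * u.invOfUnit 1 = 1 := PowerSeries.mul_invOfUnit _ _ (by rw [hu]; rfl)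
  have h2 : PowerSeries.constantCoeff (u.invOfUnit 1) = 1 := by
    have := congrArg PowerSeries.constantCoeff h1
    rwa [map_mul, hu, one_mul, map_one] at this
  refine ⟨u.invOfUnit 1, h2, ?_⟩
  apply Units.inv_eq_of_mul_eq_one_right
  rw [hy, mul_mul_mul_comm, HahnSeries.single_mul_single, ← map_mul, h1, add_neg_cancel, one_mul,
    map_one (HahnSeries.ofPowerSeries ℤ ℤ), mul_one]
  rfl

theorem XSeries_Monic.zpow {e : ℤ} {y : (LaurentSeries ℤ)ˣ} (h : XSeries_Monic e y) (n : ℤ) :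
    XSeries_Monic (n * e) ((y ^ n : (LaurentSeries ℤ)ˣ) : LaurentSeries ℤ) := by
  obtain ⟨n, rfl | rfl⟩ := n.eq_nat_or_neg
  · rw [zpow_natCast, Units.val_pow_eq_pow_val]
    exact h.pow n
  · rw [zpow_neg, zpow_natCast, neg_mul]
    apply XSeries_Monic.inv
    rw [Units.val_pow_eq_pow_val]
    exact h.pow n

theorem XSeries_Monic.prod {ι : Type*} (s : Finset ι) (e : ι → ℤ) (y : ι → LaurentSeries ℤ)
    (h : ∀ i ∈ s, XSeries_Monic (e i) (y i)) : XSeries_Monic (∑ i ∈ s, e i) (∏ i ∈ s, y i) := by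
  classical
  induction s using Finset.induction_on with
  | empty => simpa using XSeries_Monic.one
  | insert a s ha ih =>
    rw [Finset.sum_insert ha, Finset.prod_insert ha]
    exact (h a (Finset.mem_insert_self a s)).mul
      (ih fun i hi => h i (Finset.mem_insert_of_mem hi))

theorem XSeries_Monic.qE {e : ℤ} {y : LaurentSeries ℤ} (h : XSeries_Monic e y) {d : ℕ}
    (hd : d ≠ 0) : XSeries_Monic (d * e) (S28.qE ℤ d y) := by
  obtain ⟨u, hu, rfl⟩ := h
  have : NeZero d := ⟨hd⟩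
  refine ⟨u.expand d hd, by rw [PowerSeries.constantCoeff_expand, hu], ?_⟩
  rw [S28.qE_eq, map_mul, qExpand_single, qExpand_ofPowerSeries]

theorem XSeries_Monic.order {e : ℤ} {y : LaurentSeries ℤ} (h : XSeries_Monic e y) :
    y.order = e := by
  obtain ⟨u, hu, rfl⟩ := h
  have h0 : (HahnSeries.ofPowerSeries ℤ ℤ u).coeff 0 = 1 := by
    have := HahnSeries.ofPowerSeries_apply_coeff (Γ := ℤ) u 0
    rw [Nat.cast_zero] at this
    rw [this, PowerSeries.coeff_zero_eq_constantCoeff_apply, hu]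
  have hne : HahnSeries.ofPowerSeries ℤ ℤ u ≠ 0 := by
    intro h
    rw [h] at h0
    simp at h0
  rw [HahnSeries.order_single_mul_of_isRegular (isRegular_one) hne]
  have h1 : (HahnSeries.ofPowerSeries ℤ ℤ u).order = 0 := by
    apply le_antisymm
    · exact HahnSeries.order_le_of_coeff_ne_zero (by rw [h0]; exact one_ne_zero)
    · exact (HahnSeries.le_order_iff_forall hne).mpr fun j hj => ofPowerSeries_coeff_of_neg u hj
  rw [h1, add_zero]

/-! ### the basic series -/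

theorem XSeries_DU : XSeries_Monic 1 (DU : LaurentSeries ℤ) :=
  ⟨dedekindEtaUnit.map (Int.castRingHom ℤ), by
    rw [← PowerSeries.coeff_zero_eq_constantCoeff_apply, PowerSeries.coeff_map,
      PowerSeries.coeff_zero_eq_constantCoeff_apply, constantCoeff_dedekindEtaUnit]; rfl, rfl⟩

theorem XSeries_jq : XSeries_Monic (-1) (jqModC ℤ) :=
  ⟨jNum.map (Int.castRingHom ℤ), by
    rw [← PowerSeries.coeff_zero_eq_constantCoeff_apply, PowerSeries.coeff_map,
      PowerSeries.coeff_zero_eq_constantCoeff_apply, jNum, map_mul, map_pow,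
      constantCoeff_eisenstein4, constantCoeff_dedekindEtaUnitInv]; simp, rfl⟩

theorem XSeries_uU {d : ℕ} (hd : d ≠ 0) : XSeries_Monic ((d : ℤ) - 1) (uU d : LaurentSeries ℤ) := by
  have h1 : XSeries_Monic ((d : ℤ) * 1) (S28.qE ℤ d (DU : LaurentSeries ℤ)) := XSeries_DU.qE hd
  have h2 := h1.mul XSeries_DU.inv
  rw [mul_one, ← sub_eq_add_neg] at h2
  exact h2

theorem XSeries_dT_ne_zero (M : ℕ) [NeZero M] {T : Finset ℕ} (hT : T ∈ M.primeFactors.powerset) :
    S28.E4.dT M T ≠ 0 := fun h =>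
  NeZero.ne M (Nat.eq_zero_of_zero_dvd (h ▸ S28.E4.dT_dvd M hT))

theorem XSeries_hU (M : ℕ) [NeZero M] :
    XSeries_Monic (∑ T ∈ M.primeFactors.powerset, S28.E4.expT M T * ((S28.E4.dT M T : ℤ) - 1))
      (hU M : LaurentSeries ℤ) := by
  unfold hU
  rw [Units.coe_prod]
  exact XSeries_Monic.prod _ _ _ fun T hT => (XSeries_uU (XSeries_dT_ne_zero M hT)).zpow _

/-! ### combinatorics -/

theorem XSeries_sum_expT (M : ℕ) :
    ∑ T ∈ M.primeFactors.powerset, S28.E4.expT M T = -(e0 M : ℤ) := by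
  have h := Finset.prod_add (fun _ : ℕ => (-1 : ℤ)) (fun p : ℕ => (p : ℤ)) M.primeFactors
  simp only [Finset.prod_const] at h
  unfold S28.E4.expT e0
  rw [Finset.sum_neg_distrib, ← h, Nat.cast_prod]
  congr 1
  refine Finset.prod_congr rfl fun p hp => ?_
  have := (Nat.prime_of_mem_primeFactors hp).one_le
  push_cast [this]
  ring

theorem XSeries_dT_eq (M : ℕ) [NeZero M] {T : Finset ℕ} (hT : T ∈ M.primeFactors.powerset) :
    S28.E4.dT M T = (M / ∏ p ∈ M.primeFactors, p) * ∏ p ∈ M.primeFactors \ T, p := by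
  rw [Finset.mem_powerset] at hT
  have h1 : (∏ p ∈ M.primeFactors \ T, p) * ∏ p ∈ T, p = ∏ p ∈ M.primeFactors, p :=
    Finset.prod_sdiff hT
  have h2 : (M / ∏ p ∈ M.primeFactors, p) * ∏ p ∈ M.primeFactors, p = M :=
    Nat.div_mul_cancel (Nat.prod_primeFactors_dvd M)
  have h3 : 0 < ∏ p ∈ T, p :=
    Finset.prod_pos fun p hp => (Nat.prime_of_mem_primeFactors (hT hp)).pos
  unfold S28.E4.dT
  apply Nat.div_eq_of_eq_mul_left h3
  rw [mul_assoc, h1, h2]

theorem XSeries_sum_expT_dT (M : ℕ) [NeZero M] :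
    ∑ T ∈ M.primeFactors.powerset, S28.E4.expT M T * (S28.E4.dT M T : ℤ) =
      -(((M / ∏ p ∈ M.primeFactors, p : ℕ) : ℤ) * ∏ p ∈ M.primeFactors, ((p : ℤ) ^ 2 - 1)) := by
  have h := Finset.prod_add (fun _ : ℕ => (-1 : ℤ)) (fun p : ℕ => (p : ℤ) ^ 2) M.primeFactors
  simp only [Finset.prod_const] at h
  have h' : ∏ p ∈ M.primeFactors, ((p : ℤ) ^ 2 - 1) = ∏ p ∈ M.primeFactors, (-1 + (p : ℤ) ^ 2) :=
    Finset.prod_congr rfl fun p _ => by ring
  rw [h', h, Finset.mul_sum, ← Finset.sum_neg_distrib]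
  refine Finset.sum_congr rfl fun T hT => ?_
  rw [XSeries_dT_eq M hT]
  unfold S28.E4.expT
  push_cast
  rw [Finset.prod_pow]
  ring

theorem XSeries_e0_pos (M : ℕ) : 0 < e0 M :=
  Finset.prod_pos fun _ hp => Nat.sub_pos_of_lt (Nat.prime_of_mem_primeFactors hp).one_lt

theorem XSeries_neg (M : ℕ) [NeZero M] :
    ∑ T ∈ M.primeFactors.powerset, S28.E4.expT M T * (S28.E4.dT M T : ℤ) < 0 := by
  rw [XSeries_sum_expT_dT, neg_lt_zero]
  apply mul_pos
  · exact_mod_cast Nat.div_pos (Nat.le_of_dvd (Nat.pos_of_ne_zero (NeZero.ne M))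
      (Nat.prod_primeFactors_dvd M))
      (Finset.prod_pos fun p hp => (Nat.prime_of_mem_primeFactors hp).pos)
  · refine Finset.prod_pos fun p hp => ?_
    have : (2 : ℤ) ≤ p := by exact_mod_cast (Nat.prime_of_mem_primeFactors hp).two_le
    nlinarith

theorem XSeries_XZ (M : ℕ) [NeZero M] :
    XSeries_Monic (∑ T ∈ M.primeFactors.powerset, S28.E4.expT M T * (S28.E4.dT M T : ℤ))
      (XZ M) := by
  have h := (XSeries_hU M).mul (XSeries_jq.pow (e0 M))
  have he : ∑ T ∈ M.primeFactors.powerset, S28.E4.expT M T * ((S28.E4.dT M T : ℤ) - 1)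
      + (e0 M : ℤ) * (-1) =
      ∑ T ∈ M.primeFactors.powerset, S28.E4.expT M T * (S28.E4.dT M T : ℤ) := by
    simp only [mul_sub, mul_one, Finset.sum_sub_distrib, XSeries_sum_expT]
    ring
  rw [he] at h
  exact h

theorem XSeries_XZ' (M : ℕ) [NeZero M] :
    XSeries_Monic (∑ T ∈ M.primeFactors.powerset, S28.E4.expT M T * (S28.E4.dT M T : ℤ) + 1)
      (XZ' M) := by
  have h := (XSeries_hU M).mul (XSeries_jq.pow (e0 M - 1))
  have he : ∑ T ∈ M.primeFactors.powerset, S28.E4.expT M T * ((S28.E4.dT M T : ℤ) - 1)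
      + ((e0 M - 1 : ℕ) : ℤ) * (-1) =
      ∑ T ∈ M.primeFactors.powerset, S28.E4.expT M T * (S28.E4.dT M T : ℤ) + 1 := by
    have := XSeries_e0_pos M
    simp only [mul_sub, mul_one, Finset.sum_sub_distrib, XSeries_sum_expT]
    push_cast [Nat.cast_sub this]
    ring
  rw [he] at h
  exact h

theorem XSeries_mX (M : ℕ) [NeZero M] :
    -(mX M : ℤ) = ∑ T ∈ M.primeFactors.powerset, S28.E4.expT M T * (S28.E4.dT M T : ℤ) := by
  have h := XSeries_neg M
  unfold mX
  rw [(XSeries_XZ M).order, Int.toNat_of_nonneg (by linarith), neg_neg]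

/-! ### the deliverables -/

section X
variable (M : ℕ) [NeZero M]

theorem mX_pos : 0 < mX M := by
  have h := XSeries_neg M
  rw [← XSeries_mX] at h
  have : (0 : ℤ) < mX M := by linarith
  exact_mod_cast this

theorem XZ_eq : ∃ u : PowerSeries ℤ, PowerSeries.constantCoeff u = 1 ∧
    XZ M = HahnSeries.single (-(mX M : ℤ)) 1 * HahnSeries.ofPowerSeries ℤ ℤ u := by
  rw [XSeries_mX]
  exact XSeries_XZ M

theorem XZ'_eq : ∃ u : PowerSeries ℤ, PowerSeries.constantCoeff u = 1 ∧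
    XZ' M = HahnSeries.single (-(mX M : ℤ) + 1) 1 * HahnSeries.ofPowerSeries ℤ ℤ u := by
  rw [XSeries_mX]
  exact XSeries_XZ' M

end X

end Fermat.Agent.GAL.KLC
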