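import Fermat.Agent.GAL.KLC.ValThm
import Fermat.Agent.GAL.KLC.GaussON
import Fermat.Agent.GAL.KLC.XSeries
import Fermat.Agent.GAL.KLC.XMem

/-!
# GAL / KLC : the functions `x`, `x'` as elements of `FL ℚ̄ M`; their reductions, `Gauss` and `ON`.
-/

set_option autoImplicit false

open ModularCurve AlgebraicCurve Polynomial

noncomputable section

namespace Fermat.Agent.GAL.KLC

open Fermat.Agent.GR Fermat.Agent.GAL.KL

/-! ## orders of reduced integer series -/

theorem order_of_eq {R : Type*} [CommRing R] [Nontrivial R] (y : LaurentSeries ℤ) (e : ℤ)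
    (h : ∃ u : PowerSeries ℤ, PowerSeries.constantCoeff u = 1 ∧
      y = HahnSeries.single e 1 * HahnSeries.ofPowerSeries ℤ ℤ u) :
    (coeffMap (Int.castRingHom R) y).order = e := by
  obtain ⟨u, hu, rfl⟩ := h
  have hc : ∀ k : ℤ, (coeffMap (Int.castRingHom R)
      (HahnSeries.single e 1 * HahnSeries.ofPowerSeries ℤ ℤ u)).coeff (k + e) =
        (((HahnSeries.ofPowerSeries ℤ ℤ u).coeff k : ℤ) : R) := by
    intro k
    rw [coeffMap_coeff, HahnSeries.coeff_single_mul_add, one_mul]
    rfl
  have h0 : (HahnSeries.ofPowerSeries ℤ ℤ u).coeff 0 = 1 := by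
    have := HahnSeries.ofPowerSeries_apply_coeff (Γ := ℤ) u 0
    rw [Nat.cast_zero] at this
    rw [this, PowerSeries.coeff_zero_eq_constantCoeff_apply, hu]
  have he : (coeffMap (Int.castRingHom R)
      (HahnSeries.single e 1 * HahnSeries.ofPowerSeries ℤ ℤ u)).coeff e = 1 := by
    have := hc 0
    rw [zero_add, h0, Int.cast_one] at this
    exact this
  have hne : coeffMap (Int.castRingHom R)
      (HahnSeries.single e 1 * HahnSeries.ofPowerSeries ℤ ℤ u) ≠ 0 := by
    intro h
    rw [h] at he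
    simp at he
  apply le_antisymm
  · exact HahnSeries.order_le_of_coeff_ne_zero (by rw [he]; exact one_ne_zero)
  · refine (HahnSeries.le_order_iff_forall hne).mpr fun j hj => ?_
    have := hc (j - e)
    rw [sub_add_cancel, ofPowerSeries_coeff_of_neg u (by omega), Int.cast_zero] at this
    exact this

theorem order_psR_pos {k : Type*} [Field k] (f : PowerSeries ℤ)
    (h0 : PowerSeries.constantCoeff f = 0) (hne : psR k f ≠ 0) : 0 < (psR k f).order := by
  have h1 : (1 : ℤ) ≤ (psR k f).order := by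
    refine (HahnSeries.le_order_iff_forall hne).mpr fun j hj => ?_
    unfold psR
    rcases lt_or_eq_of_le (show j ≤ 0 by omega) with hj | rfl
    · exact ofPowerSeries_coeff_of_neg _ hj
    · have := HahnSeries.ofPowerSeries_apply_coeff (Γ := ℤ) (f.map (Int.castRingHom k)) 0
      rw [Nat.cast_zero] at this
      rw [this, PowerSeries.coeff_map, PowerSeries.coeff_zero_eq_constantCoeff_apply, h0, map_zero]
  omega

/-! ## `x`, `x'` -/

section X
variable (M : ℕ) [NeZero M]

/-- `x` as an element of `FL ℚ̄ M`. -/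
def xF : FL Qb M := ⟨xR Qb M, xR_mem M⟩

/-- `x'` as an element of `FL ℚ̄ M`. -/
def xF' : FL Qb M := ⟨xR' Qb M, xR'_mem M⟩

theorem order_xR (R : Type*) [CommRing R] [Nontrivial R] : (xR R M).order = -(mX M : ℤ) :=
  order_of_eq _ _ (XZ_eq M)

theorem order_xR' (R : Type*) [CommRing R] [Nontrivial R] : (xR' R M).order = -(mX M : ℤ) + 1 :=
  order_of_eq _ _ (XZ'_eq M)

variable (A : ValuationSubring Qb)

theorem xF_mem_integer : xF M ∈ (vG A M).integer := (rho_int A M (XZ M) (xR_mem M)).choose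

theorem xF'_mem_integer : xF' M ∈ (vG A M).integer := (rho_int A M (XZ' M) (xR'_mem M)).choose

theorem rho_xF : rho A M ⟨xF M, xF_mem_integer M A⟩ = xR (kA A) M :=
  (rho_int A M (XZ M) (xR_mem M)).choose_spec

theorem rho_xF' : rho A M ⟨xF' M, xF'_mem_integer M A⟩ = xR' (kA A) M :=
  (rho_int A M (XZ' M) (xR'_mem M)).choose_spec

theorem order_rho_xF : (rho A M ⟨xF M, xF_mem_integer M A⟩).order = -(mX M : ℤ) := by
  rw [rho_xF]; exact order_xR M _

theorem order_rho_xF' : (rho A M ⟨xF' M, xF'_mem_integer M A⟩).order = -(mX M : ℤ) + 1 := by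
  rw [rho_xF']; exact order_xR' M _

theorem gauss_xF : Gauss Qb (vG A M) (xF M) :=
  gauss_of_isRed (isRed A M) (xF_mem_integer M A) (by
    rw [order_rho_xF]; have := mX_pos M; omega)

theorem on_xF : ON Qb (vG A M) (xF M) (fun i : Fin (mX M) => xF' M ^ (i : ℕ)) :=
  on_of_isRed (isRed A M) (xF_mem_integer M A) (xF'_mem_integer M A) (mX_pos M)
    (order_rho_xF M A) (order_rho_xF' M A)

theorem transcendental_xF : Transcendental Qb (xF M) := by
  rw [transcendental_iff]
  exact fun p hp => (gauss_xF M ⊤).inj p hp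

/-- the powers `x'^i`, `i < m`, are independent over `ℚ̄[x]`. -/
theorem comb_xF_inj (p : Fin (mX M) → Qb[X])
    (h : comb Qb (xF M) p (fun i : Fin (mX M) => xF' M ^ (i : ℕ)) = 0) : p = 0 :=
  (on_xF M ⊤).inj (gauss_xF M ⊤) p h

end X

end Fermat.Agent.GAL.KLC
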