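import Fermat.Agent.GAL.KLC.Defs
import Fermat.Agent.S23.Main
import Fermat.Agent.S49.M3.Lattice

/-!
# GAL / KLC : an integral basis of `S₂(Γ₀(M))` with independent reductions mod `ℓ`

`Λ = intLattice M 2` (cusp forms with integral `q`-expansion) is a free `ℤ`-module of finite rank; by the
integral structure theorem (S23) a `ℤ`-basis of `Λ` is a `ℂ`-basis of `S₂(Γ₀(M))`; since `Λ` is saturated
(`ℓ ∣ f ⇒ f / ℓ ∈ Λ`), the reductions mod `ℓ` of the `q`-expansions of a `ℤ`-basis are independent.
-/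

set_option autoImplicit false

open ModularCurve AlgebraicCurve Polynomial

noncomputable section

namespace Fermat.Agent.GAL.KLC

open Fermat.Agent.GR Fermat.Agent.GAL.KL

/-- Linear independence of vectors with coordinates in a field `K` persists over any extension `L`. -/
theorem cuspBasis_li_extend (K L : Type*) [Field K] [Field L] [Algebra K L] {ι X : Type*}
    (v : ι → X → K) (hv : LinearIndependent K v) :
    LinearIndependent L (fun i x => algebraMap K L (v i x)) := by
  rw [linearIndependent_iff'] at hv ⊢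
  intro s g hg i hi
  rw [← Module.forall_dual_apply_eq_zero_iff K (g i)]
  intro φ
  refine hv s (fun i => φ (g i)) ?_ i hi
  funext x
  have h1 := congrFun hg x
  have h2 := congrArg φ h1
  simp only [Finset.sum_apply, Pi.smul_apply, smul_eq_mul, Pi.zero_apply, map_zero, map_sum] at h2 ⊢
  rw [← h2]
  refine Finset.sum_congr rfl fun j _ => ?_
  rw [mul_comm (g j), ← Algebra.smul_def, map_smul, smul_eq_mul, mul_comm]

section Lattice

variable (M : ℕ)

/-- the integer `q`-coefficients of an element of the lattice. -/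
def cuspBasisCoeff (f : CuspForm.intLattice M 2) (n : ℕ) : ℤ :=
  Classical.choose ((S49.M3.mem_intLattice_iff (f : CuspForm (CongruenceSubgroup.Gamma0 M) 2)).mp f.2 n)

theorem cuspBasisCoeff_spec (f : CuspForm.intLattice M 2) (n : ℕ) :
    S49.M3.qc M 2 n (f : CuspForm (CongruenceSubgroup.Gamma0 M) 2) = (cuspBasisCoeff M f n : ℂ) :=
  Classical.choose_spec
    ((S49.M3.mem_intLattice_iff (f : CuspForm (CongruenceSubgroup.Gamma0 M) 2)).mp f.2 n)

/-- the integer `q`-coefficients, as a `ℤ`-linear map. -/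
def cuspBasisCoeffL : CuspForm.intLattice M 2 →ₗ[ℤ] (ℕ → ℤ) where
  toFun f := cuspBasisCoeff M f
  map_add' f g := by
    funext n
    have : ((cuspBasisCoeff M (f + g) n : ℤ) : ℂ) = ((cuspBasisCoeff M f n + cuspBasisCoeff M g n : ℤ) : ℂ) := by
      rw [Int.cast_add, ← cuspBasisCoeff_spec, ← cuspBasisCoeff_spec, ← cuspBasisCoeff_spec,
        Submodule.coe_add, map_add]
    exact_mod_cast this
  map_smul' c f := by
    funext n
    have : ((cuspBasisCoeff M (c • f) n : ℤ) : ℂ) = ((c * cuspBasisCoeff M f n : ℤ) : ℂ) := by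
      rw [Int.cast_mul, ← cuspBasisCoeff_spec, ← cuspBasisCoeff_spec, Submodule.coe_smul, map_zsmul,
        zsmul_eq_mul]
    simpa using (by exact_mod_cast this : cuspBasisCoeff M (c • f) n = c * cuspBasisCoeff M f n)

theorem cuspBasisCoeffL_apply (f : CuspForm.intLattice M 2) (n : ℕ) :
    cuspBasisCoeffL M f n = cuspBasisCoeff M f n := rfl

theorem cuspBasisCoeffL_injective : Function.Injective (cuspBasisCoeffL M) := by
  rw [injective_iff_map_eq_zero]
  intro f hf
  apply Subtype.ext
  apply S49.M3.eq_zero_of_qc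
  intro n
  rw [cuspBasisCoeff_spec, ← cuspBasisCoeffL_apply, hf]
  simp

/-- saturation: an element of the lattice all of whose coefficients are divisible by `ℓ` is `ℓ` times an
element of the lattice. -/
theorem cuspBasis_saturated (ℓ : ℕ) (hℓ : ℓ ≠ 0) (F : CuspForm.intLattice M 2)
    (hF : ∀ n, (ℓ : ℤ) ∣ cuspBasisCoeff M F n) :
    ∃ G : CuspForm.intLattice M 2, F = (ℓ : ℤ) • G := by
  have hℓC : (ℓ : ℂ) ≠ 0 := Nat.cast_ne_zero.mpr hℓ
  have hG : ((ℓ : ℂ)⁻¹ • (F : CuspForm (CongruenceSubgroup.Gamma0 M) 2)) ∈ CuspForm.intLattice M 2 := by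
    rw [S49.M3.mem_intLattice_iff]
    intro n
    obtain ⟨d, hd⟩ := hF n
    refine ⟨d, ?_⟩
    rw [map_smul, cuspBasisCoeff_spec, hd, smul_eq_mul]
    push_cast
    field_simp
  refine ⟨⟨_, hG⟩, ?_⟩
  apply Subtype.ext
  rw [Submodule.coe_smul]
  change _ = (ℓ : ℤ) • ((ℓ : ℂ)⁻¹ • (F : CuspForm (CongruenceSubgroup.Gamma0 M) 2))
  rw [← Int.cast_smul_eq_zsmul ℂ, smul_smul]
  push_cast
  rw [mul_inv_cancel₀ hℓC, one_smul]

variable {M} {ι : Type*} [Fintype ι] (b : Module.Basis ι ℤ (CuspForm.intLattice M 2))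

omit [Fintype ι] in
/-- the coefficient vectors of a `ℤ`-basis are independent over `ℂ`. -/
theorem cuspBasis_li_complex :
    LinearIndependent ℂ (fun i => ((b i : CuspForm.intLattice M 2) :
      CuspForm (CongruenceSubgroup.Gamma0 M) 2)) := by
  -- over `ℤ`
  have h1 : LinearIndependent ℤ (fun i => cuspBasisCoeffL M (b i)) :=
    b.linearIndependent.map' _ (LinearMap.ker_eq_bot.mpr (cuspBasisCoeffL_injective M))
  -- in `ℕ → ℚ`, over `ℤ`
  let c : (ℕ → ℤ) →ₗ[ℤ] (ℕ → ℚ) :=
    { toFun := fun w n => (w n : ℚ)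
      map_add' := fun w w' => by funext n; simp
      map_smul' := fun a w => by funext n; simp }
  have hc : Function.Injective c := fun w w' h => by
    funext n
    have h' : ((w n : ℤ) : ℚ) = ((w' n : ℤ) : ℚ) := congrFun h n
    exact_mod_cast h'
  have h2 : LinearIndependent ℤ (fun i => c (cuspBasisCoeffL M (b i))) :=
    h1.map' _ (LinearMap.ker_eq_bot.mpr hc)
  have h3 : LinearIndependent ℚ (fun i => c (cuspBasisCoeffL M (b i))) :=
    (LinearIndependent.iff_fractionRing ℤ ℚ).mp h2
  have h4 := cuspBasis_li_extend ℚ ℂ _ h3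
  refine LinearIndependent.of_comp (LinearMap.pi fun n => S49.M3.qc M 2 n) ?_
  have h5 : ((LinearMap.pi fun n => S49.M3.qc M 2 n) ∘ fun i => ((b i : CuspForm.intLattice M 2) :
      CuspForm (CongruenceSubgroup.Gamma0 M) 2)) =
      fun i x => (algebraMap ℚ ℂ) (c ((cuspBasisCoeffL M) (b i)) x) := by
    funext i n
    simp only [Function.comp_apply, LinearMap.pi_apply]
    rw [cuspBasisCoeff_spec]
    simp [c, cuspBasisCoeffL_apply]
  rw [h5]
  exact h4

/-- a `ℤ`-basis of the lattice spans the space of cusp forms over `ℂ`. -/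
theorem cuspBasis_span_complex [NeZero M] :
    ⊤ ≤ Submodule.span ℂ (Set.range (fun i => ((b i : CuspForm.intLattice M 2) :
      CuspForm (CongruenceSubgroup.Gamma0 M) 2))) := by
  have h := S23.hasIntegralStructure M 2
  unfold CuspForm.HasIntegralStructure at h
  rw [← h, Submodule.span_le]
  intro f hf
  have h1 : (⟨f, hf⟩ : CuspForm.intLattice M 2) = ∑ i, b.repr ⟨f, hf⟩ i • b i := (b.sum_repr _).symm
  have h2 : f = ∑ i, b.repr ⟨f, hf⟩ i • ((b i : CuspForm.intLattice M 2) :
      CuspForm (CongruenceSubgroup.Gamma0 M) 2) := by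
    have h3 := congrArg (Submodule.subtype (CuspForm.intLattice M 2)) h1
    rw [map_sum] at h3
    simpa only [map_smul, Submodule.subtype_apply] using h3
  rw [h2]
  refine Submodule.sum_mem _ fun i _ => ?_
  rw [← Int.cast_smul_eq_zsmul ℂ]
  exact Submodule.smul_mem _ _ (Submodule.subset_span ⟨i, rfl⟩)

include b in
theorem cuspBasis_card [NeZero M] :
    Module.finrank ℂ (CuspForm (CongruenceSubgroup.Gamma0 M) 2) = Fintype.card ι :=
  Module.finrank_eq_card_basis (Module.Basis.mk (cuspBasis_li_complex b) (cuspBasis_span_complex b))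

/-- the coefficient vectors of a `ℤ`-basis are independent mod `ℓ`. -/
theorem cuspBasis_li_zmod (ℓ : ℕ) [Fact ℓ.Prime] :
    LinearIndependent (ZMod ℓ) (fun i n => ((cuspBasisCoeff M (b i) n : ℤ) : ZMod ℓ)) := by
  rw [Fintype.linearIndependent_iff]
  intro g hg i
  choose c hc using fun i => ZMod.intCast_surjective (g i)
  obtain ⟨G, hG⟩ := cuspBasis_saturated M ℓ (Fact.out : ℓ.Prime).ne_zero (∑ i, c i • b i) (by
    intro n
    rw [← cuspBasisCoeffL_apply, map_sum, Finset.sum_apply, ← ZMod.intCast_zmod_eq_zero_iff_dvd]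
    have := congrFun hg n
    simp only [Finset.sum_apply, Pi.smul_apply, smul_eq_mul, Pi.zero_apply] at this
    rw [← this]
    push_cast
    refine Finset.sum_congr rfl fun j _ => ?_
    rw [map_smul, Pi.smul_apply, cuspBasisCoeffL_apply, smul_eq_mul, Int.cast_mul, hc])
  have h1 : b.repr (∑ i, c i • b i) i = c i := by
    rw [Module.Basis.repr_sum_self]
  rw [hG, map_smul, Finsupp.smul_apply, smul_eq_mul] at h1
  rw [← hc i, ← h1]
  simp

end Lattice

/-- the coefficients of nonnegative index of a Laurent series, as a linear map. -/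
def cuspBasisCoeffMap (k : Type*) [Field k] : LaurentSeries k →ₗ[k] (ℕ → k) where
  toFun y n := y.coeff (n : ℤ)
  map_add' y z := by funext n; simp
  map_smul' a y := by funext n; simp

theorem exists_cusp_basis (M ℓ : ℕ) [NeZero M] (hℓ : ℓ.Prime) (k : Type*) [Field k] [CharP k ℓ] :
    ∃ fZ : Fin (Module.finrank ℂ (CuspForm (CongruenceSubgroup.Gamma0 M) 2)) → PowerSeries ℤ,
      (∀ j, IsCuspExp M (fZ j)) ∧ (∀ j, PowerSeries.constantCoeff (fZ j) = 0) ∧
      LinearIndependent k (fun j => psR k (fZ j)) := by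
  have : Fact ℓ.Prime := ⟨hℓ⟩
  have : Module.Finite ℤ (CuspForm.intLattice M 2) := Module.Finite.iff_fg.mpr (CuspForm.intLattice_fg M 2)
  have : IsAddTorsionFree (CuspForm (CongruenceSubgroup.Gamma0 M) 2) := .of_isTorsionFree ℂ _
  have : Module.Free ℤ (CuspForm.intLattice M 2) := Module.free_of_finite_type_torsion_free'
  let b := Module.Free.chooseBasis ℤ (CuspForm.intLattice M 2)
  have hcard := cuspBasis_card b
  let e : Fin (Module.finrank ℂ (CuspForm (CongruenceSubgroup.Gamma0 M) 2)) ≃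
      Module.Free.ChooseBasisIndex ℤ (CuspForm.intLattice M 2) :=
    (Fintype.equivFinOfCardEq hcard.symm).symm
  refine ⟨fun j => PowerSeries.mk (cuspBasisCoeff M (b (e j))), fun j => ⟨(b (e j) : _), fun n => ?_⟩,
    fun j => ?_, ?_⟩
  · rw [PowerSeries.coeff_mk, ← cuspBasisCoeff_spec]
    rfl
  · rw [← PowerSeries.coeff_zero_eq_constantCoeff_apply, PowerSeries.coeff_mk]
    have h := cuspBasisCoeff_spec M (b (e j)) 0
    rw [S49.M3.qc_zero] at h
    exact_mod_cast h.symm
  · let _ : Algebra (ZMod ℓ) k := ZMod.algebra k ℓ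
    have h1 := cuspBasis_li_extend (ZMod ℓ) k _ (cuspBasis_li_zmod b ℓ)
    have h2 := h1.comp e e.injective
    refine LinearIndependent.of_comp (cuspBasisCoeffMap k) ?_
    convert h2 using 1
    funext j n
    simp only [Function.comp_apply, cuspBasisCoeffMap, LinearMap.coe_mk, AddHom.coe_mk, psR]
    rw [HahnSeries.ofPowerSeries_apply_coeff, PowerSeries.coeff_map, PowerSeries.coeff_mk]
    simp

end Fermat.Agent.GAL.KLC
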