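import Fermat.Agent.GAL.KLC.IsIntOrd
import Fermat.Agent.GAL.FF.ZeroDeg
import Fermat.Agent.GAL.FF.Approx
import Fermat.Agent.S24.FF.Dedekind

/-!
# GAL / KLC / block U : `n ∣ ord_P w` for all places `P` gives the local certificates `LocPow`
(generic function fields of one variable over an algebraically closed field of characteristic 0).
`isInt_iff_forall_ord` (first half of the package) is in `KLC/IsIntOrd.lean`.
-/

set_option autoImplicit false

open AlgebraicCurve Polynomial

noncomputable section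

namespace Fermat.Agent.GAL.KLC

open Fermat.Agent.GAL.KL

/-- `ord` of a finite product of non-zero elements. -/
theorem LocPow_ord_prod {K F : Type*} [Field K] [Field F] [Algebra K F] (v : Place K F)
    {ι : Type*} (s : Finset ι) (a : ι → F) (ha : ∀ i ∈ s, a i ≠ 0) :
    v.ord (∏ i ∈ s, a i) = ∑ i ∈ s, v.ord (a i) := by
  classical
  induction s using Finset.induction_on with
  | empty => simp
  | insert i s hi ih =>
    have h1 : a i ≠ 0 := ha i (Finset.mem_insert_self i s)
    have h2 : ∀ j ∈ s, a j ≠ 0 := fun j hj => ha j (Finset.mem_insert_of_mem hj)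
    rw [Finset.prod_insert hi, Finset.sum_insert hi,
      v.ord_mul h1 (Finset.prod_ne_zero_iff.mpr h2), ih h2]

theorem locPow_of_dvd {K F : Type*} [Field K] [Field F] [Algebra K F] [IsAlgClosed K] [CharZero K]
    [S24.FF.IsFF1 K F] {t : F} (ht : Transcendental K t) {n : ℕ} (hn : 0 < n) {w : F} (hw : w ≠ 0)
    (h : ∀ P : Place K F, (n : ℤ) ∣ P.ord w) (c : K) : LocPow K t n w c := by
  classical
  have hn' : (n : ℤ) ≠ 0 := by exact_mod_cast hn.ne'
  have htc : Transcendental K (t - algebraMap K F c) := S24.FF.transcendental_sub_algebraMap ht c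
  have hSfin : {P : Place K F | 0 < P.ord (t - algebraMap K F c)}.Finite :=
    S24.FF.finite_zeros htc
  obtain ⟨z, hz0, hz⟩ := GAL.FF.exists_ord_eq hSfin.toFinset (fun P => -(P.ord w / n))
  set u : F := z ^ n * w with hu
  have hu0 : u ≠ 0 := mul_ne_zero (pow_ne_zero n hz0) hw
  have hordu : ∀ P : Place K F, P.ord u = n * P.ord z + P.ord w := by
    intro P
    rw [hu, P.ord_mul (pow_ne_zero n hz0) hw, S24.FF.ord_pow]
  have huS : ∀ P : Place K F, 0 < P.ord (t - algebraMap K F c) → P.ord u = 0 := by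
    intro P hP
    rw [hordu, hz P (hSfin.mem_toFinset.mpr hP)]
    obtain ⟨m, hm⟩ := h P
    rw [hm, Int.mul_ediv_cancel_left _ hn']
    ring
  have hTfin : {P : Place K F | P.ord u ≠ 0}.Finite := GAL.FF.finite_support_ord u
  have hne : ∀ c' : K, t - algebraMap K F c' ≠ 0 := by
    intro c' h0
    apply ht
    rw [sub_eq_zero.mp h0]
    exact isAlgebraic_algebraMap c'
  have hcP : ∀ P : Place K F, ∃ c' : K, 0 ≤ P.ord t → 0 < P.ord (t - algebraMap K F c') := by
    intro P
    by_cases hP : 0 ≤ P.ord t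
    · obtain ⟨c', hc'⟩ := S24.FF.exists_ord_sub_pos P hP
      rcases hc' with hc' | hc'
      · exact absurd (sub_eq_zero.mpr hc') (hne c')
      · exact ⟨c', fun _ => hc'⟩
    · exact ⟨0, fun h => absurd h hP⟩
  choose cP hcP using hcP
  let T : Finset (Place K F) := hTfin.toFinset.filter (fun P => 0 ≤ P.ord t)
  have hT : ∀ P : Place K F, P ∈ T ↔ P.ord u ≠ 0 ∧ 0 ≤ P.ord t := by
    intro P
    simp only [T, Finset.mem_filter, Set.Finite.mem_toFinset, Set.mem_ofPred_eq]
  let q : K[X] := ∏ P ∈ T, (X - C (cP P)) ^ (P.ord u).natAbs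
  have hq : aeval t q = ∏ P ∈ T, (t - algebraMap K F (cP P)) ^ (P.ord u).natAbs := by
    simp only [q, map_prod, map_pow, map_sub, aeval_X, aeval_C]
  have hfac : ∀ P ∈ T, (t - algebraMap K F (cP P)) ^ (P.ord u).natAbs ≠ 0 :=
    fun P _ => pow_ne_zero _ (hne _)
  have hqt0 : aeval t q ≠ 0 := by
    rw [hq]
    exact Finset.prod_ne_zero_iff.mpr hfac
  have hordq : ∀ P : Place K F, 0 ≤ P.ord t → ((P.ord u).natAbs : ℤ) ≤ P.ord (aeval t q) := by
    intro P hP
    have hsum : P.ord (aeval t q)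
        = ∑ P' ∈ T, ((P'.ord u).natAbs : ℤ) * P.ord (t - algebraMap K F (cP P')) := by
      rw [hq, LocPow_ord_prod P T _ hfac]
      exact Finset.sum_congr rfl fun P' _ => S24.FF.ord_pow P _ _
    have hmem : t ∈ P.toValuationSubring := S24.FF.mem_toValuationSubring_of_ord_nonneg P hP
    have hnn0 : ∀ c' : K, 0 ≤ P.ord (t - algebraMap K F c') := fun c' =>
      S24.FF.ord_nonneg_of_mem P (sub_mem hmem (P.algebraMap_mem' c'))
    have hnn : ∀ P' ∈ T, 0 ≤ ((P'.ord u).natAbs : ℤ) * P.ord (t - algebraMap K F (cP P')) :=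
      fun P' _ => mul_nonneg (Int.natCast_nonneg _) (hnn0 _)
    rw [hsum]
    by_cases hPT : P ∈ T
    · calc ((P.ord u).natAbs : ℤ) ≤ ((P.ord u).natAbs : ℤ) * P.ord (t - algebraMap K F (cP P)) :=
            le_mul_of_one_le_right (Int.natCast_nonneg _) (hcP P hP)
        _ ≤ _ := Finset.single_le_sum hnn hPT
    · have h0 : P.ord u = 0 := by
        by_contra hne0
        exact hPT ((hT P).mpr ⟨hne0, hP⟩)
      rw [h0]
      exact Finset.sum_nonneg hnn
  refine ⟨z, q, hz0, ?_, ?_, ?_⟩
  · simp only [q, eval_prod, eval_pow, eval_sub, eval_X, eval_C]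
    refine Finset.prod_ne_zero_iff.mpr fun P hP => pow_ne_zero _ (sub_ne_zero.mpr ?_)
    intro hc
    obtain ⟨h1, h2⟩ := (hT P).mp hP
    apply h1
    apply huS
    rw [hc]
    exact hcP P h2
  · rw [isInt_iff_forall_ord ht]
    intro P hP
    rw [P.ord_mul hqt0 hu0]
    have := hordq P hP
    omega
  · rw [isInt_iff_forall_ord ht]
    intro P hP
    rw [P.ord_mul hqt0 (inv_ne_zero hu0), P.ord_inv]
    have := hordq P hP
    omega

end Fermat.Agent.GAL.KLC
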