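import Fermat.Agent.GAL.KLC.XF
import Fermat.Agent.GAL.KLC.ValArch
import Fermat.Agent.GAL.KLC.LocPow
import Fermat.Agent.GAL.KLC.CuspBasis
import Fermat.Agent.GAL.KLB.Count
import Fermat.Agent.GAL.KL.Main
import Fermat.Agent.S24.Mod.Degree
import Fermat.Agent.GAL.ModuleDefs

/-!
# GAL / KLC : the key lemma from its three remaining inputs `spans`, `finrank_LL_ge`, `ct_zero`.
-/

set_option autoImplicit false

open ModularCurve AlgebraicCurve Polynomial

noncomputable section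

namespace Fermat.Agent.GAL.KLC

open Fermat.Agent.GR Fermat.Agent.GAL.KL

/-- contract X3. -/
def SpansStatement (M : ℕ) [NeZero M] : Prop :=
  Spans Qb (xF M) (fun i : Fin (mX M) => xF' M ^ (i : ℕ))

/-- contract RI2 (Riemann's inequality for the divisors `a (x)_∞`). -/
def RIStatement (M : ℕ) [NeZero M] : Prop :=
  ∀ a : ℕ, ((a * mX M + 1 : ℕ) : ℤ) -
    (Module.finrank ℂ (CuspForm (CongruenceSubgroup.Gamma0 M) 2) : ℕ)
      ≤ Module.finrank Qb (LL Qb (xF M) a)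

/-- contract CT = (b2): the constant term of `φ f̄` vanishes. -/
def CTStatement (M : ℕ) [NeZero M] (A : ValuationSubring Qb) : Prop :=
  ∀ (z : LaurentSeries Qb) (_ : z ∈ FL Qb M) (φ : LaurentSeries (kA A)) (_ : HasRed A z φ)
    (_ : IsInt (kA A) (xR (kA A) M) φ) (fZ : PowerSeries ℤ) (_ : IsCuspExp M fZ),
    (φ * psR (kA A) fZ).coeff 0 = 0

/-- both reduced charts are `n`-root closed. -/
theorem rootClosed_of (M ℓ : ℕ) [NeZero M] (hℓ : ℓ.Prime)
    (A : ValuationSubring Qb) (hA : A.LiesOverPrime ℓ)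
    (hSp : SpansStatement M) (hRI : RIStatement M) (hCT : CTStatement M A) (n : ℕ) (hn : 0 < n) :
    RootClosed Qb (vG A M) (xF M) n ∧ RootClosed Qb (vG A M) (xF M)⁻¹ n := by
  have : CharP (kA A) ℓ := charP_residueField hℓ hA
  obtain ⟨fZ, hfc, hf0, hfi⟩ := exists_cusp_basis M ℓ hℓ (kA A)
  exact KLB.rootClosed_of_count (isRed A M) (xF_mem_integer M A) (xF'_mem_integer M A) (mX_pos M)
    (order_rho_xF M A) (order_rho_xF' M A) hSp hRI
    (fun j => psR (kA A) (fZ j)) hfi (fun j => order_psR_pos _ (hf0 j) (hfi.ne_zero j))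
    (fun z hz j => hCT _ (z : FL Qb M).2 _ (hasRed_rho A M z)
      (by rw [rho_xF] at hz; exact hz) _ (hfc j)) n hn

/-- **KEY LEMMA, Gauss form**, from the three contracts. -/
theorem key_lemma_of (M n ℓ : ℕ) [NeZero M] (hℓ : ℓ.Prime)
    (hℓn : ¬ ℓ ∣ n) (A : ValuationSubring Qb) (hA : A.LiesOverPrime ℓ)
    (hSp : SpansStatement M) (hRI : RIStatement M) (hCT : CTStatement M A)
    (W : LaurentSeries Qb) (hW : W ∈ FL Qb M) (hred : HasRed A W 1)
    (hdiv : ∀ P : Place Qb (FL Qb M), (n : ℤ) ∣ P.ord ⟨W, hW⟩) :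
    ∃ y ∈ FL Qb M, y ^ n = W := by
  have hn : 0 < n := Nat.pos_of_ne_zero (by rintro rfl; exact hℓn (dvd_zero _))
  obtain ⟨hr0, hroo⟩ := rootClosed_of M ℓ hℓ A hA hSp hRI hCT n hn
  have hw : vG A M ((⟨W, hW⟩ : FL Qb M) - 1) < 1 := vG_sub_one_lt A M hred
  have hw0 : (⟨W, hW⟩ : FL Qb M) ≠ 0 := by
    intro h
    rw [h, zero_sub, Valuation.map_neg, map_one] at hw
    exact lt_irrefl _ hw
  have htr : Transcendental Qb (xF M) := transcendental_xF M
  have htr' : Transcendental Qb (xF M)⁻¹ := S24.FF.transcendental_inv htr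
  obtain ⟨y, hy⟩ := keyLemma (arch A M hℓ hA) (gauss_xF M A) _ (on_xF M A) hSp hn
    (vG_natCast A M hℓ hA hℓn) hr0 hroo hw (fun c => locPow_of_dvd htr hn hw0 hdiv c)
    (fun c => locPow_of_dvd htr' hn hw0 hdiv c)
  exact ⟨y, y.2, congrArg Subtype.val hy⟩

/-- the official contract `GAL.KeyLemmaStatement` from the three contracts. -/
theorem keyLemmaStatement_of
    (hSp : ∀ (M : ℕ) [NeZero M], SpansStatement M) (hRI : ∀ (M : ℕ) [NeZero M], RIStatement M)
    (hCT : ∀ (M ℓ : ℕ) [NeZero M], AdmLevel M → ℓ.Prime → ¬ ℓ ∣ M →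
      ∀ A : ValuationSubring Qb, A.LiesOverPrime ℓ → CTStatement M A) :
    KeyLemmaStatement := by
  intro M n ℓ hM0 hM hℓ hℓM hℓn A hA W hW _ hred hdiv
  have : NeZero M := ⟨hM0⟩
  exact key_lemma_of M n ℓ hℓ hℓn A hA (hSp M) (hRI M) (hCT M ℓ hM hℓ hℓM A hA) W hW hred hdiv

end Fermat.Agent.GAL.KLC
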