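import Fermat.Agent.GAL.Defs
import Fermat.Agent.GAL.KL.Basic
import Fermat.Agent.GR.GaussRed
import Fermat.Agent.S28.E4

/-!
# GAL / KLC : the concrete side of the key lemma.  Shared definitions (no sorry).

We instantiate `KL.keyLemma` (helper18) with `L = ℚ̄`, `F = FL ℚ̄ M`, `v` = Gauss valuation of
`q`-expansions, `t = x`, `β i = x' ^ i` (`i < m`), where `x = h j^e₀`, `x' = h j^(e₀-1)` and `h` is the
eta quotient of S28: `x = q^{-m}(1+…)`, `x' = q^{-(m-1)}(1+…) ∈ ℤ((q))` have their only pole at `∞`.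
-/

set_option autoImplicit false

open ModularCurve AlgebraicCurve Polynomial

noncomputable section

namespace Fermat.Agent.GAL.KLC

open Fermat.Agent.GAL.KL

/-! ## abstract notions -/

section Abstract

variable (K : Type*) {F k Γ₀ : Type*} [Field K] [Field F] [Algebra K F] [Field k]
  [LinearOrderedCommGroupWithZero Γ₀]

/-- `ρ : O_v → k((q))` is a reduction map: kernel `m_v`, constants go onto constants, and the value group
of `v` is that of the constants. -/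
structure IsRed (v : Valuation F Γ₀) (ρ : v.integer →+* LaurentSeries k) : Prop where
  ker : ∀ z : v.integer, ρ z = 0 ↔ v (z : F) < 1
  const : ∀ (a : K) (ha : algebraMap K F a ∈ v.integer),
    ∃ c : k, ρ ⟨algebraMap K F a, ha⟩ = HahnSeries.C c
  const_surj : ∀ c : k, ∃ (a : K) (ha : algebraMap K F a ∈ v.integer),
    ρ ⟨algebraMap K F a, ha⟩ = HahnSeries.C c
  val : ∀ z : F, z ≠ 0 → ∃ a : K, v z = v (algebraMap K F a)

/-- `𝓛_a = L(a·(t)_∞)`: integral over `K[t]`, and `t^{-a} z` integral over `K[t⁻¹]`. -/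
def LL (t : F) (a : ℕ) : Submodule K F where
  carrier := {z | IsInt K t z ∧ IsInt K t⁻¹ (t⁻¹ ^ a * z)}
  add_mem' := fun h h' => ⟨h.1.add h'.1, by rw [mul_add]; exact h.2.add h'.2⟩
  zero_mem' := ⟨IsInt.zero, by rw [mul_zero]; exact IsInt.zero⟩
  smul_mem' := fun c z h => ⟨by rw [Algebra.smul_def]; exact (IsInt.algebraMap c).mul h.1, by
    rw [Algebra.smul_def, mul_left_comm]; exact (IsInt.algebraMap c).mul h.2⟩

theorem mem_LL {t : F} {a : ℕ} {z : F} :
    z ∈ LL K t a ↔ IsInt K t z ∧ IsInt K t⁻¹ (t⁻¹ ^ a * z) := Iff.rfl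

end Abstract

/-! ## the functions `x`, `x'` -/

/-- `Δ` as a unit of `ℤ((q))`. -/
def DU : (LaurentSeries ℤ)ˣ where
  val := S28.DqC ℤ
  inv := S28.DqInvC ℤ
  val_inv := S28.DqC_mul_DqInvC ℤ
  inv_val := by rw [mul_comm]; exact S28.DqC_mul_DqInvC ℤ

/-- `u_d = Δ(q^d)/Δ(q)` as a unit of `ℤ((q))`. -/
def uU (d : ℕ) : (LaurentSeries ℤ)ˣ := Units.map (S28.qE ℤ d : LaurentSeries ℤ →* LaurentSeries ℤ) DU * DU⁻¹

/-- the eta quotient `h` of S28 (`S28.E4.hh`), as a unit of `ℤ((q))`. -/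
def hU (M : ℕ) : (LaurentSeries ℤ)ˣ :=
  ∏ T ∈ M.primeFactors.powerset, uU (S28.E4.dT M T) ^ S28.E4.expT M T

/-- `e₀ = ∏_{p ∣ M} (p - 1)`. -/
def e0 (M : ℕ) : ℕ := ∏ p ∈ M.primeFactors, (p - 1)

/-- `x = h j^e₀ ∈ ℤ((q))`. -/
def XZ (M : ℕ) : LaurentSeries ℤ := (hU M : LaurentSeries ℤ) * jqModC ℤ ^ e0 M

/-- `x' = h j^(e₀-1) ∈ ℤ((q))`. -/
def XZ' (M : ℕ) : LaurentSeries ℤ := (hU M : LaurentSeries ℤ) * jqModC ℤ ^ (e0 M - 1)

/-- `m = -ord_q x` (`= e₀ ψ(M)`). -/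
def mX (M : ℕ) : ℕ := (-(XZ M).order).toNat

/-- `x` with coefficients in `R`. -/
def xR (R : Type*) [CommRing R] (M : ℕ) : LaurentSeries R := coeffMap (Int.castRingHom R) (XZ M)

/-- `x'` with coefficients in `R`. -/
def xR' (R : Type*) [CommRing R] (M : ℕ) : LaurentSeries R := coeffMap (Int.castRingHom R) (XZ' M)

/-- a power series over `ℤ`, with coefficients in `R`, as a Laurent series. -/
def psR (R : Type*) [CommRing R] (f : PowerSeries ℤ) : LaurentSeries R :=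
  HahnSeries.ofPowerSeries ℤ R (f.map (Int.castRingHom R))

/-- `fZ ∈ ℤ[[q]]` is the `q`-expansion of a cusp form of weight 2 on `Γ₀(M)`. -/
def IsCuspExp (M : ℕ) (fZ : PowerSeries ℤ) : Prop :=
  ∃ f : CuspForm (CongruenceSubgroup.Gamma0 M) 2, ∀ n : ℕ, ModularFormClass.qCoeff f n = (fZ.coeff n : ℂ)

/-- residue field of `A`. -/
abbrev kA (A : ValuationSubring Qb) : Type := IsLocalRing.ResidueField A

end Fermat.Agent.GAL.KLC
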