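import Fermat.Agent.GAL.KLC.Defs
import Fermat.Agent.GAL.FF.Places

/-!
# GAL / KLC : integrality over `K[t]` in terms of places (first half of package KLC-U)
-/

set_option autoImplicit false

open ModularCurve AlgebraicCurve Polynomial

noncomputable section

namespace Fermat.Agent.GAL.KLC

open Fermat.Agent.GR Fermat.Agent.GAL.KL

theorem isInt_iff_forall_ord {K F : Type*} [Field K] [Field F] [Algebra K F] [IsAlgClosed K]
    [CharZero K] [S24.FF.IsFF1 K F] {t : F} (ht : Transcendental K t) (z : F) :
    IsInt K t z ↔ ∀ P : Place K F, 0 ≤ P.ord t → 0 ≤ P.ord z := by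
  constructor
  · rintro ⟨p, hp, hpz⟩ P hP
    have htP : t ∈ P.toValuationSubring := S24.FF.mem_toValuationSubring_of_ord_nonneg P hP
    have hmem : ∀ q : K[X], ((aeval t : K[X] →ₐ[K] F) : K[X] →+* F) q ∈
        P.toValuationSubring.toSubring := fun q =>
      FF.places_aeval_mem P.toValuationSubring P.algebraMap_mem' htP q
    let g : K[X] →+* P.toValuationSubring :=
      ((aeval t : K[X] →ₐ[K] F) : K[X] →+* F).codRestrict P.toValuationSubring.toSubring hmem
    have hint : IsIntegral P.toValuationSubring z := by
      refine ⟨p.map g, hp.map g, ?_⟩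
      rw [eval₂_map]
      exact hpz
    obtain ⟨y, hy⟩ := (IsIntegrallyClosed.isIntegral_iff (R := P.toValuationSubring) (K := F)).1 hint
    apply S24.FF.ord_nonneg_of_mem
    rw [← hy]
    exact y.2
  · intro h
    let _ : Algebra K[X] F := ((aeval t : K[X] →ₐ[K] F) : K[X] →+* F).toAlgebra
    by_contra hz
    have hz' : z ∉ (integralClosure K[X] F).toSubring := hz
    have : IsIntegrallyClosedIn (integralClosure K[X] F).toSubring F :=
      inferInstanceAs (IsIntegrallyClosedIn (integralClosure K[X] F) F)
    obtain ⟨V, hV, hzV⟩ := Subring.exists_le_valuationSubring_of_isIntegrallyClosedIn hz'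
    have hq : ∀ q : K[X], aeval t q ∈ V := fun q =>
      hV ((integralClosure K[X] F).algebraMap_mem q)
    have hK : ∀ a : K, algebraMap K F a ∈ V := fun a => by
      have := hq (C a)
      rwa [aeval_C] at this
    have htV : t ∈ V := by
      have := hq X
      rwa [aeval_X] at this
    have htop : V ≠ ⊤ := by
      rintro rfl
      exact hzV (ValuationSubring.mem_top _)
    obtain ⟨P, hPV⟩ := FF.exists_place_of_valuationSubring V hK htop
    apply hzV
    rw [← hPV]
    apply S24.FF.mem_toValuationSubring_of_ord_nonneg
    apply h P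
    apply S24.FF.ord_nonneg_of_mem
    rw [hPV]
    exact htV

end Fermat.Agent.GAL.KLC
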