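import Fermat.Agent.GAL.KLC.Defs

/-!
# GAL / KLC : block V.  The Gauss valuation of `FL ℚ̄ M` and its reduction map (definitions, no sorry)
-/

set_option autoImplicit false

open ModularCurve AlgebraicCurve Polynomial

noncomputable section

namespace Fermat.Agent.GAL.KLC

open Fermat.Agent.GR Fermat.Agent.GAL.KL

variable (A : ValuationSubring Qb) (M : ℕ)

theorem hasRed_zero : HasRed A 0 0 := by
  have := HasRed.of_int (A := A) 0
  rwa [map_zero, map_zero] at this

variable {A} in
theorem hasRed_neg {x : LaurentSeries Qb} {z : LaurentSeries (kA A)} (h : HasRed A x z) :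
    HasRed A (-x) (-z) := by
  have h1 := HasRed.of_int (A := A) (-1)
  rw [map_neg, map_neg, map_one, map_one] at h1
  have := h1.mul h
  rwa [neg_one_mul, neg_one_mul] at this

/-- constants of `A`. -/
theorem hasRed_C (c : A) :
    HasRed A (HahnSeries.C (c : Qb)) (HahnSeries.C (IsLocalRing.residue A c)) := by
  have := HasRed.of_int (A := A) (HahnSeries.C c)
  have e1 : coeffMap A.subtype (HahnSeries.C c) = HahnSeries.C (c : Qb) := by
    ext n
    simp only [coeffMap_coeff, HahnSeries.C_apply, HahnSeries.coeff_single]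
    split_ifs <;> simp
  have e2 : coeffMap (IsLocalRing.residue A) (HahnSeries.C c)
      = HahnSeries.C (IsLocalRing.residue A c) := by
    ext n
    simp only [coeffMap_coeff, HahnSeries.C_apply, HahnSeries.coeff_single]
    split_ifs <;> simp
  rwa [e1, e2] at this

/-- the valuation ring of the Gauss valuation on `FL ℚ̄ M`. -/
def Ov : ValuationSubring (FL Qb M) where
  carrier := {z | ∃ zb, HasRed A (z : LaurentSeries Qb) zb}
  mul_mem' := by
    rintro a b ⟨x, hx⟩ ⟨y, hy⟩
    exact ⟨x * y, hx.mul hy⟩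
  one_mem' := ⟨1, HasRed.one⟩
  add_mem' := by
    rintro a b ⟨x, hx⟩ ⟨y, hy⟩
    exact ⟨x + y, hx.add hy⟩
  zero_mem' := ⟨0, hasRed_zero A⟩
  neg_mem' := by
    rintro a ⟨x, hx⟩
    exact ⟨-x, hasRed_neg hx⟩
  mem_or_inv_mem' := by
    intro z
    by_cases hz : z = 0
    · left
      subst hz
      exact ⟨0, hasRed_zero A⟩
    have hz' : (z : LaurentSeries Qb) ≠ 0 := fun h => hz (Subtype.ext h)
    obtain ⟨c, hc, zb, hzb, h⟩ := exists_hasRed_C_mul_of_mem_FL A M z.2 hz'
    have hC : (HahnSeries.C c : LaurentSeries Qb) ≠ 0 := by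
      rw [Ne, map_eq_zero_iff _ HahnSeries.C_injective]; exact hc
    rcases A.mem_or_inv_mem c with hcA | hcA
    · right
      refine ⟨HahnSeries.C (IsLocalRing.residue A ⟨c, hcA⟩) * zb⁻¹, ?_⟩
      have := (hasRed_C A ⟨c, hcA⟩).mul (h.inv hzb)
      have e : ((z⁻¹ : FL Qb M) : LaurentSeries Qb)
          = HahnSeries.C c * (HahnSeries.C c * (z : LaurentSeries Qb))⁻¹ := by
        rw [mul_inv, ← mul_assoc, mul_inv_cancel₀ hC, one_mul]; rfl
      rw [e]; exact this
    · left
      refine ⟨HahnSeries.C (IsLocalRing.residue A ⟨c⁻¹, hcA⟩) * zb, ?_⟩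
      have := (hasRed_C A ⟨c⁻¹, hcA⟩).mul h
      have e : (z : LaurentSeries Qb)
          = HahnSeries.C (c⁻¹) * (HahnSeries.C c * (z : LaurentSeries Qb)) := by
        rw [← mul_assoc, ← map_mul, inv_mul_cancel₀ hc, map_one, one_mul]
      rw [e]; exact this

theorem mem_Ov {z : FL Qb M} : z ∈ Ov A M ↔ ∃ zb, HasRed A (z : LaurentSeries Qb) zb := Iff.rfl

/-- the Gauss valuation on `FL ℚ̄ M`. -/
def vG : Valuation (FL Qb M) (Ov A M).ValueGroup := (Ov A M).valuation

theorem mem_integer_iff {z : FL Qb M} :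
    z ∈ (vG A M).integer ↔ ∃ zb, HasRed A (z : LaurentSeries Qb) zb := by
  rw [Valuation.mem_integer_iff]
  exact (Ov A M).valuation_le_one_iff z

/-- the reduction of an element of `O_v`. -/
def rhoFun (z : (vG A M).integer) : LaurentSeries (kA A) := ((mem_integer_iff A M).mp z.2).choose

theorem hasRed_rhoFun (z : (vG A M).integer) :
    HasRed A (((z : FL Qb M)) : LaurentSeries Qb) (rhoFun A M z) :=
  ((mem_integer_iff A M).mp z.2).choose_spec

/-- the reduction map `O_v → k((q))`. -/
def rho : (vG A M).integer →+* LaurentSeries (kA A) where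
  toFun := rhoFun A M
  map_one' := (hasRed_rhoFun A M 1).unique HasRed.one
  map_mul' a b := (hasRed_rhoFun A M (a * b)).unique ((hasRed_rhoFun A M a).mul (hasRed_rhoFun A M b))
  map_zero' := (hasRed_rhoFun A M 0).unique (hasRed_zero A)
  map_add' a b := (hasRed_rhoFun A M (a + b)).unique ((hasRed_rhoFun A M a).add (hasRed_rhoFun A M b))

theorem hasRed_rho (z : (vG A M).integer) :
    HasRed A (((z : FL Qb M)) : LaurentSeries Qb) (rho A M z) := hasRed_rhoFun A M z

theorem rho_eq_of_hasRed {z : (vG A M).integer} {zb : LaurentSeries (kA A)}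
    (h : HasRed A (((z : FL Qb M)) : LaurentSeries Qb) zb) : rho A M z = zb :=
  (hasRed_rho A M z).unique h

end Fermat.Agent.GAL.KLC
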