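import Fermat.Agent.GAL.KLC.SpansRelQ

/-!
# GAL / KLC-X3e : `ℚ(j(q^d) : d ∣ M) = ℚ(j, x)`
-/

set_option autoImplicit false

open ModularCurve Polynomial

noncomputable section

namespace Fermat.Agent.GAL.KLC

open Fermat.Agent.S28

/-- integrality over `ℤ_(ℓ)[j]` implies integrality over any field containing `j`. -/
theorem spansPrim_isIntegral (N ℓ : ℕ) [Fact ℓ.Prime] (E : IntermediateField ℚ LQ) (hj : jq ∈ E)
    {y : Fp N} (hy : (iT N ℓ (jF N)).IsIntegralElem y) : IsIntegral E (y : LQ) := by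
  let ψ : Polynomial (Zl ℓ) →+* E :=
    Polynomial.eval₂RingHom ((algebraMap ℚ E).comp (GaloisRep.ratLocalizedAt ℓ).subtype) ⟨jq, hj⟩
  have hcomp : (algebraMap E LQ).comp ψ = (algebraMap (Fp N) LQ).comp (iT N ℓ (jF N)) := by
    apply Polynomial.ringHom_ext
    · intro a
      simp only [ψ, iT, RingHom.comp_apply, Polynomial.coe_eval₂RingHom, Polynomial.eval₂_C,
        eq_ratCast, map_ratCast]
    · simp only [ψ, iT, RingHom.comp_apply, Polynomial.coe_eval₂RingHom, Polynomial.eval₂_X,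
        IntermediateField.algebraMap_apply, jF]
  exact xMem_isIntegralElem_of_square _ (algebraMap (Fp N) LQ) ψ (algebraMap E LQ) hcomp hy

theorem full_le_adjoin (M : ℕ) [NeZero M] :
    modularFunctionFieldFull M ≤
      IntermediateField.adjoin ℚ {jq, coeffMap (Int.castRingHom ℚ) (XZ M)} := by
  classical
  have hN : M ≠ 0 := NeZero.ne M
  obtain ⟨ℓ, hℓ1, hℓ2⟩ := Nat.exists_infinite_primes (M + 1)
  have : Fact ℓ.Prime := ⟨hℓ2⟩
  have hℓN : ¬ ℓ ∣ M := fun h => by
    have := Nat.le_of_dvd (Nat.pos_of_ne_zero hN) h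
    omega
  set F1 : IntermediateField ℚ LQ :=
    IntermediateField.adjoin ℚ {jq, coeffMap (Int.castRingHom ℚ) (XZ M)} with hF1
  have hjF1 : jq ∈ F1 := IntermediateField.subset_adjoin ℚ _ (by simp)
  have hxF1 : ((x0F M : Fp M) : LQ) ∈ F1 := by
    rw [coe_x0F M hN]
    exact IntermediateField.subset_adjoin ℚ _ (by simp)
  let _ : Algebra F1 (Omb ℓ) := ((iotaB ℓ).comp (algebraMap F1 LQ)).toAlgebra
  have halgO : ∀ z : F1, algebraMap F1 (Omb ℓ) z = iotaB ℓ (z : LQ) := fun z => rfl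
  let S : Set LQ := ((fun e => jd e) '' (M.divisors : Set ℕ)) ∪ ((fun e => ud e) '' (M.divisors : Set ℕ))
  have hSfin : S.Finite := ((Finset.finite_toSet _).image _).union ((Finset.finite_toSet _).image _)
  have hSint : ∀ x ∈ S, IsIntegral F1 x := by
    rintro x (⟨e, he, rfl⟩ | ⟨e, he, rfl⟩)
    · have he' := Nat.dvd_of_mem_divisors he
      have := spansPrim_isIntegral M ℓ F1 hjF1 (gens_integral M ℓ hN hℓN e he').1
      rwa [D_coe_jdF M he'] at this
    · have he' := Nat.dvd_of_mem_divisors he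
      have := spansPrim_isIntegral M ℓ F1 hjF1 (gens_integral M ℓ hN hℓN e he').2.1
      rwa [D_coe_udF M he'] at this
  have hjdS : ∀ e, e ∣ M → jd e ∈ S := fun e he => Or.inl ⟨e, Nat.mem_divisors.mpr ⟨he, hN⟩, rfl⟩
  have hudS : ∀ e, e ∣ M → ud e ∈ S := fun e he => Or.inr ⟨e, Nat.mem_divisors.mpr ⟨he, hN⟩, rfl⟩
  suffices huniq : ∀ φ₁ φ₂ : IntermediateField.adjoin F1 S →ₐ[F1] Omb ℓ, ∀ (x : LQ) (hx : x ∈ S),
      φ₁ ⟨x, IntermediateField.subset_adjoin _ S hx⟩ =
        φ₂ ⟨x, IntermediateField.subset_adjoin _ S hx⟩ by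
    have hmem := xMem_mem_range_of_unique (F := F1) (Ω := Omb ℓ) S hSfin hSint huniq
    unfold modularFunctionFieldFull
    rw [IntermediateField.adjoin_le_iff]
    rintro x ⟨d, hd0, hd, rfl⟩
    obtain ⟨z, hz⟩ := hmem (jd d) (hjdS d hd)
    have h1 : qExpand ℚ d jq = jd d := by
      unfold jd
      rw [qE_eq]
    rw [h1, ← hz]
    exact z.2
  set E := IntermediateField.adjoin F1 S with hE
  have hFE : ∀ x : LQ, x ∈ F1 → x ∈ E := fun x hx => E.algebraMap_mem ⟨x, hx⟩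
  have hle : ∀ x : LQ, x ∈ Fp M → x ∈ E := by
    intro x hx
    unfold Fp at hx
    induction hx using IntermediateField.adjoin_induction with
    | mem x hx =>
      rcases hx with ⟨e, he, rfl⟩ | ⟨e, he, rfl⟩
      · exact IntermediateField.subset_adjoin _ S (hjdS e he)
      · exact IntermediateField.subset_adjoin _ S (hudS e he)
    | algebraMap r => exact hFE _ (F1.algebraMap_mem r)
    | add x y _ _ hx hy => exact add_mem hx hy
    | inv x _ hx => exact inv_mem hx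
    | mul x y _ _ hx hy => exact mul_mem hx hy
  let ι : Fp M →+* E :=
    { toFun := fun x => ⟨x.1, hle x.1 x.2⟩
      map_one' := rfl
      map_mul' := fun _ _ => rfl
      map_zero' := rfl
      map_add' := fun _ _ => rfl }
  have hkey : ∀ φ : E →ₐ[F1] Omb ℓ, (φ : E →+* Omb ℓ).comp ι = sigma0 M ℓ := by
    intro φ
    set σ : Fp M →+* Omb ℓ := (φ : E →+* Omb ℓ).comp ι with hσ
    have hσF : ∀ (x : Fp M) (hx : (x : LQ) ∈ F1), σ x = iotaB ℓ (x : LQ) := by
      intro x hx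
      have h1 : ι x = algebraMap F1 E ⟨x, hx⟩ := rfl
      rw [hσ, RingHom.comp_apply, h1]
      exact (φ.commutes _).trans (halgO _)
    exact eq_sigma0_of_x0F M ℓ hN hℓN σ (hσF _ hjF1) (hσF _ hxF1)
  rintro φ₁ φ₂ x (⟨e, he, rfl⟩ | ⟨e, he, rfl⟩)
  · have he' := Nat.dvd_of_mem_divisors he
    exact congrArg (fun f : Fp M →+* Omb ℓ => f ⟨jd e, jd_mem M e he'⟩)
      ((hkey φ₁).trans (hkey φ₂).symm)
  · have he' := Nat.dvd_of_mem_divisors he
    exact congrArg (fun f : Fp M →+* Omb ℓ => f ⟨ud e, ud_mem M e he'⟩)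
      ((hkey φ₁).trans (hkey φ₂).symm)

end Fermat.Agent.GAL.KLC
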