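import Fermat.Agent.GAL.KLC.Spans
import Fermat.Agent.GAL.KLC.LLeqL
import Fermat.Agent.GAL.KLC.MainOf
import Fermat.Agent.GAL.Genus.Main

/-!
# GAL / KLC-RI2 : Riemann's inequality for `LL ℚ̄ x a = L(a (x)_∞)` with `g = dim S₂(Γ₀(M))`
-/

set_option autoImplicit false

open ModularCurve AlgebraicCurve Polynomial

noncomputable section

namespace Fermat.Agent.GAL.KLC

open Fermat.Agent.GR Fermat.Agent.GAL.KL

theorem finrank_LL_ge (M : ℕ) [NeZero M] (a : ℕ) :
    ((a * mX M + 1 : ℕ) : ℤ) -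
      (Module.finrank ℂ (CuspForm (CongruenceSubgroup.Gamma0 M) 2) : ℕ)
        ≤ Module.finrank Qb (LL Qb (xF M) a) := by
  have h1 := Genus.riemann_ineq_FN M (a • FF.poleDiv Qb (xF M))
  have h2 : Module.finrank (IntermediateField.adjoin Qb {xF M}) (FL Qb M) = mX M :=
    finrank_adjoin_of_spans_of_transcendental _ (transcendental_xF M) (spans M) (comb_xF_inj M)
  rw [map_nsmul, FF.degree_poleDiv (transcendental_xF M), h2] at h1
  rw [LL_eq_L (transcendental_xF M) a]
  have h3 : (FF.ell (a • FF.poleDiv Qb (xF M)) : ℤ)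
      = (Module.finrank Qb (riemannRochSpace (a • FF.poleDiv Qb (xF M))) : ℤ) := rfl
  rw [← h3]
  push_cast
  rw [nsmul_eq_mul] at h1
  linarith

theorem riStatement (M : ℕ) [NeZero M] : RIStatement M := finrank_LL_ge M

theorem spansStatement (M : ℕ) [NeZero M] : SpansStatement M := spans M

end Fermat.Agent.GAL.KLC
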