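import Fermat.Agent.GAL.KLC.MainOf
import Fermat.Agent.GAL.KLC.RI
import Fermat.Agent.GAL.CTV.OfTData
import Fermat.Agent.GAL.CTV.ExistsTDataCore
import Fermat.Agent.GAL.CTV.Haupt
import Fermat.Agent.GAL.CTV.Small
import Fermat.Agent.GAL.CTV.Z.Main
import Fermat.Agent.GAL.CT.Q.ThetaJ

/-!
# GAL / KLC : the key lemma from the two analytic facts of block Z
(`z₀ = f E₄ E₆ / Δ ∈ FL ℚ̄ M` and `Z3Facts`: `g = f⁶/Δ` lies in `FL ℚ̄ M`, is integral over `ℚ̄[j]`, and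
`g^M / j^(M-1)` is integral over `ℚ̄[1/j]`).
-/

set_option autoImplicit false

open ModularCurve AlgebraicCurve Polynomial

noncomputable section

namespace Fermat.Agent.GAL.KLC

open Fermat.Agent.GR Fermat.Agent.GAL.KL

/-- the two analytic inputs of the constant term lemma. -/
def ZStatement (M : ℕ) : Prop :=
  ∀ fZ : PowerSeries ℤ, IsCuspExp M fZ → CTV.cZ Qb (CTV.z0Z fZ) ∈ FL Qb M ∧ CTV.Z3Facts M fZ

theorem exists_tdata_of (M ℓ : ℕ) [NeZero M] [Fact ℓ.Prime] (hM : AdmLevel M) (hℓM : ¬ ℓ ∣ M)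
    (A : ValuationSubring Qb) (hA : A.LiesOverPrime ℓ) (hZ : ZStatement M)
    (fZ : PowerSeries ℤ) (hf : IsCuspExp M fZ) :
    ∃ t, CTV.IsTData (CTV.Fbar (isRed A M)) (psR (kA A) fZ) t := by
  have hℓ : ℓ.Prime := Fact.out
  have : CharP (kA A) ℓ := charP_residueField hℓ hA
  obtain ⟨hz0, hZ3⟩ := hZ fZ hf
  exact CTV.exists_tdata_core M ℓ hM hℓM A hA fZ CT.jZ_mul_DZ CT.jZ_sub_mul_DZ CT.theta_jZ
    CTV.haupt2 CTV.haupt3 hz0 (CTV.isInt_g_of M ℓ hℓM (kA A) fZ hZ3)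
    ⟨M, Nat.pos_of_ne_zero (NeZero.ne M), CTV.isInt_g_inf_of M ℓ hℓM (kA A) fZ hZ3⟩

/-- **(b2)**, the constant term lemma, from block Z. -/
theorem ctStatement_of (M ℓ : ℕ) [NeZero M] (hM : AdmLevel M) (hℓ : ℓ.Prime) (hℓM : ¬ ℓ ∣ M)
    (A : ValuationSubring Qb) (hA : A.LiesOverPrime ℓ) (hZ : ZStatement M) : CTStatement M A := by
  intro z hz φ hred hint fZ hf
  have : Fact ℓ.Prime := ⟨hℓ⟩
  have := CTV.perfectField_kA hℓ A hA
  obtain ⟨t, hT⟩ := exists_tdata_of M ℓ hM hℓM A hA hZ fZ hf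
  have hzi : (⟨z, hz⟩ : FL Qb M) ∈ (vG A M).integer := (mem_integer_iff A M).mpr ⟨φ, hred⟩
  have hρz : rho A M ⟨⟨z, hz⟩, hzi⟩ = φ := rho_eq_of_hasRed A M hred
  have := CTV.ct_of_tdata (isRed A M) (xF_mem_integer M A) (xF'_mem_integer M A) (mX_pos M)
    (order_rho_xF M A) (order_rho_xF' M A) (spans M) hT ⟨⟨z, hz⟩, hzi⟩
    (by rw [rho_xF, hρz]; exact hint)
  rwa [hρz] at this

/-- the key lemma from block Z. -/
theorem keyLemma_of_Z (hZ : ∀ (M : ℕ) [NeZero M], ZStatement M) : KeyLemmaStatement :=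
  keyLemmaStatement_of (fun M _ => spansStatement M) (fun M _ => riStatement M)
    (fun M ℓ _ hM hℓ hℓM A hA => ctStatement_of M ℓ hM hℓ hℓM A hA (hZ M))

end Fermat.Agent.GAL.KLC
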