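import Fermat.Agent.GAL.KLC.Defs

/-!
# GAL / KLC : two small facts on orders of reduced integer series
-/

set_option autoImplicit false

open ModularCurve AlgebraicCurve Polynomial

noncomputable section

namespace Fermat.Agent.GAL.KLC

open Fermat.Agent.GR Fermat.Agent.GAL.KL

theorem order_of_eq {R : Type*} [CommRing R] [Nontrivial R] (y : LaurentSeries ℤ) (e : ℤ)
    (h : ∃ u : PowerSeries ℤ, PowerSeries.constantCoeff u = 1 ∧
      y = HahnSeries.single e 1 * HahnSeries.ofPowerSeries ℤ ℤ u) :
    (coeffMap (Int.castRingHom R) y).order = e := by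
  obtain ⟨u, hu, rfl⟩ := h
  rw [map_mul, coeffMap_single, ModularCurve.coeffMap_ofPowerSeries, map_one]
  have hc : ∀ k : ℤ, (HahnSeries.single e (1 : R) *
      HahnSeries.ofPowerSeries ℤ R (u.map (Int.castRingHom R))).coeff k =
      (HahnSeries.ofPowerSeries ℤ R (u.map (Int.castRingHom R))).coeff (k - e) := by
    intro k
    rw [HahnSeries.coeff_single_mul, one_mul]
  have he : (HahnSeries.single e (1 : R) *
      HahnSeries.ofPowerSeries ℤ R (u.map (Int.castRingHom R))).coeff e ≠ 0 := by
    rw [hc, sub_self]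
    have h0 := HahnSeries.ofPowerSeries_apply_coeff (Γ := ℤ) (u.map (Int.castRingHom R)) 0
    rw [Nat.cast_zero] at h0
    rw [h0, PowerSeries.coeff_map, PowerSeries.coeff_zero_eq_constantCoeff_apply, hu, map_one]
    exact one_ne_zero
  have hne : HahnSeries.single e (1 : R) *
      HahnSeries.ofPowerSeries ℤ R (u.map (Int.castRingHom R)) ≠ 0 := by
    intro h0
    rw [h0] at he
    exact he rfl
  apply le_antisymm (HahnSeries.order_le_of_coeff_ne_zero he)
  rw [HahnSeries.le_order_iff_forall hne]
  intro j hj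
  rw [hc]
  exact ofPowerSeries_coeff_of_neg _ (by omega)

theorem order_psR_pos {k : Type*} [Field k] (f : PowerSeries ℤ)
    (h0 : PowerSeries.constantCoeff f = 0) (hne : psR k f ≠ 0) : 0 < (psR k f).order := by
  have h1 : (1 : ℤ) ≤ (psR k f).order := by
    rw [HahnSeries.le_order_iff_forall hne]
    intro j hj
    rcases lt_or_eq_of_le (show j ≤ 0 by omega) with hj | rfl
    · exact ofPowerSeries_coeff_of_neg _ hj
    · have h := HahnSeries.ofPowerSeries_apply_coeff (Γ := ℤ) (f.map (Int.castRingHom k)) 0
      rw [Nat.cast_zero] at h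
      rw [psR, h, PowerSeries.coeff_map, PowerSeries.coeff_zero_eq_constantCoeff_apply, h0,
        map_zero]
  omega

end Fermat.Agent.GAL.KLC
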