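import Fermat.Agent.GAL.KLC.LLeqL

/-!
# GAL / KLC-X3a2 : `F = K(x, j)` + a relation monic in `x`, of degree `≤ m` in `j`
  `⟹ [F : K(x)] ≤ m`
-/

set_option autoImplicit false

open Polynomial IntermediateField

noncomputable section

namespace Fermat.Agent.GAL.KLC

open Fermat.Agent.GAL.KL

/-- `F = K(x, j)` and a relation `∑_k c_k(j) x^k = 0`, monic in `x`, of degree `≤ m` in `j`. -/
theorem finrank_le_of_relation {K F : Type*} [Field K] [Field F] [Algebra K F] (x j : F)
    (hx : Transcendental K x) (htop : IntermediateField.adjoin K {x, j} = ⊤) (m D : ℕ)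
    (c : ℕ → K[X]) (hdeg : ∀ k, (c k).natDegree ≤ m) (hmonic : c D = 1)
    (hrel : ∑ k ∈ Finset.range (D + 1), aeval j (c k) * x ^ k = 0) :
    FiniteDimensional K⟮x⟯ F ∧ Module.finrank K⟮x⟯ F ≤ m := by
  classical
  set xx : K⟮x⟯ := AdjoinSimple.gen K x with hxx
  have hxx' : algebraMap K⟮x⟯ F xx = x := AdjoinSimple.algebraMap_gen K x
  -- the relation as a polynomial in `j` over `K(x)`
  set R : K⟮x⟯[X] := ∑ k ∈ Finset.range (D + 1), (c k).map (algebraMap K K⟮x⟯) * C (xx ^ k) with hR
  have hRdeg : R.natDegree ≤ m := by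
    apply natDegree_sum_le_of_forall_le
    intro k _
    exact (natDegree_mul_C_le _ _).trans (natDegree_map_le.trans (hdeg k))
  have hRj : aeval j R = 0 := by
    rw [hR, map_sum, ← hrel]
    refine Finset.sum_congr rfl fun k _ => ?_
    rw [map_mul, aeval_map_algebraMap, aeval_C, map_pow, hxx']
  have hR0 : R ≠ 0 := by
    intro h0
    have h1 : R.coeff 0 = 0 := by rw [h0, coeff_zero]
    rw [hR, finsetSum_coeff] at h1
    simp only [coeff_mul_C, coeff_map] at h1
    have h2 := congrArg (algebraMap K⟮x⟯ F) h1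
    rw [map_sum, map_zero] at h2
    simp only [map_mul, map_pow, hxx', ← IsScalarTower.algebraMap_apply] at h2
    set p0 : K[X] := ∑ k ∈ Finset.range (D + 1), C ((c k).coeff 0) * X ^ k with hp0
    have h3 : aeval x p0 = 0 := by
      rw [hp0, map_sum, ← h2]
      refine Finset.sum_congr rfl fun k _ => ?_
      rw [map_mul, aeval_C, map_pow, aeval_X]
    have h4 : p0 = 0 := (transcendental_iff.1 hx) p0 h3
    have h5 : p0.coeff D = 1 := by
      rw [hp0, finsetSum_coeff]
      simp only [coeff_C_mul, coeff_X_pow]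
      rw [Finset.sum_eq_single D]
      · simp [hmonic]
      · intro k _ hk
        rw [if_neg (Ne.symm hk), mul_zero]
      · intro hD
        exact absurd (Finset.mem_range.2 (Nat.lt_succ_self D)) hD
    rw [h4, coeff_zero] at h5
    exact zero_ne_one h5
  have halg : IsAlgebraic K⟮x⟯ j := ⟨R, hR0, hRj⟩
  have hint : IsIntegral K⟮x⟯ j := halg.isIntegral
  have hmin : (minpoly K⟮x⟯ j).natDegree ≤ m :=
    (natDegree_le_of_dvd (minpoly.dvd K⟮x⟯ j hRj) hR0).trans hRdeg
  have htop' : (K⟮x⟯⟮j⟯ : IntermediateField K⟮x⟯ F) = ⊤ := by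
    rw [← restrictScalars_eq_top_iff (K := K), adjoin_simple_adjoin_simple]
    exact htop
  have hfd : FiniteDimensional K⟮x⟯ (K⟮x⟯⟮j⟯ : IntermediateField K⟮x⟯ F) :=
    adjoin.finiteDimensional hint
  have hfr : Module.finrank K⟮x⟯ (K⟮x⟯⟮j⟯ : IntermediateField K⟮x⟯ F)
      = (minpoly K⟮x⟯ j).natDegree := adjoin.finrank hint
  rw [htop'] at hfd hfr
  constructor
  · exact LinearEquiv.finiteDimensional (topEquiv (F := K⟮x⟯) (E := F)).toLinearEquiv
  · rw [← finrank_top', hfr]
    exact hmin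

end Fermat.Agent.GAL.KLC
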