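import Fermat.Agent.GAL.KLC.XF
import Fermat.Agent.GAL.KLC.SpansDim
import Fermat.Agent.GAL.KLC.SpansRel
import Fermat.Agent.GAL.KLC.SpansPrim

/-!
# GAL / KLC-X3 : `[F : ℚ̄(x)] ≤ m`, i.e. the powers `x'^i`, `i < m`, span `F = FL ℚ̄ M` over `ℚ̄(x)`
-/

set_option autoImplicit false

open ModularCurve AlgebraicCurve Polynomial

noncomputable section

namespace Fermat.Agent.GAL.KLC

open Fermat.Agent.GR Fermat.Agent.GAL.KL

variable (M : ℕ) [NeZero M]

/-- `j` as an element of `FL ℚ̄ M`. -/
def jFb : FL Qb M := ⟨coeffEmb Qb jq, coeffEmb_mem_laurentBaseChange Qb (xMem_jq_mem_full M)⟩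

theorem coe_xF : ((xF M : FL Qb M) : LaurentSeries Qb)
    = coeffEmb Qb (coeffMap (Int.castRingHom ℚ) (XZ M)) := by
  show xR Qb M = _
  unfold xR
  rw [xMem_coeffMap_int]

theorem spans_coeffEmb_aeval (p : ℚ[X]) (y : LaurentSeries ℚ) :
    coeffEmb Qb (aeval y p) = aeval (coeffEmb Qb y) (p.map (algebraMap ℚ Qb)) := by
  rw [aeval_def, hom_eval₂, aeval_def, eval₂_map]
  congr 1
  exact RingHom.ext_rat _ _

theorem adjoin_xF_jFb : IntermediateField.adjoin Qb {xF M, jFb M} = ⊤ := by
  set E' := IntermediateField.adjoin Qb {xF M, jFb M} with hE'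
  set E'' : IntermediateField Qb (LaurentSeries Qb) := E'.map (FL Qb M).val with hE''
  have hx : coeffEmb Qb (coeffMap (Int.castRingHom ℚ) (XZ M)) ∈ E'' := by
    rw [← coe_xF]
    exact ⟨xF M, IntermediateField.subset_adjoin Qb _ (by simp), rfl⟩
  have hj : coeffEmb Qb jq ∈ E'' :=
    ⟨jFb M, IntermediateField.subset_adjoin Qb _ (by simp), rfl⟩
  have key : ∀ y ∈ IntermediateField.adjoin ℚ
      ({jq, coeffMap (Int.castRingHom ℚ) (XZ M)} : Set (LaurentSeries ℚ)),
      coeffEmb Qb y ∈ E'' := by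
    intro y hy'
    induction hy' using IntermediateField.adjoin_induction with
    | mem y hy =>
      rcases hy with rfl | rfl
      · exact hj
      · exact hx
    | algebraMap r =>
      have : coeffEmb Qb (algebraMap ℚ (LaurentSeries ℚ) r)
          = algebraMap Qb (LaurentSeries Qb) (algebraMap ℚ Qb r) := by
        have := RingHom.ext_rat ((coeffEmb Qb).comp (algebraMap ℚ (LaurentSeries ℚ)))
          ((algebraMap Qb (LaurentSeries Qb)).comp (algebraMap ℚ Qb))
        exact RingHom.congr_fun this r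
      rw [this]
      exact E''.algebraMap_mem _
    | add x y _ _ hx hy =>
      rw [map_add]; exact add_mem hx hy
    | inv x _ hx =>
      rw [map_inv₀]; exact inv_mem hx
    | mul x y _ _ hx hy =>
      rw [map_mul]; exact mul_mem hx hy
  have hle : FL Qb M ≤ E'' := by
    show laurentBaseChange Qb (modularFunctionFieldFull M) ≤ E''
    unfold laurentBaseChange
    rw [IntermediateField.adjoin_le_iff]
    rintro _ ⟨y, hy, rfl⟩
    exact key y (full_le_adjoin M hy)
  rw [eq_top_iff]
  intro y _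
  obtain ⟨z, hz, hzy⟩ := hle y.2
  have : z = y := Subtype.ext hzy
  rwa [← this]

/-- `[F : ℚ̄(x)] ≤ m`: the only pole of `x` is `∞`. -/
theorem spans : Spans Qb (xF M) (fun i : Fin (mX M) => xF' M ^ (i : ℕ)) := by
  obtain ⟨D, c, hD, hdeg, hrel⟩ := exists_relation M
  obtain ⟨hfin, hle⟩ := finrank_le_of_relation (xF M) (jFb M) (transcendental_xF M)
    (adjoin_xF_jFb M) (mX M) D (fun k => (c k).map (algebraMap ℚ Qb))
    (fun k => natDegree_map_le.trans (hdeg k)) (by simp only [hD, Polynomial.map_one]) (by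
      apply Subtype.ext
      have h1 := congrArg (coeffEmb Qb) hrel
      rw [map_zero, map_sum] at h1
      rw [ZeroMemClass.coe_zero, ← h1]
      push_cast
      refine Finset.sum_congr rfl fun k _ => ?_
      rw [map_mul, map_pow, spans_coeffEmb_aeval, ← coe_xF]
      congr 1
      exact (Polynomial.aeval_algebraMap_apply (LaurentSeries Qb) (jFb M) _).symm)
  exact spans_of_finrank_le _ (transcendental_xF M) (comb_xF_inj M) hfin hle

end Fermat.Agent.GAL.KLC
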