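import Fermat.Agent.GAL.KLC.XMem

/-!
# GAL / KLC-X3b : characteristic zero orders of the conjugates of `x = h j^e₀`
-/

set_option autoImplicit false

open ModularCurve Polynomial

noncomputable section

namespace Fermat.Agent.GAL.KLC

open Fermat.Agent.S28

theorem order_coeffMap_of_injective {R S : Type*} [CommRing R] [CommRing S] (f : R →+* S)
    (hf : Function.Injective f) (x : LaurentSeries R) : (coeffMap f x).order = x.order := by
  by_cases hx : x = 0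
  · subst hx; simp
  · have hsupp : (coeffMap f x).support = x.support := by
      ext k
      simp only [HahnSeries.mem_support, coeffMap_coeff, ne_eq]
      rw [map_eq_zero_iff f hf]
    have hx' : coeffMap f x ≠ 0 := by
      intro h
      apply hx
      ext k
      have := congrArg (fun y => HahnSeries.coeff y k) h
      simpa [map_eq_zero_iff f hf] using this
    rw [HahnSeries.order_of_ne hx', HahnSeries.order_of_ne hx]
    congr 1

section Good0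

variable (ℓ : ℕ) [Fact ℓ.Prime]

/-- `y ∈ Ω̄` lies in `Ω = E((q^ℚ))`, is nonzero, and has order `ρ`. -/
def Good0 (y : Omb ℓ) (ρ : ℚ) : Prop :=
  ∃ z : Om ℓ, algebraMap (Om ℓ) (Omb ℓ) z = y ∧ z ≠ 0 ∧ z.order = ρ

variable {ℓ}

theorem Good0.one : Good0 ℓ 1 0 := ⟨1, map_one _, one_ne_zero, HahnSeries.order_one⟩

theorem Good0.mul {y y' : Omb ℓ} {ρ ρ' : ℚ} (h : Good0 ℓ y ρ) (h' : Good0 ℓ y' ρ') :
    Good0 ℓ (y * y') (ρ + ρ') := by
  obtain ⟨z, hz, hz0, hzo⟩ := h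
  obtain ⟨z', hz', hz0', hzo'⟩ := h'
  exact ⟨z * z', by rw [map_mul, hz, hz'], mul_ne_zero hz0 hz0', by
    rw [HahnSeries.order_mul hz0 hz0', hzo, hzo']⟩

theorem Good0.inv {y : Omb ℓ} {ρ : ℚ} (h : Good0 ℓ y ρ) : Good0 ℓ y⁻¹ (-ρ) := by
  obtain ⟨z, hz, hz0, hzo⟩ := h
  refine ⟨z⁻¹, by rw [map_inv₀, hz], inv_ne_zero hz0, ?_⟩
  have h3 := HahnSeries.order_mul hz0 (inv_ne_zero hz0)
  rw [mul_inv_cancel₀ hz0, HahnSeries.order_one, hzo] at h3
  linarith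

theorem Good0.congr {y y' : Omb ℓ} {ρ ρ' : ℚ} (h : Good0 ℓ y ρ) (hy : y = y') (hρ : ρ = ρ') :
    Good0 ℓ y' ρ' := by
  subst hy; subst hρ; exact h

theorem Good0.pow {y : Omb ℓ} {ρ : ℚ} (h : Good0 ℓ y ρ) (n : ℕ) : Good0 ℓ (y ^ n) (n * ρ) := by
  induction n with
  | zero => simpa using Good0.one
  | succ n ih => rw [pow_succ]; exact (ih.mul h).congr rfl (by push_cast; ring)

theorem Good0.zpow {y : Omb ℓ} {ρ : ℚ} (h : Good0 ℓ y ρ) (z : ℤ) : Good0 ℓ (y ^ z) (z * ρ) := by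
  cases z with
  | ofNat n => simpa using h.pow n
  | negSucc n =>
    rw [zpow_negSucc]
    exact (h.pow (n + 1)).inv.congr rfl (by push_cast [Int.negSucc_eq]; ring)

theorem Good0.prod {ι : Type*} (s : Finset ι) (y : ι → Omb ℓ) (ρ : ι → ℚ)
    (h : ∀ i ∈ s, Good0 ℓ (y i) (ρ i)) : Good0 ℓ (∏ i ∈ s, y i) (∑ i ∈ s, ρ i) := by
  classical
  induction s using Finset.induction_on with
  | empty => simpa using Good0.one
  | insert a s ha ih =>
    rw [Finset.prod_insert ha, Finset.sum_insert ha]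
    exact (h a (Finset.mem_insert_self a s)).mul
      (ih fun i hi => h i (Finset.mem_insert_of_mem hi))

theorem good0_ev (ξ : (EE ℓ)ˣ) {r : ℚ} (hr : 0 < r) {x : LaurentSeries (EE ℓ)} (hx : x ≠ 0) :
    Good0 ℓ (ev ℓ ξ r x) (r * x.order) :=
  ⟨phi ξ r x, rfl, fun h => hx (phi_injective ξ r (by rw [h, map_zero])), order_phi ξ hr x⟩

theorem good0_ratCast {c : ℚ} (hc : c ≠ 0) : Good0 ℓ ((c : ℚ) : Omb ℓ) 0 := by
  have := E4.charZero_Omb ℓ
  have hinj : Function.Injective (algebraMap (Om ℓ) (Omb ℓ)) := (algebraMap (Om ℓ) (Omb ℓ)).injective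
  have : CharZero (Om ℓ) := charZero_of_injective_ringHom
    (f := (HahnSeries.C : EE ℓ →+* Om ℓ)) (RingHom.injective _)
  refine ⟨HahnSeries.C ((c : ℚ) : EE ℓ), ?_, ?_, HahnSeries.order_C⟩
  · rw [map_ratCast, map_ratCast]
  · rw [map_ratCast]
    exact_mod_cast hc

/-- the shape of `σ(u_d)` given by `exists_param`: order `r_d - 1`. -/
theorem good0_u {y : Omb ℓ} {ξ : (EE ℓ)ˣ} {r : ℚ} {s : ℕ} (hr : 0 < r) (hs : s ≠ 0)
    (h : y * ev ℓ 1 1 (DqC (EE ℓ)) =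
      ((((s : ℚ)⁻¹) ^ 12 : ℚ) : Omb ℓ) * ev ℓ ξ r (DqC (EE ℓ))) :
    Good0 ℓ y (r - 1) := by
  have hsQ : (((s : ℚ)⁻¹) ^ 12 : ℚ) ≠ 0 := by positivity
  have g1 := good0_ratCast (ℓ := ℓ) hsQ
  have g2 := good0_ev (ℓ := ℓ) ξ hr (DqC_ne_zero (EE ℓ))
  have g3 := good0_ev (ℓ := ℓ) 1 one_pos (DqC_ne_zero (EE ℓ))
  rw [order_DqC] at g2 g3
  have hne : ev ℓ 1 1 (DqC (EE ℓ)) ≠ 0 := D_ev_DqC_ne_zero ℓ 1 1
  have hy : y = ((((s : ℚ)⁻¹) ^ 12 : ℚ) : Omb ℓ) * ev ℓ ξ r (DqC (EE ℓ)) *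
      (ev ℓ 1 1 (DqC (EE ℓ)))⁻¹ := by
    rw [← h, mul_assoc, mul_inv_cancel₀ hne, mul_one]
  exact ((g1.mul g2).mul g3.inv).congr hy.symm (by push_cast; ring)

end Good0

section Param

variable (N ℓ : ℕ) [Fact ℓ.Prime]

/-- `x = h j^e₀` as an element of `F'`. -/
def x0F : Fp N := E4.hh N * jF N ^ e0 N

theorem good0_sigma_hh (hN : N ≠ 0) (hℓN : ¬ ℓ ∣ N) (σ : Fp N →+* Omb ℓ)
    (hσ : σ (jF N) = iotaB ℓ jq) (hne : σ ≠ sigma0 N ℓ) :
    Good0 ℓ (σ (E4.hh N)) (e0 N) := by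
  obtain ⟨a, r, s, hpar⟩ := exists_param N ℓ hN hℓN σ hσ
  have hpar : E4.IsParam N ℓ σ a r s := hpar
  have hpos := hpar.pos hN
  have hgood : Good0 ℓ (σ (E4.hh N))
      (∑ T ∈ N.primeFactors.powerset, (E4.expT N T : ℚ) * (r (E4.dT N T) - 1)) := by
    unfold E4.hh
    rw [map_prod]
    apply Good0.prod
    intro T hT
    have hd := E4.dT_dvd N hT
    obtain ⟨hs1, -, -, hu⟩ := hpar.2.2.1 _ hd
    have hs : s (E4.dT N T) ≠ 0 := by
      intro h0
      rw [h0] at hs1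
      have := Nat.eq_zero_of_zero_dvd hs1
      rw [this] at hd
      exact hN (Nat.eq_zero_of_zero_dvd hd)
    rw [map_zpow₀]
    exact (good0_u (hpos _ hd) hs hu).zpow _
  have hsum : ∑ T ∈ N.primeFactors.powerset,
      (-1 : ℚ) ^ T.card * (∏ p ∈ N.primeFactors \ T, (p : ℚ)) * r (N / ∏ p ∈ T, p) = 0 := by
    rcases comb_main N hN r hpos hpar.2.1
      (fun p d hp hpd => (hpar.2.2.2 p d hp hpd).imp (fun h => h.1) (fun h => h.1))
      (hpar.hnb hN) with h | h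
    · exact absurd (hpar.eq_sigma0 hN h) hne
    · exact h
  have hval : ∑ T ∈ N.primeFactors.powerset, (E4.expT N T : ℚ) * (r (E4.dT N T) - 1) =
      ∏ p ∈ N.primeFactors, ((p : ℚ) - 1) := by
    rw [← comb_weight N, ← sub_zero (∑ T ∈ N.primeFactors.powerset,
      (-1 : ℚ) ^ T.card * (∏ p ∈ N.primeFactors \ T, (p : ℚ))), ← hsum, ← Finset.sum_sub_distrib]
    refine Finset.sum_congr rfl fun T _ => ?_
    unfold E4.expT E4.dT
    push_cast
    ring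
  refine hgood.congr rfl ?_
  rw [hval]
  unfold e0
  rw [Nat.cast_prod]
  refine Finset.prod_congr rfl fun p hp => ?_
  have : 1 ≤ p := (Nat.prime_of_mem_primeFactors hp).one_lt.le
  rw [Nat.cast_sub this, Nat.cast_one]

theorem good0_iotaB {x : LQ} (hx : x ≠ 0) : Good0 ℓ (iotaB ℓ x) x.order := by
  have h1 : iota0 ℓ x ≠ 0 := fun h => hx ((iota0 ℓ).injective (by rw [h, map_zero]))
  have h2 := good0_ev (ℓ := ℓ) 1 one_pos h1
  refine h2.congr rfl ?_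
  rw [one_mul]
  congr 1
  exact order_coeffMap_of_injective _ (Rat.castHom (EE ℓ)).injective x

/-- the other conjugates of `x` have order `0`. -/
theorem good0_sigma_x0F (hN : N ≠ 0) (hℓN : ¬ ℓ ∣ N) (σ : Fp N →+* Omb ℓ)
    (hσ : σ (jF N) = iotaB ℓ jq) (hne : σ ≠ sigma0 N ℓ) : Good0 ℓ (σ (x0F N)) 0 := by
  have h1 := good0_sigma_hh N ℓ hN hℓN σ hσ hne
  have hj : jq ≠ 0 := by
    intro h
    have := order_jqModC ℚ
    rw [jqModC_rat_eq, h, HahnSeries.order_zero] at this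
    omega
  have h2 := good0_iotaB ℓ hj
  rw [← hσ] at h2
  unfold x0F
  rw [map_mul, map_pow]
  refine (h1.mul (h2.pow (e0 N))).congr rfl ?_
  rw [← jqModC_rat_eq, order_jqModC]
  push_cast
  ring

end Param

end Fermat.Agent.GAL.KLC
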