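import Fermat.Agent.GAL.KLC.SpansOrd
import Fermat.Agent.S28.FieldSetup

/-!
# GAL / KLC-X3c : bounds for the coefficients of `∏ (X - σ x)`; separable version of `S28.exists_minpoly_factor`
-/

set_option autoImplicit false

open ModularCurve Polynomial

noncomputable section

namespace Fermat.Agent.GAL.KLC

open Fermat.Agent.S28

section Bd

variable (ℓ : ℕ) [Fact ℓ.Prime]

/-- `y ∈ Ω̄` lies in `Ω` and has order `≥ b`. -/
def Bd (y : Omb ℓ) (b : ℚ) : Prop :=
  ∃ z : Om ℓ, algebraMap (Om ℓ) (Omb ℓ) z = y ∧ (z = 0 ∨ b ≤ z.order)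

variable {ℓ}

theorem Bd.zero (b : ℚ) : Bd ℓ 0 b := ⟨0, map_zero _, Or.inl rfl⟩

theorem Good0.bd {y : Omb ℓ} {ρ : ℚ} (h : Good0 ℓ y ρ) : Bd ℓ y ρ := by
  obtain ⟨z, hz, -, hzo⟩ := h
  exact ⟨z, hz, Or.inr hzo.ge⟩

theorem Bd.mono {y : Omb ℓ} {b b' : ℚ} (h : Bd ℓ y b) (hb : b' ≤ b) : Bd ℓ y b' := by
  obtain ⟨z, hz, h0⟩ := h
  exact ⟨z, hz, h0.imp id fun h => hb.trans h⟩

theorem Bd.neg {y : Omb ℓ} {b : ℚ} (h : Bd ℓ y b) : Bd ℓ (-y) b := by
  obtain ⟨z, hz, h0⟩ := h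
  exact ⟨-z, by rw [map_neg, hz], h0.imp (fun h => by rw [h, neg_zero])
    fun h => by rwa [HahnSeries.order_neg]⟩

theorem Bd.add {y y' : Omb ℓ} {b : ℚ} (h : Bd ℓ y b) (h' : Bd ℓ y' b) : Bd ℓ (y + y') b := by
  obtain ⟨z, hz, h0⟩ := h
  obtain ⟨z', hz', h0'⟩ := h'
  refine ⟨z + z', by rw [map_add, hz, hz'], ?_⟩
  rcases h0 with rfl | h0
  · rw [zero_add]; exact h0'
  rcases h0' with rfl | h0'
  · rw [add_zero]; exact Or.inr h0
  by_cases hs : z + z' = 0
  · exact Or.inl hs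
  · exact Or.inr ((le_min h0 h0').trans (HahnSeries.min_order_le_order_add hs))

theorem Bd.mul {y y' : Omb ℓ} {b b' : ℚ} (h : Bd ℓ y b) (h' : Bd ℓ y' b') :
    Bd ℓ (y * y') (b + b') := by
  obtain ⟨z, hz, h0⟩ := h
  obtain ⟨z', hz', h0'⟩ := h'
  refine ⟨z * z', by rw [map_mul, hz, hz'], ?_⟩
  rcases h0 with rfl | h0
  · left; rw [zero_mul]
  rcases h0' with rfl | h0'
  · left; rw [mul_zero]
  by_cases hz0 : z = 0
  · left; rw [hz0, zero_mul]
  by_cases hz0' : z' = 0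
  · left; rw [hz0', mul_zero]
  right
  rw [HahnSeries.order_mul hz0 hz0']
  exact add_le_add h0 h0'

theorem Bd.one : Bd ℓ 1 0 := Good0.one.bd

/-- a good element of order `ρ` which is bounded by `b` has `b ≤ ρ`. -/
theorem Good0.le_of_bd {y : Omb ℓ} {ρ b : ℚ} (h : Good0 ℓ y ρ) (h' : Bd ℓ y b) : b ≤ ρ := by
  obtain ⟨z, hz, hz0, hzo⟩ := h
  obtain ⟨z', hz', h0'⟩ := h'
  have : z' = z := (algebraMap (Om ℓ) (Omb ℓ)).injective (hz'.trans hz.symm)
  subst this
  rcases h0' with h | h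
  · exact absurd h hz0
  · rwa [hzo] at h

theorem Good0.unique {y : Omb ℓ} {ρ ρ' : ℚ} (h : Good0 ℓ y ρ) (h' : Good0 ℓ y ρ') : ρ = ρ' :=
  le_antisymm (h'.le_of_bd h.bd) (h.le_of_bd h'.bd)

theorem bd_coeff_X_sub_C_mul {y : Omb ℓ} {b c : ℚ} (hb : b ≤ 0) (hy : Bd ℓ y b) (Q : (Omb ℓ)[X])
    (hQ : ∀ n, Bd ℓ (Q.coeff n) c) (n : ℕ) : Bd ℓ (((X - C y) * Q).coeff n) (b + c) := by
  rw [sub_mul]
  rw [coeff_sub, coeff_C_mul]
  have h2 : Bd ℓ (y * Q.coeff n) (b + c) := hy.mul (hQ n)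
  cases n with
  | zero =>
    rw [coeff_X_mul_zero, zero_sub]
    exact h2.neg
  | succ n =>
    rw [coeff_X_mul, sub_eq_add_neg]
    exact ((hQ n).mono (by linarith)).add h2.neg

theorem bd_coeff_prod (t : Multiset (Omb ℓ)) (h : ∀ y ∈ t, Bd ℓ y 0) (n : ℕ) :
    Bd ℓ ((t.map fun y => X - C y).prod.coeff n) 0 := by
  induction t using Multiset.induction_on generalizing n with
  | empty =>
    rw [Multiset.map_zero, Multiset.prod_zero, coeff_one]
    split_ifs
    · exact Bd.one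
    · exact Bd.zero 0
  | cons a t ih =>
    rw [Multiset.map_cons, Multiset.prod_cons]
    have := bd_coeff_X_sub_C_mul (b := 0) (c := 0) le_rfl (h a (Multiset.mem_cons_self a t)) _
      (fun n => ih (fun y hy => h y (Multiset.mem_cons_of_mem hy)) n) n
    simpa using this

/-- one root of order `≥ b` (`b ≤ 0`), all the other roots of order `≥ 0`. -/
theorem bd_coeff_prod_of_nodup (t : Multiset (Omb ℓ)) (ht : t.Nodup) (y₀ : Omb ℓ) {b : ℚ}
    (hb : b ≤ 0) (hy₀ : Bd ℓ y₀ b) (h : ∀ y ∈ t, y ≠ y₀ → Bd ℓ y 0) (n : ℕ) :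
    Bd ℓ ((t.map fun y => X - C y).prod.coeff n) b := by
  classical
  by_cases hmem : y₀ ∈ t
  · obtain ⟨t', rfl⟩ := Multiset.exists_cons_of_mem hmem
    rw [Multiset.nodup_cons] at ht
    rw [Multiset.map_cons, Multiset.prod_cons]
    have := bd_coeff_X_sub_C_mul (c := 0) hb hy₀ _
      (fun n => bd_coeff_prod t' (fun y hy => h y (Multiset.mem_cons_of_mem hy)
        (fun h0 => ht.1 (h0 ▸ hy))) n) n
    simpa using this
  · exact (bd_coeff_prod t (fun y hy => h y hy (fun h0 => hmem (h0 ▸ hy))) n).mono hb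

end Bd

section F1

variable {A K L E : Type*} [CommRing A] [IsDomain A] [IsIntegrallyClosed A] [Field K]
  [Algebra A K] [IsFractionRing A K] [Field L] [Algebra K L] [Algebra A L] [IsScalarTower A K L]
  [FiniteDimensional K L] [CharZero K] [Field E] [IsAlgClosed E] [Algebra K E] [Algebra A E]
  [IsScalarTower A K E]

theorem spansPoly_f1 (x : L) (hx : IsIntegral A x) :
    ∃ (P : A[X]) (s : Multiset (L →ₐ[K] E)), P.Monic ∧ aeval x P = 0 ∧
      P.map (algebraMap A E) = ((s.map fun σ => σ x).map fun y => X - C y).prod ∧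
      (s.map fun σ => σ x).Nodup := by
  have hmap : minpoly K x = (minpoly A x).map (algebraMap A K) :=
    minpoly.isIntegrallyClosed_eq_field_fractions' K hx
  have hmonic : (minpoly A x).Monic := minpoly.monic hx
  set Q : E[X] := (minpoly A x).map (algebraMap A E) with hQ
  have hQK : Q = (minpoly K x).map (algebraMap K E) := by
    rw [hmap, Polynomial.map_map, ← IsScalarTower.algebraMap_eq]
  have hQmonic : Q.Monic := hmonic.map _
  have hsplit : Q.Splits := IsAlgClosed.splits Q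
  have hxK : IsIntegral K x := hx.tower_top
  have hsep : Q.Separable := by
    rw [hQK]
    exact ((minpoly.irreducible hxK).separable).map
  have hroots : ∀ r ∈ Q.roots, ∃ σ : L →ₐ[K] E, σ x = r := by
    intro r hr
    have hr' : r ∈ (minpoly K x).rootSet E := by
      rw [Polynomial.rootSet, Polynomial.aroots, ← hQK]
      simpa using hr
    rw [← (Algebra.IsAlgebraic.of_finite K L).range_eval_eq_rootSet_minpoly E x] at hr'
    exact hr'
  obtain ⟨s, hs⟩ := f1_exists_multiset_map (fun σ : L →ₐ[K] E => σ x) Q.roots hroots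
  refine ⟨minpoly A x, s, hmonic, minpoly.aeval A x, ?_, ?_⟩
  · rw [hs]
    exact (hsplit.eq_prod_roots_of_monic hQmonic)
  · rw [hs]
    exact nodup_roots hsep

end F1

section F1setup

variable {𝔸 F Ωb : Type*} [CommRing 𝔸] [Field F] [Field Ωb] [IsDomain 𝔸] [IsIntegrallyClosed 𝔸]
  [CharZero F] [IsAlgClosed Ωb] (i : 𝔸 →+* F) (e : 𝔸 →+* Ωb)

theorem spansPoly_factor (hi : Function.Injective i) (he : Function.Injective e)
    (hfd : FiniteDimensional (Subfield.closure (Set.range i)) F)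
    (x : F) (hx : i.IsIntegralElem x) :
    ∃ (P : 𝔸[X]) (t : Multiset Ωb), P.Monic ∧ P.eval₂ i x = 0 ∧
      P.map e = (t.map fun y => X - C y).prod ∧ t.Nodup ∧
      ∀ y ∈ t, ∃ σ : F →+* Ωb, σ.comp i = e ∧ σ x = y := by
  let _ : Algebra (Subfield.closure (Set.range i)) Ωb := (f1_lift i e hi he).toAlgebra
  let _ : Algebra 𝔸 (Subfield.closure (Set.range i)) := (f1_cod i).toAlgebra
  let _ : Algebra 𝔸 F := i.toAlgebra
  let _ : Algebra 𝔸 Ωb := e.toAlgebra
  have := f1_isFractionRing i hi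
  have : IsScalarTower 𝔸 (Subfield.closure (Set.range i)) F :=
    IsScalarTower.of_algebraMap_eq fun _ => rfl
  have : IsScalarTower 𝔸 (Subfield.closure (Set.range i)) Ωb :=
    IsScalarTower.of_algebraMap_eq fun a => (f1_lift_cod i e hi he a).symm
  have : CharZero (Subfield.closure (Set.range i)) :=
    ⟨fun a b hab => Nat.cast_injective (R := F) (by
      have := congrArg (Subtype.val) hab
      simpa using this)⟩
  obtain ⟨P, s, hP, hPx, hPs, hnd⟩ :=
    spansPoly_f1 (A := 𝔸) (K := Subfield.closure (Set.range i)) (E := Ωb) x hx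
  refine ⟨P, s.map fun σ => σ x, hP, hPx, hPs, hnd, ?_⟩
  intro y hy
  obtain ⟨σ, -, rfl⟩ := Multiset.mem_map.mp hy
  exact ⟨((f1_equiv i e hi he).symm σ).1, ((f1_equiv i e hi he).symm σ).2, rfl⟩

end F1setup

end Fermat.Agent.GAL.KLC
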