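import Fermat.Agent.GAL.KLC.SpansPoly
import Fermat.Agent.GAL.KLC.XSeries
import Fermat.Agent.S28.Base

/-!
# GAL / KLC-X3d : the relation between `j` and `x` over `ℚ`, and `F' = ℚ(j, x)`
-/

set_option autoImplicit false

open ModularCurve Polynomial

noncomputable section

namespace Fermat.Agent.GAL.KLC

open Fermat.Agent.S28

section

variable (N ℓ : ℕ) [Fact ℓ.Prime]

theorem isIntegralElem_x0F (hN : N ≠ 0) (hℓN : ¬ ℓ ∣ N) :
    (iT N ℓ (jF N)).IsIntegralElem (x0F N) := by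
  unfold x0F
  apply RingHom.IsIntegralElem.mul
  · unfold E4.hh
    apply E4.isIntegralElem_prod
    intro T hT
    obtain ⟨-, h1, h2⟩ := gens_integral N ℓ hN hℓN _ (E4.dT_dvd N hT)
    exact E4.isIntegralElem_zpow _ h1 h2 _
  · have h1 : (iT N ℓ (jF N)).IsIntegralElem (jF N) := by
      have := (iT N ℓ (jF N)).isIntegralElem_map (x := (X : (Zl ℓ)[X]))
      rwa [base_iT_X] at this
    let _ : Algebra (Zl ℓ)[X] (Fp N) := (iT N ℓ (jF N)).toAlgebra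
    have h2 : IsIntegral (Zl ℓ)[X] (jF N) := h1
    exact h2.pow _

/-- `x` in `ℚ((q))`. -/
theorem coe_x0F (hN : N ≠ 0) : ((x0F N : Fp N) : LQ) = coeffMap (Int.castRingHom ℚ) (XZ N) := by
  have : NeZero N := ⟨hN⟩
  unfold x0F XZ E4.hh
  rw [map_mul, map_pow, coeffMap_jqModC]
  have h1 : coeffMap (Int.castRingHom ℚ) ((hU N : (LaurentSeries ℤ)ˣ) : LaurentSeries ℤ)
      = ((Units.map (coeffMap (Int.castRingHom ℚ) : LaurentSeries ℤ →* LaurentSeries ℚ) (hU N)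
          : (LaurentSeries ℚ)ˣ) : LaurentSeries ℚ) := rfl
  rw [h1]
  unfold hU
  rw [map_prod, Units.coe_prod]
  push_cast
  congr 1
  refine Finset.prod_congr rfl fun T hT => ?_
  rw [map_zpow, Units.val_zpow_eq_zpow_val]
  have h2 : ((Units.map (coeffMap (Int.castRingHom ℚ) : LaurentSeries ℤ →* LaurentSeries ℚ)
      (uU (S28.E4.dT N T)) : (LaurentSeries ℚ)ˣ) : LaurentSeries ℚ)
      = coeffMap (Int.castRingHom ℚ) ((uU (S28.E4.dT N T) : (LaurentSeries ℤ)ˣ) : LaurentSeries ℤ) :=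
    rfl
  rw [h2, xMem_coeffMap_uU, ← D_coe_udF N (E4.dT_dvd N hT)]
  exact map_zpow₀ (algebraMap (Fp N) LQ) _ _

theorem order_x0F (hN : N ≠ 0) : ((x0F N : Fp N) : LQ).order = -(mX N : ℤ) := by
  have : NeZero N := ⟨hN⟩
  rw [coe_x0F N hN, order_coeffMap_of_injective _ (Int.cast_injective (α := ℚ)),
    XSeries_mX, (XSeries_XZ N).order]

theorem x0F_ne_zero (hN : N ≠ 0) : ((x0F N : Fp N) : LQ) ≠ 0 := by
  have : NeZero N := ⟨hN⟩
  intro h
  have h1 := order_x0F N hN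
  rw [h, HahnSeries.order_zero] at h1
  have := mX_pos N
  omega

theorem good0_sigma0_x0F (hN : N ≠ 0) : Good0 ℓ (sigma0 N ℓ (x0F N)) (-(mX N : ℚ)) := by
  have h := good0_iotaB ℓ (x0F_ne_zero N hN)
  rw [order_x0F N hN] at h
  exact h.congr rfl (by push_cast; ring)

/-- an embedding over `ℚ(j)` which fixes `x` is `σ₀`. -/
theorem eq_sigma0_of_x0F (hN : N ≠ 0) (hℓN : ¬ ℓ ∣ N) (σ : Fp N →+* Omb ℓ)
    (hσ : σ (jF N) = iotaB ℓ jq) (hx : σ (x0F N) = sigma0 N ℓ (x0F N)) : σ = sigma0 N ℓ := by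
  have : NeZero N := ⟨hN⟩
  by_contra hne
  have h1 := good0_sigma_x0F N ℓ hN hℓN σ hσ hne
  rw [hx] at h1
  have h2 := h1.unique (good0_sigma0_x0F N ℓ hN)
  have h3 : (0 : ℚ) < mX N := by exact_mod_cast mX_pos N
  linarith

theorem exists_relation_Zl (hN : N ≠ 0) (hℓN : ¬ ℓ ∣ N) :
    ∃ P : (Zl ℓ)[X][X], P.Monic ∧ P.eval₂ (iT N ℓ (jF N)) (x0F N) = 0 ∧
      ∀ k, (P.coeff k).natDegree ≤ mX N := by
  have : CharZero (Fp N) := inferInstance
  obtain ⟨P, t, hP, hPx, hPt, hnd, ht⟩ := spansPoly_factor (iT N ℓ (jF N)) (eT N ℓ (jF N))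
    (iT_injective N ℓ _ (Or.inl rfl)) (eT_injective N ℓ _ (Or.inl rfl))
    (finiteDimensional_Fp N ℓ hN hℓN _ (Or.inl rfl)) (x0F N) (isIntegralElem_x0F N ℓ hN hℓN)
  refine ⟨P, hP, hPx, fun k => ?_⟩
  have hm0 : (-(mX N : ℚ)) ≤ 0 := by
    have : (0 : ℚ) ≤ mX N := Nat.cast_nonneg _
    linarith
  have hbd := bd_coeff_prod_of_nodup t hnd (sigma0 N ℓ (x0F N)) hm0 (good0_sigma0_x0F N ℓ hN).bd
    (fun y hy hne => by
      obtain ⟨σ, hσ, rfl⟩ := ht y hy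
      have hσj := (comp_iT_eq_iff N ℓ _ (Or.inl rfl) σ).mp hσ
      have hne' : σ ≠ sigma0 N ℓ := fun h => hne (by rw [h])
      exact (good0_sigma_x0F N ℓ hN hℓN σ hσj hne').bd) k
  rw [← hPt, coeff_map] at hbd
  by_cases hc : P.coeff k = 0
  · rw [hc]; simp
  have hc' : (P.coeff k).map (baseCast ℓ) ≠ 0 :=
    (Polynomial.map_ne_zero_iff (baseCast_injective ℓ)).mpr hc
  obtain ⟨ho, hne⟩ := order_aeval_jqModC_phi (EE ℓ) 1 one_pos _ hc'
  have hgood : Good0 ℓ (eT N ℓ (jF N) (P.coeff k)) (-(1 * ((P.coeff k).map (baseCast ℓ)).natDegree)) :=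
    ⟨_, (base_eT_eq N ℓ (jF N) _ (base_iotaB_jq ℓ) _).symm, hne, ho⟩
  have hle := hgood.le_of_bd hbd
  rw [natDegree_map_eq_of_injective (baseCast_injective ℓ)] at hle
  have : ((P.coeff k).natDegree : ℚ) ≤ mX N := by linarith
  exact_mod_cast this

end

/-- the relation over `ℚ`. -/
theorem exists_relation (M : ℕ) [NeZero M] :
    ∃ (D : ℕ) (c : ℕ → ℚ[X]), c D = 1 ∧ (∀ k, (c k).natDegree ≤ mX M) ∧
      ∑ k ∈ Finset.range (D + 1), aeval jq (c k) * (coeffMap (Int.castRingHom ℚ) (XZ M)) ^ k = 0 := by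
  have hN : M ≠ 0 := NeZero.ne M
  obtain ⟨ℓ, hℓ1, hℓ2⟩ := Nat.exists_infinite_primes (M + 1)
  have : Fact ℓ.Prime := ⟨hℓ2⟩
  have hℓN : ¬ ℓ ∣ M := fun h => by
    have := Nat.le_of_dvd (Nat.pos_of_ne_zero hN) h
    omega
  obtain ⟨P, hP, hPx, hdeg⟩ := exists_relation_Zl M ℓ hN hℓN
  refine ⟨P.natDegree, fun k => (P.coeff k).map (GaloisRep.ratLocalizedAt ℓ).subtype, ?_, ?_, ?_⟩
  · show (P.coeff P.natDegree).map _ = 1
    rw [coeff_natDegree, hP.leadingCoeff, Polynomial.map_one]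
  · intro k
    exact natDegree_map_le.trans (hdeg k)
  · rw [eval₂_eq_sum_range] at hPx
    rw [← coe_x0F M hN]
    rw [← ZeroMemClass.coe_zero (Fp M), ← hPx]
    push_cast
    refine Finset.sum_congr rfl fun k _ => ?_
    congr 1
    have h1 : ((iT M ℓ (jF M) (P.coeff k) : Fp M) : LQ)
        = algebraMap (Fp M) LQ (iT M ℓ (jF M) (P.coeff k)) := rfl
    rw [h1, iT, coe_eval₂RingHom, hom_eval₂, aeval_def, eval₂_map]
    congr 1
    exact ratLocalizedAt_ringHom_ext ℓ _ _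

end Fermat.Agent.GAL.KLC
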